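import Mathlib
import Fermat.Prelude.Def_ModularCurve_ArithmeticGalois
import Fermat.Prelude.Def_ModularCurve_GenusNumerics
import Fermat.Prelude.Def_AlgebraicCurve_CanonicalDivisor

/-!
# S24: common definitions
-/

namespace Fermat.Agent.S24

open ModularCurve AlgebraicCurve HahnSeries

/-- Scaling `u ↦ c u` on Laurent series: the coefficient of `u ^ n` is multiplied by `c ^ n`. -/
noncomputable def scaleFun (c : ℂ) (f : LaurentSeries ℂ) : LaurentSeries ℂ where
  coeff n := c ^ n * f.coeff n
  isPWO_support' := f.isPWO_support.mono fun n hn => by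
    simp only [Function.mem_support, ne_eq, mul_eq_zero, not_or] at hn
    exact hn.2

@[simp] lemma scaleFun_coeff (c : ℂ) (f : LaurentSeries ℂ) (n : ℤ) :
    (scaleFun c f).coeff n = c ^ n * f.coeff n := rfl

/-- `φ : ℍ → ℂ` is the sum of the Laurent series `f` in the local parameter `w`. -/
def HasExp (w : UpperHalfPlane → ℂ) (f : LaurentSeries ℂ) (φ : UpperHalfPlane → ℂ) : Prop :=
  ∀ z, Summable (fun n : ℤ => ‖f.coeff n * w z ^ n‖) ∧ HasSum (fun n : ℤ => f.coeff n * w z ^ n) (φ z)

/-- `ℚ̄`. -/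
abbrev Kb : Type := AlgebraicClosure ℚ

/-- The function field of `X₀(N)` over `ℚ̄`. -/
abbrev FN (N : ℕ) [NeZero N] : Type := ↥(modularFunctionFieldBar N)

/-- `j(q^d)` as an element of the function field. -/
noncomputable def jd (N : ℕ) [NeZero N] (d : ℕ) [NeZero d] (hd : d ∣ N) : FN N :=
  ⟨coeffEmb Kb (qExpand ℚ d jq), coeffEmb_mem_laurentBaseChange Kb (jqd_mem_full N hd)⟩

/-- `j` as an element of the function field. -/
noncomputable def jBar (N : ℕ) [NeZero N] : FN N :=
  ⟨coeffEmb Kb jq, coeffEmb_mem_laurentBaseChange Kb (modularFunctionField_le_full N (jq_mem N))⟩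

end Fermat.Agent.S24
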