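import Mathlib
import Fermat.Agent.S24.Defs
import Fermat.Agent.X0.P1
import Fermat.Agent.X0.JFun

/-!
# S24, analytic part (G3): common definitions
-/

set_option autoImplicit false

namespace Fermat.Agent.S24

open UpperHalfPlane ModularForm EisensteinSeries ModularCurve HahnSeries
open Fermat.Agent.X0
open scoped MatrixGroups Manifold

/-- the fixed embedding `ℚ̄ → ℂ` -/
noncomputable def iotaC : Kb →+* ℂ :=
  letI : Algebra ℚ (AlgebraicClosure ℚ) := AlgebraicClosure.instAlgebra ℚ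
  ((IsAlgClosed.lift : AlgebraicClosure ℚ →ₐ[ℚ] ℂ) : AlgebraicClosure ℚ →+* ℂ)

/-- `z ↦ (A z + B) / D` on the upper half plane (`A, D > 0`). -/
noncomputable def affH (A : ℕ) (B : ℤ) (D : ℕ) [NeZero A] [NeZero D] (z : ℍ) : ℍ :=
  ⟨((A : ℂ) * z + B) / D, by
    have hA : (0 : ℝ) < A := by exact_mod_cast Nat.pos_of_ne_zero (NeZero.ne A)
    have hD : (0 : ℝ) < D := by exact_mod_cast Nat.pos_of_ne_zero (NeZero.ne D)
    have e : (((A : ℂ) * z + B) / D) = (((A : ℝ) * (z : ℂ) + (B : ℝ)) / (D : ℝ) : ℂ) := by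
      push_cast; ring
    rw [e, Complex.div_ofReal_im]
    simp only [Complex.add_im, Complex.mul_im, Complex.ofReal_re, Complex.ofReal_im, zero_mul,
      add_zero]
    exact div_pos (mul_pos hA z.im_pos) hD⟩

@[simp] lemma coe_affH (A : ℕ) (B : ℤ) (D : ℕ) [NeZero A] [NeZero D] (z : ℍ) :
    ((affH A B D z : ℍ) : ℂ) = ((A : ℂ) * z + B) / D := rfl

/-- `j(d z)` -/
noncomputable def jdFun (d : ℕ) [NeZero d] (z : ℍ) : ℂ := jFun (affH d 0 1 z)

/-- An *expansion relation*: a relation between functions on `ℍ` and Laurent series which is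
compatible with the ring structures and injective in both directions. -/
structure ExpRel (R : (ℍ → ℂ) → LaurentSeries ℂ → Prop) : Prop where
  add : ∀ {φ ψ f g}, R φ f → R ψ g → R (φ + ψ) (f + g)
  mul : ∀ {φ ψ f g}, R φ f → R ψ g → R (φ * ψ) (f * g)
  const : ∀ c : ℂ, R (fun _ => c) (HahnSeries.C c)
  eq_zero_iff : ∀ {φ f}, R φ f → (f = 0 ↔ φ = 0)

/-- periodic of period `h`, holomorphic, bounded at `i∞` -/
def IsNiceH (h : ℝ) (f : ℍ → ℂ) : Prop :=
  Function.Periodic (f ∘ ofComplex) (h : ℂ) ∧ MDiff f ∧ IsBoundedAtImInfty f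

/-- expansion at `i∞` in the parameter `e(z / h)`, for quotients of nice functions. -/
def RelInf (h : ℝ) (φ : ℍ → ℂ) (s : LaurentSeries ℂ) : Prop :=
  ∃ a c : ℍ → ℂ, IsNiceH h a ∧ IsNiceH h c ∧ (∀ z, c z ≠ 0) ∧ (∀ z, φ z * c z = a z) ∧
    s * HahnSeries.ofPowerSeries ℤ ℂ (qExpansion h c) =
      HahnSeries.ofPowerSeries ℤ ℂ (qExpansion h a)

/-- the inverse Cayley chart `w ↦ (z₀ - conj z₀ w) / (1 - w)` centred at `z₀`. -/
noncomputable def cay (z₀ : ℍ) (w : ℂ) : ℂ :=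
  ((z₀ : ℂ) - (starRingEnd ℂ) (z₀ : ℂ) * w) / (1 - w)

/-- Taylor series at `0`. -/
noncomputable def tay (F : ℂ → ℂ) : PowerSeries ℂ :=
  PowerSeries.mk fun n => ((n.factorial : ℂ))⁻¹ * iteratedDeriv n F 0

/-- expansion at `z₀ ∈ ℍ` in the Cayley parameter `(z - z₀) / (z - conj z₀)`. -/
def RelAt (z₀ : ℍ) (φ : ℍ → ℂ) (s : LaurentSeries ℂ) : Prop :=
  MDiff φ ∧ s = HahnSeries.ofPowerSeries ℤ ℂ (tay fun w => φ (ofComplex (cay z₀ w)))

/-- moderate growth at `i∞` -/
def IsMod (φ : ℍ → ℂ) : Prop :=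
  ∃ m : ℕ, IsBoundedAtImInfty (fun z => φ z * ModularForm.discriminant z ^ m)

/-- the index type of the generators -/
abbrev Dv (N : ℕ) : Type := {d : ℕ // d ∣ N}

instance (N : ℕ) [NeZero N] (d : Dv N) : NeZero d.1 :=
  ⟨fun h => NeZero.ne N (Nat.eq_zero_of_zero_dvd (h ▸ d.2))⟩

/-- the generators `j(q^d)` of the function field -/
noncomputable def jdS (N : ℕ) [NeZero N] (d : Dv N) : FN N := jd N d.1 d.2

/-- polynomials in the generators, evaluated in the function field -/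
noncomputable def piN (N : ℕ) [NeZero N] : MvPolynomial (Dv N) Kb →ₐ[Kb] FN N :=
  MvPolynomial.aeval (jdS N)

/-- constants as functions -/
noncomputable def constFun : Kb →+* (ℍ → ℂ) := (Pi.constRingHom ℍ ℂ).comp iotaC

/-- polynomials in the generators, evaluated as functions on `ℍ` -/
noncomputable def evN (N : ℕ) [NeZero N] : MvPolynomial (Dv N) Kb →+* (ℍ → ℂ) :=
  MvPolynomial.eval₂Hom constFun (fun d => jdFun d.1)

noncomputable instance (N : ℕ) [NeZero N] : Fintype (Cos N) := Fintype.ofFinite _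

/-- the conjugates of a `Γ₀(N)`-invariant function -/
noncomputable def conjF (N : ℕ) (θ : ℍ → ℂ) (x : Cos N) (z : ℍ) : ℂ :=
  θ ((Quotient.out x : SL(2, ℤ))⁻¹ • z)

/-- `ρ = e^{2πi/3}` -/
noncomputable def rhoH : ℍ :=
  ⟨-1 / 2 + (Real.sqrt 3 / 2 : ℝ) * Complex.I, by
    simp only [Complex.add_im, Complex.mul_im, Complex.ofReal_re, Complex.I_im, mul_one,
      Complex.ofReal_im, Complex.I_re, mul_zero, add_zero]
    have : (0 : ℝ) < Real.sqrt 3 / 2 := by positivity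
    have h2 : ((-1 / 2 : ℂ)).im = 0 := by norm_num
    rw [h2, zero_add]
    exact this⟩

/-- `U = S * T`, of order 3 in `PSL(2,ℤ)` (same as `Fermat.Agent.X0.Umat`) -/
def Umat' : SL(2, ℤ) := ModularGroup.S * ModularGroup.T

end Fermat.Agent.S24
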