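import Mathlib
import Fermat.Agent.S24.AnDefs

/-!
# S24 (H4): matrices
-/

set_option autoImplicit false

namespace Fermat.Agent.S24

open UpperHalfPlane ModularForm EisensteinSeries ModularCurve HahnSeries CongruenceSubgroup
open Fermat.Agent.X0
open scoped MatrixGroups Manifold Real

lemma mat_coe_smul (g : SL(2, ℤ)) (z : ℍ) :
    ((g • z : ℍ) : ℂ) = ((g 0 0 : ℂ) * z + (g 0 1 : ℂ)) / ((g 1 0 : ℂ) * z + (g 1 1 : ℂ)) := by
  rw [coe_specialLinearGroup_apply]; simp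

lemma mat_denom_ne (g : SL(2, ℤ)) (z : ℍ) : ((g 1 0 : ℂ) * z + (g 1 1 : ℂ)) ≠ 0 := by
  have := denom_ne_zero g z
  rwa [ModularGroup.denom_apply] at this

lemma affH_smul_eq (d A D : ℕ) (B : ℤ) [NeZero d] [NeZero A] [NeZero D] (g γ : SL(2, ℤ))
    (h1 : γ 0 0 * A = d * g 0 0) (h2 : γ 1 0 * A = g 1 0)
    (h3 : γ 0 0 * B + γ 0 1 * D = d * g 0 1) (h4 : γ 1 0 * B + γ 1 1 * D = g 1 1) (z : ℍ) :
    affH d 0 1 (g • z) = γ • affH A B D z := by
  apply UpperHalfPlane.ext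
  rw [coe_affH, mat_coe_smul, mat_coe_smul, coe_affH]
  have hD : (D : ℂ) ≠ 0 := Nat.cast_ne_zero.mpr (NeZero.ne D)
  have hg := mat_denom_ne g z
  have hγ := mat_denom_ne γ (affH A B D z)
  rw [coe_affH] at hγ
  have h1' : (γ 0 0 : ℂ) * A = d * g 0 0 := by exact_mod_cast congrArg (Int.cast : ℤ → ℂ) h1
  have h2' : (γ 1 0 : ℂ) * A = g 1 0 := by exact_mod_cast congrArg (Int.cast : ℤ → ℂ) h2
  have h3' : (γ 0 0 : ℂ) * B + γ 0 1 * D = d * g 0 1 := by
    exact_mod_cast congrArg (Int.cast : ℤ → ℂ) h3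
  have h4' : (γ 1 0 : ℂ) * B + γ 1 1 * D = g 1 1 := by
    exact_mod_cast congrArg (Int.cast : ℤ → ℂ) h4
  have e1 : (γ 1 0 : ℂ) * (((A : ℂ) * z + B) / D) + γ 1 1 = ((g 1 0 : ℂ) * z + g 1 1) / D := by
    field_simp
    linear_combination (z : ℂ) * h2' + h4'
  have e2 : (γ 0 0 : ℂ) * (((A : ℂ) * z + B) / D) + γ 0 1 =
      (d : ℂ) * ((g 0 0 : ℂ) * z + g 0 1) / D := by
    field_simp
    linear_combination (z : ℂ) * h1' + h3'
  rw [e1, e2]
  field_simp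
  simp

lemma mat_det (g : SL(2, ℤ)) : g 0 0 * g 1 1 - g 0 1 * g 1 0 = 1 := by
  have := g.det_coe
  rwa [Matrix.det_fin_two] at this

theorem mat_decomp (d : ℕ) [NeZero d] (g : SL(2, ℤ)) :
    ∃ (A D : ℕ) (B : ℤ) (_ : NeZero A) (_ : NeZero D), A * D = d ∧
      A = Nat.gcd d (g 1 0).natAbs ∧ ∀ z : ℍ, jdFun d (g • z) = jFun (affH A B D z) := by
  have hd0 : 0 < d := Nat.pos_of_ne_zero (NeZero.ne d)
  set A : ℕ := Nat.gcd d (g 1 0).natAbs with hA
  have hApos : 0 < A := Nat.gcd_pos_of_pos_left _ hd0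
  obtain ⟨D, hD⟩ : A ∣ d := Nat.gcd_dvd_left _ _
  have hDpos : 0 < D := by
    rcases Nat.eq_zero_or_pos D with h | h
    · rw [h, mul_zero] at hD; omega
    · exact h
  obtain ⟨c', hc'⟩ : (A : ℤ) ∣ g 1 0 := by
    exact Int.natCast_dvd.mpr (Nat.gcd_dvd_right _ _)
  have hdet := mat_det g
  -- `D` and `c'` are coprime
  have hcop1 : IsCoprime (D : ℤ) c' := by
    have h1 : Int.gcd (d : ℤ) (g 1 0) = A := by
      rw [hA, Int.gcd_def]; simp
    obtain ⟨u, v, huv⟩ : ∃ u v : ℤ, (A : ℤ) = d * u + g 1 0 * v := by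
      refine ⟨Int.gcdA d (g 1 0), Int.gcdB d (g 1 0), ?_⟩
      rw [← h1]
      exact Int.gcd_eq_gcd_ab _ _
    refine ⟨u, v, ?_⟩
    have hA0 : (A : ℤ) ≠ 0 := by exact_mod_cast hApos.ne'
    apply mul_left_cancel₀ hA0
    have hD' : (d : ℤ) = A * D := by exact_mod_cast hD
    rw [hD', hc'] at huv
    linear_combination -huv
  have hcop2 : IsCoprime (g 0 0) c' := by
    refine ⟨g 1 1, -(g 0 1) * A, ?_⟩
    rw [hc'] at hdet
    linear_combination hdet
  obtain ⟨y, x', hxy⟩ : IsCoprime ((D : ℤ) * g 0 0) c' := hcop1.mul_left hcop2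
  let γ : SL(2, ℤ) := ⟨!![(D : ℤ) * g 0 0, -x'; c', y], by
    rw [Matrix.det_fin_two_of]; linear_combination hxy⟩
  have g00 : γ 0 0 = (D : ℤ) * g 0 0 := rfl
  have g01 : γ 0 1 = -x' := rfl
  have g10 : γ 1 0 = c' := rfl
  have g11 : γ 1 1 = y := rfl
  have hD' : (d : ℤ) = A * D := by exact_mod_cast hD
  refine ⟨A, D, y * d * g 0 1 + x' * g 1 1, ⟨hApos.ne'⟩, ⟨hDpos.ne'⟩, hD.symm, rfl, ?_⟩
  intro z
  have : NeZero A := ⟨hApos.ne'⟩
  have : NeZero D := ⟨hDpos.ne'⟩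
  rw [jdFun, affH_smul_eq d A D (y * d * g 0 1 + x' * g 1 1) g γ ?_ ?_ ?_ ?_ z, jFun_smul]
  · rw [g00, hD']; ring
  · rw [g10, hc']; ring
  · rw [g00, g01, hD']
    rw [hc'] at hdet
    linear_combination (A : ℤ) * D * g 0 1 * hxy + x' * D * hdet
  · rw [g10, g11, hD']
    rw [hc'] at hdet
    linear_combination g 1 1 * hxy - y * D * hdet

theorem jdFun_smul_of_mem_Gamma0 (N d : ℕ) [NeZero d] (hd : d ∣ N) (γ : SL(2, ℤ))
    (hγ : γ ∈ Gamma0 N) (z : ℍ) : jdFun d (γ • z) = jdFun d z := by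
  rw [Gamma0_mem, ZMod.intCast_zmod_eq_zero_iff_dvd] at hγ
  obtain ⟨c', hc'⟩ : (d : ℤ) ∣ γ 1 0 := (Int.natCast_dvd_natCast.mpr hd).trans hγ
  have hdet := mat_det γ
  let γ' : SL(2, ℤ) := ⟨!![γ 0 0, (d : ℤ) * γ 0 1; c', γ 1 1], by
    rw [Matrix.det_fin_two_of]; rw [hc'] at hdet; linear_combination hdet⟩
  have g00 : γ' 0 0 = γ 0 0 := rfl
  have g01 : γ' 0 1 = (d : ℤ) * γ 0 1 := rfl
  have g10 : γ' 1 0 = c' := rfl
  have g11 : γ' 1 1 = γ 1 1 := rfl
  rw [jdFun, affH_smul_eq d d 1 0 γ γ' ?_ ?_ ?_ ?_ z, jFun_smul, jdFun]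
  · rw [g00]; ring
  · rw [g10, hc']; ring
  · rw [g00, g01]; simp
  · rw [g10, g11]; simp

/-- `j(z) q(z) → 1` at `i∞` -/
lemma jFun_mul_q_tendsto :
    Filter.Tendsto (fun z : ℍ => jFun z * Function.Periodic.qParam 1 z) atImInfty (nhds 1) := by
  have h1 : Filter.Tendsto (fun z : ℍ => E₄ z ^ 3 / ∏' (n : ℕ), (1 - eta_q n z) ^ 24) atImInfty
      (nhds (1 ^ 3 / 1)) :=
    (jf_E4_tendsto.pow 3).div tendsto_atImInfty_tprod_one_sub_eta_q_pow one_ne_zero
  rw [one_pow, div_one] at h1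
  refine h1.congr fun z => ?_
  have h2 := discriminant_eq_q_prod z
  have h3 := discriminant_ne_zero z
  rw [h2] at h3
  rw [jFun, h2]
  have h4 := left_ne_zero_of_mul h3
  have h5 := right_ne_zero_of_mul h3
  field_simp

lemma norm_qParam_one (z : ℍ) : ‖Function.Periodic.qParam 1 (z : ℂ)‖ = Real.exp (-2 * π * z.im) := by
  simp [Function.Periodic.qParam, Complex.norm_exp]

lemma affH_im (A : ℕ) (B : ℤ) (D : ℕ) [NeZero A] [NeZero D] (z : ℍ) :
    (affH A B D z).im = (A : ℝ) / D * z.im := by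
  change (((A : ℂ) * z + B) / D).im = _
  have e : (((A : ℂ) * z + B) / D) = (((A : ℝ) * (z : ℂ) + (B : ℝ)) / (D : ℝ) : ℂ) := by
    push_cast; ring
  rw [e, Complex.div_ofReal_im]
  simp only [Complex.add_im, Complex.mul_im, Complex.ofReal_re, Complex.ofReal_im, zero_mul,
    add_zero]
  change (A : ℝ) * z.im / D = _
  ring

lemma affH_tendsto (A : ℕ) (B : ℤ) (D : ℕ) [NeZero A] [NeZero D] :
    Filter.Tendsto (affH A B D) atImInfty atImInfty := by
  rw [atImInfty, Filter.tendsto_comap_iff]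
  have hA : (0 : ℝ) < A := by exact_mod_cast Nat.pos_of_ne_zero (NeZero.ne A)
  have hD : (0 : ℝ) < D := by exact_mod_cast Nat.pos_of_ne_zero (NeZero.ne D)
  have : (UpperHalfPlane.im ∘ affH A B D) = fun z : ℍ => (A : ℝ) / D * z.im := by
    funext z; exact affH_im A B D z
  rw [this]
  exact Filter.Tendsto.const_mul_atTop (div_pos hA hD) Filter.tendsto_comap

/-- growth of `j ((A z + B) / D)` -/
lemma norm_jFun_affH_tendsto (A : ℕ) (B : ℤ) (D : ℕ) [NeZero A] [NeZero D] :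
    Filter.Tendsto (fun z : ℍ => ‖jFun (affH A B D z)‖ * Real.exp (-2 * π * ((A : ℝ) / D) * z.im))
      atImInfty (nhds 1) := by
  have h1 := (jFun_mul_q_tendsto.comp (affH_tendsto A B D)).norm
  rw [norm_one] at h1
  refine h1.congr fun z => ?_
  simp only [Function.comp_apply]
  rw [norm_mul, norm_qParam_one, affH_im]
  ring_nf

theorem mem_Gamma0_of_jdFun_smul (N : ℕ) [NeZero N] (g : SL(2, ℤ))
    (h : ∀ z, jdFun N (g • z) = jdFun N z) : g ∈ Gamma0 N := by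
  obtain ⟨A, D, B, hA0, hD0, hAD, hA, hz⟩ := mat_decomp N g
  have hApos : (0 : ℝ) < A := by exact_mod_cast Nat.pos_of_ne_zero (NeZero.ne A)
  have hDpos : 0 < D := Nat.pos_of_ne_zero (NeZero.ne D)
  have hD1 : D = 1 := by
    by_contra hne
    have hD2 : (2 : ℝ) ≤ D := by exact_mod_cast (show 2 ≤ D by omega)
    have hN : (N : ℝ) = A * D := by exact_mod_cast hAD.symm
    have hc : 0 < 2 * π * ((N : ℝ) - (A : ℝ) / D) := by
      have h1 : (A : ℝ) / D < N := by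
        rw [div_lt_iff₀ (by linarith), hN]
        nlinarith
      have := Real.pi_pos
      have h2 : 0 < (N : ℝ) - (A : ℝ) / D := by linarith
      positivity
    have f1 := norm_jFun_affH_tendsto A B D
    have f2 := norm_jFun_affH_tendsto N 0 1
    have f3 : Filter.Tendsto (fun z : ℍ => Real.exp (2 * π * ((N : ℝ) - (A : ℝ) / D) * z.im))
        atImInfty Filter.atTop :=
      Real.tendsto_exp_atTop.comp (Filter.Tendsto.const_mul_atTop hc Filter.tendsto_comap)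
    have f4 := f2.pos_mul_atTop one_pos f3
    refine not_tendsto_nhds_of_tendsto_atTop f4 1 (f1.congr fun z => ?_)
    have h1 : jFun (affH A B D z) = jFun (affH N 0 1 z) := by
      rw [← hz z, h z, jdFun]
    rw [h1, mul_assoc (‖jFun (affH N 0 1 z)‖), ← Real.exp_add]
    congr 2
    push_cast
    ring
  rw [hD1, mul_one] at hAD
  rw [Gamma0_mem, ZMod.intCast_zmod_eq_zero_iff_dvd]
  apply Int.natCast_dvd.mpr
  rw [hAD] at hA
  rw [hA]
  exact Nat.gcd_dvd_right _ _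

end Fermat.Agent.S24
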