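import Mathlib
import Fermat.Prelude.Thm_UpperHalfPlane_qExpansion_coeff_nat_mul
import Fermat.Agent.S24.AnDefs

/-!
# S24 (G3), (H2): expansions at `i∞`
-/

set_option autoImplicit false

namespace Fermat.Agent.S24

open UpperHalfPlane ModularForm EisensteinSeries ModularCurve HahnSeries CongruenceSubgroup
open Fermat.Agent.X0
open scoped MatrixGroups Manifold Real

namespace ExpRel

variable {R : (ℍ → ℂ) → LaurentSeries ℂ → Prop} (hR : ExpRel R)
include hR

theorem neg {φ : ℍ → ℂ} {f : LaurentSeries ℂ} (h : R φ f) : R (-φ) (-f) := by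
  have h1 := hR.mul (hR.const (-1)) h
  have e1 : (fun _ : ℍ => (-1 : ℂ)) * φ = -φ := by ext z; simp
  have e2 : (HahnSeries.C (-1 : ℂ) : LaurentSeries ℂ) * f = -f := by
    rw [map_neg, map_one, neg_one_mul]
  rwa [e1, e2] at h1

theorem sub {φ ψ : ℍ → ℂ} {f g : LaurentSeries ℂ} (h1 : R φ f) (h2 : R ψ g) :
    R (φ - ψ) (f - g) := by
  rw [sub_eq_add_neg, sub_eq_add_neg]
  exact hR.add h1 (hR.neg h2)

theorem unique_right {φ : ℍ → ℂ} {f g : LaurentSeries ℂ} (h1 : R φ f) (h2 : R φ g) : f = g := by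
  have h := hR.sub h1 h2
  rw [sub_self] at h
  exact sub_eq_zero.1 ((hR.eq_zero_iff h).2 rfl)

theorem unique_left {φ ψ : ℍ → ℂ} {f : LaurentSeries ℂ} (h1 : R φ f) (h2 : R ψ f) : φ = ψ := by
  have h := hR.sub h1 h2
  rw [sub_self] at h
  exact sub_eq_zero.1 ((hR.eq_zero_iff h).1 rfl)

theorem comp (g : SL(2, ℤ)) : ExpRel (fun φ s => R (fun z => φ (g⁻¹ • z)) s) where
  add h1 h2 := hR.add h1 h2
  mul h1 h2 := hR.mul h1 h2
  const c := hR.const c
  eq_zero_iff {φ f} h := by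
    rw [hR.eq_zero_iff h]
    constructor
    · intro h0
      ext z
      have := congrFun h0 (g • z)
      simpa using this
    · intro h0
      ext z
      simp [h0]

end ExpRel

section nice

variable {h : ℝ}

theorem IsNiceH.analyticAt {f : ℍ → ℂ} (hh : 0 < h) (hf : IsNiceH h f) :
    AnalyticAt ℂ (cuspFunction h f) 0 :=
  analyticAt_cuspFunction_zero hh hf.1 hf.2.1 hf.2.2

theorem IsNiceH.mul {f g : ℍ → ℂ} (hf : IsNiceH h f) (hg : IsNiceH h g) : IsNiceH h (f * g) := by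
  refine ⟨?_, hf.2.1.mul hg.2.1, hf.2.2.mul hg.2.2⟩
  intro w
  have h1 := hf.1 w
  have h2 := hg.1 w
  simp only [Function.comp_apply, Pi.mul_apply] at h1 h2 ⊢
  rw [h1, h2]

theorem IsNiceH.add {f g : ℍ → ℂ} (hf : IsNiceH h f) (hg : IsNiceH h g) : IsNiceH h (f + g) := by
  refine ⟨?_, hf.2.1.add hg.2.1, hf.2.2.add hg.2.2⟩
  intro w
  have h1 := hf.1 w
  have h2 := hg.1 w
  simp only [Function.comp_apply, Pi.add_apply] at h1 h2 ⊢
  rw [h1, h2]

theorem isNiceH_const (c : ℂ) : IsNiceH h (fun _ => c) :=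
  ⟨fun _ => rfl, mdifferentiable_const, Filter.const_boundedAtFilter _ c⟩

theorem IsNiceH.pow {f : ℍ → ℂ} (hf : IsNiceH h f) (n : ℕ) : IsNiceH h (f ^ n) := by
  induction n with
  | zero => rw [pow_zero]; exact isNiceH_const (h := h) 1
  | succ n ih => rw [pow_succ]; exact ih.mul hf

/-- the `q`-expansion as a Laurent series -/
noncomputable def qL (h : ℝ) (f : ℍ → ℂ) : LaurentSeries ℂ :=
  HahnSeries.ofPowerSeries ℤ ℂ (qExpansion h f)

theorem qL_mul (hh : 0 < h) {f g : ℍ → ℂ} (hf : IsNiceH h f) (hg : IsNiceH h g) :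
    qL h (f * g) = qL h f * qL h g := by
  rw [qL, qExpansion_mul (hf.analyticAt hh) (hg.analyticAt hh), map_mul]
  rfl

theorem qL_add (hh : 0 < h) {f g : ℍ → ℂ} (hf : IsNiceH h f) (hg : IsNiceH h g) :
    qL h (f + g) = qL h f + qL h g := by
  rw [qL, qExpansion_add (hf.analyticAt hh) (hg.analyticAt hh), map_add]
  rfl

theorem qL_const (hh : 0 < h) (c : ℂ) : qL h (fun _ => c) = HahnSeries.C c := by
  have e : (fun _ : ℍ => c) = c • (1 : ℍ → ℂ) := by ext z; simp
  have h1 : IsNiceH h (1 : ℍ → ℂ) := isNiceH_const (h := h) 1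
  rw [qL, e, qExpansion_smul (h1.analyticAt hh), qExpansion_one,
    ← HahnSeries.ofPowerSeries_C]
  congr 1
  ext n
  simp [PowerSeries.coeff_C, PowerSeries.coeff_one]

theorem qL_eq_zero_iff (hh : 0 < h) {f : ℍ → ℂ} (hf : IsNiceH h f) : qL h f = 0 ↔ f = 0 := by
  rw [qL, map_eq_zero_iff _ HahnSeries.ofPowerSeries_injective,
    qExpansion_eq_zero_iff hh hf.1 hf.2.1 hf.2.2]

theorem qL_pow (hh : 0 < h) {f : ℍ → ℂ} (hf : IsNiceH h f) (n : ℕ) :
    qL h (f ^ n) = qL h f ^ n := by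
  induction n with
  | zero =>
    rw [pow_zero, pow_zero]
    have := qL_const hh 1
    rwa [map_one] at this
  | succ n ih => rw [pow_succ, qL_mul hh (hf.pow n) hf, ih, pow_succ]

end nice

theorem relInf_iff (h : ℝ) (φ : ℍ → ℂ) (s : LaurentSeries ℂ) : RelInf h φ s ↔
    ∃ a c : ℍ → ℂ, IsNiceH h a ∧ IsNiceH h c ∧ (∀ z, c z ≠ 0) ∧ (∀ z, φ z * c z = a z) ∧
      s * qL h c = qL h a := Iff.rfl

theorem qL_ne_zero {h : ℝ} (hh : 0 < h) {c : ℍ → ℂ} (hc : IsNiceH h c) (hc0 : ∀ z, c z ≠ 0) :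
    qL h c ≠ 0 := by
  rw [Ne, qL_eq_zero_iff hh hc]
  intro h0
  exact hc0 UpperHalfPlane.I (by rw [h0]; rfl)

theorem expRel_relInf (h : ℝ) (hh : 0 < h) : ExpRel (RelInf h) where
  add := by
    rintro φ ψ f g ⟨a, c, ha, hc, hc0, hφ, hf⟩ ⟨a', c', ha', hc', hc0', hψ, hg⟩
    refine ⟨a * c' + a' * c, c * c', (ha.mul hc').add (ha'.mul hc), hc.mul hc',
      fun z => mul_ne_zero (hc0 z) (hc0' z), fun z => ?_, ?_⟩
    · simp only [Pi.add_apply, Pi.mul_apply, ← hφ z, ← hψ z]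
      ring
    · change (f + g) * qL h (c * c') = qL h (a * c' + a' * c)
      change f * qL h c = qL h a at hf
      change g * qL h c' = qL h a' at hg
      rw [qL_mul hh hc hc', qL_add hh (ha.mul hc') (ha'.mul hc), qL_mul hh ha hc',
        qL_mul hh ha' hc, ← hf, ← hg]
      ring
  mul := by
    rintro φ ψ f g ⟨a, c, ha, hc, hc0, hφ, hf⟩ ⟨a', c', ha', hc', hc0', hψ, hg⟩
    refine ⟨a * a', c * c', ha.mul ha', hc.mul hc',
      fun z => mul_ne_zero (hc0 z) (hc0' z), fun z => ?_, ?_⟩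
    · simp only [Pi.mul_apply, ← hφ z, ← hψ z]
      ring
    · change (f * g) * qL h (c * c') = qL h (a * a')
      change f * qL h c = qL h a at hf
      change g * qL h c' = qL h a' at hg
      rw [qL_mul hh hc hc', qL_mul hh ha ha', ← hf, ← hg]
      ring
  const := by
    intro c
    refine ⟨fun _ => c, fun _ => 1, isNiceH_const c, isNiceH_const 1, fun _ => one_ne_zero,
      fun z => mul_one _, ?_⟩
    change HahnSeries.C c * qL h (fun _ => 1) = qL h (fun _ => c)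
    rw [qL_const hh, qL_const hh, map_one, mul_one]
  eq_zero_iff := by
    rintro φ f ⟨a, c, ha, hc, hc0, hφ, hf⟩
    change f * qL h c = qL h a at hf
    constructor
    · intro h0
      rw [h0, zero_mul] at hf
      have ha0 := (qL_eq_zero_iff hh ha).1 hf.symm
      ext z
      have := hφ z
      rw [ha0] at this
      exact (mul_eq_zero.1 this).resolve_right (hc0 z)
    · intro h0
      have ha0 : a = 0 := by
        ext z
        rw [← hφ z, h0]
        simp
      rw [ha0, (qL_eq_zero_iff hh (ha0 ▸ ha)).2 rfl] at hf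
      exact (mul_eq_zero.1 hf).resolve_right (qL_ne_zero hh hc hc0)

theorem scaleFun_support (c : ℂ) (hc : c ≠ 0) (f : LaurentSeries ℂ) :
    (scaleFun c f).support = f.support := by
  ext n
  simp [hc, zpow_ne_zero]

theorem scaleFun_mul (c : ℂ) (hc : c ≠ 0) (f g : LaurentSeries ℂ) :
    scaleFun c (f * g) = scaleFun c f * scaleFun c g := by
  ext n
  have hset : Finset.antidiagonal (scaleFun c f).isPWO_support (scaleFun c g).isPWO_support n =
      Finset.antidiagonal f.isPWO_support g.isPWO_support n := by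
    ext ij
    simp only [Finset.mem_antidiagonal, scaleFun_support c hc]
  rw [scaleFun_coeff, HahnSeries.coeff_mul, HahnSeries.coeff_mul, hset, Finset.mul_sum]
  refine Finset.sum_congr rfl fun ij hij => ?_
  have h1 : ij.1 + ij.2 = n := (Finset.mem_antidiagonal.1 hij).2.2
  rw [scaleFun_coeff, scaleFun_coeff, ← h1, zpow_add₀ hc]
  ring

theorem isPrimitiveRoot_exp_neg (N : ℕ) [NeZero N] :
    IsPrimitiveRoot (Complex.exp (-(2 * π * Complex.I) / N)) N := by
  have h := (Complex.isPrimitiveRoot_exp N (NeZero.ne N)).inv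
  rwa [← Complex.exp_neg, ← neg_div] at h

theorem qexp_unique {h : ℝ} (hh : 0 < h) {g : ℍ → ℂ} (hg : IsNiceH h g) {c : ℕ → ℂ}
    (hs : ∀ τ : ℍ, HasSum (fun m => c m • Function.Periodic.qParam h τ ^ m) (g τ)) (m : ℕ) :
    (qExpansion h g).coeff m = c m :=
  (UpperHalfPlane.qExpansion_coeff_unique (ContinuousMap.mk g hg.2.1.continuous) hh
    (hg.analyticAt hh) hs m).symm

theorem coeff_qL_nat (h : ℝ) (f : ℍ → ℂ) (n : ℕ) :
    (qL h f).coeff (n : ℤ) = (qExpansion h f).coeff n :=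
  HahnSeries.ofPowerSeries_apply_coeff _ n

theorem coeff_qL_neg (h : ℝ) (f : ℍ → ℂ) {n : ℤ} (hn : n < 0) : (qL h f).coeff n = 0 :=
  ModularCurve.ofPowerSeries_coeff_of_neg _ hn

theorem order_qL_eq (h : ℝ) (f : ℍ → ℂ) (n : ℕ) (h1 : (qExpansion h f).coeff n ≠ 0)
    (h2 : ∀ m < n, (qExpansion h f).coeff m = 0) : (qL h f).order = n := by
  have hne : (qL h f).coeff (n : ℤ) ≠ 0 := by rwa [coeff_qL_nat]
  have h0 : qL h f ≠ 0 := fun h0 => hne (by rw [h0]; rfl)
  refine le_antisymm (HahnSeries.order_le_of_coeff_ne_zero hne) ?_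
  rw [HahnSeries.le_order_iff_forall h0]
  intro k hk
  rcases lt_or_ge k 0 with hk0 | hk0
  · exact coeff_qL_neg h f hk0
  · obtain ⟨m, rfl⟩ := Int.eq_ofNat_of_zero_le hk0
    rw [coeff_qL_nat]
    exact h2 m (by exact_mod_cast hk)

/-! ### affine substitutions -/

theorem im_aff_pos (A : ℕ) (B : ℤ) (D : ℕ) [NeZero A] [NeZero D] {w : ℂ} (hw : 0 < w.im) :
    0 < (((A : ℂ) * w + B) / D).im := by
  have hA : (0 : ℝ) < A := by exact_mod_cast Nat.pos_of_ne_zero (NeZero.ne A)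
  have hD : (0 : ℝ) < D := by exact_mod_cast Nat.pos_of_ne_zero (NeZero.ne D)
  have e : (((A : ℂ) * w + B) / D) = (((A : ℝ) * w + (B : ℝ)) / (D : ℝ) : ℂ) := by
    push_cast; ring
  rw [e, Complex.div_ofReal_im]
  simp only [Complex.add_im, Complex.mul_im, Complex.ofReal_re, Complex.ofReal_im, zero_mul,
    add_zero]
  exact div_pos (mul_pos hA hw) hD

theorem affH_ofComplex (A : ℕ) (B : ℤ) (D : ℕ) [NeZero A] [NeZero D] {w : ℂ} (hw : 0 < w.im) :
    affH A B D (ofComplex w) = ofComplex (((A : ℂ) * w + B) / D) := by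
  ext
  rw [coe_affH, ofComplex_apply_of_im_pos hw, ofComplex_apply_of_im_pos (im_aff_pos A B D hw)]

theorem im_affH (A : ℕ) (B : ℤ) (D : ℕ) [NeZero A] [NeZero D] (z : ℍ) :
    (affH A B D z).im = A * z.im / D := by
  have e : ((affH A B D z : ℍ) : ℂ) = (((A : ℝ) * (z : ℂ) + (B : ℝ)) / (D : ℝ) : ℂ) := by
    rw [coe_affH]; push_cast; ring
  rw [← UpperHalfPlane.coe_im, e, Complex.div_ofReal_im]
  simp

theorem mdiff_affH (A : ℕ) (B : ℤ) (D : ℕ) [NeZero A] [NeZero D] {f : ℍ → ℂ} (hf : MDiff f) :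
    MDiff (fun z => f (affH A B D z)) := by
  rw [UpperHalfPlane.mdifferentiable_iff] at hf ⊢
  intro w hw
  have h1 : DifferentiableWithinAt ℂ ((f ∘ ofComplex) ∘ fun w : ℂ => ((A : ℂ) * w + B) / D)
      {z | 0 < z.im} w := by
    refine DifferentiableWithinAt.comp w (hf _ (im_aff_pos A B D hw)) ?_
      (fun x hx => im_aff_pos A B D hx)
    fun_prop
  refine h1.congr (fun x hx => ?_) ?_
  · simp only [Function.comp_apply]
    rw [affH_ofComplex A B D hx]
  · simp only [Function.comp_apply]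
    rw [affH_ofComplex A B D hw]

theorem isNiceH_comp_affH (f : ℍ → ℂ) (hf : IsNiceH 1 f) (A : ℕ) (B : ℤ) (D N : ℕ) [NeZero A]
    [NeZero D] (hD : D ∣ N) : IsNiceH (N : ℝ) (fun z => f (affH A B D z)) := by
  refine ⟨?_, mdiff_affH A B D hf.2.1, ?_⟩
  · intro w
    obtain ⟨e, rfl⟩ := hD
    have hD0 : (D : ℂ) ≠ 0 := by exact_mod_cast NeZero.ne D
    by_cases hw : 0 < w.im
    · have hw' : 0 < (w + ((D * e : ℕ) : ℝ)).im := by simpa using hw
      simp only [Function.comp_apply]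
      rw [affH_ofComplex A B D hw, affH_ofComplex A B D hw']
      have e1 : ((A : ℂ) * (w + ((D * e : ℕ) : ℝ)) + B) / D =
          ((A : ℂ) * w + B) / D + ((A * e : ℕ) : ℂ) * ((1 : ℝ) : ℂ) := by
        push_cast
        field_simp
        ring
      rw [e1]
      exact (hf.1.nat_mul (A * e)) _
    · have hw1 : w.im ≤ 0 := not_lt.1 hw
      have hw' : (w + ((D * e : ℕ) : ℝ)).im ≤ 0 := by simpa using hw1
      simp only [Function.comp_apply]
      rw [ofComplex_apply_of_im_nonpos hw1, ofComplex_apply_of_im_nonpos hw']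
  · have hb := hf.2.2
    rw [UpperHalfPlane.isBoundedAtImInfty_iff] at hb ⊢
    obtain ⟨M, A0, hM⟩ := hb
    have hA : (0 : ℝ) < A := by exact_mod_cast Nat.pos_of_ne_zero (NeZero.ne A)
    have hD' : (0 : ℝ) < D := by exact_mod_cast Nat.pos_of_ne_zero (NeZero.ne D)
    refine ⟨M, A0 * D / A, fun z hz => hM _ ?_⟩
    rw [im_affH, le_div_iff₀ hD']
    rw [div_le_iff₀ hA] at hz
    linarith

/-! ### the translation `T` -/

theorem coe_T_inv_smul (z : ℍ) : ((ModularGroup.T⁻¹ • z : ℍ) : ℂ) = z - 1 := by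
  have := ModularGroup.coe_T_zpow_smul_eq (z := z) (n := -1)
  simp only [zpow_neg, zpow_one] at this
  rw [this]
  push_cast
  ring

theorem T_inv_smul_ofComplex {w : ℂ} (hw : 0 < w.im) :
    ModularGroup.T⁻¹ • ofComplex w = ofComplex (w - 1) := by
  have hw' : 0 < (w - 1).im := by simpa using hw
  ext
  rw [coe_T_inv_smul, ofComplex_apply_of_im_pos hw, ofComplex_apply_of_im_pos hw']

theorem mdiff_comp_smul {f : ℍ → ℂ} (hf : MDiff f) (g : SL(2, ℤ)) : MDiff (fun z => f (g • z)) := by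
  have h := hf.slash 0 (g : GL (Fin 2) ℝ)
  have e : f ∣[(0 : ℤ)] (g : GL (Fin 2) ℝ) = fun z => f (g • z) := by
    ext z
    rw [← ModularForm.SL_slash, ModularForm.SL_slash_apply]
    simp
  rwa [e] at h

theorem isNiceH_comp_T {h : ℝ} {f : ℍ → ℂ} (hf : IsNiceH h f) :
    IsNiceH h (fun z => f (ModularGroup.T⁻¹ • z)) := by
  refine ⟨?_, mdiff_comp_smul hf.2.1 _, ?_⟩
  · intro w
    by_cases hw : 0 < w.im
    · have hw' : 0 < (w + (h : ℂ)).im := by simpa using hw
      simp only [Function.comp_apply]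
      rw [T_inv_smul_ofComplex hw, T_inv_smul_ofComplex hw']
      have := hf.1 (w - 1)
      simp only [Function.comp_apply] at this
      rw [← this]
      congr 2
      ring
    · have hw1 : w.im ≤ 0 := not_lt.1 hw
      have hw' : (w + (h : ℂ)).im ≤ 0 := by simpa using hw1
      simp only [Function.comp_apply]
      rw [ofComplex_apply_of_im_nonpos hw1, ofComplex_apply_of_im_nonpos hw']
  · have hb := hf.2.2
    rw [UpperHalfPlane.isBoundedAtImInfty_iff] at hb ⊢
    obtain ⟨M, A0, hM⟩ := hb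
    refine ⟨M, A0, fun z hz => hM _ ?_⟩
    rwa [ModularGroup.im_T_inv_smul]

theorem qL_comp_T (N : ℕ) [NeZero N] {f : ℍ → ℂ} (hf : IsNiceH (N : ℝ) f) :
    qL (N : ℝ) (fun z => f (ModularGroup.T⁻¹ • z)) =
      scaleFun (Complex.exp (-(2 * π * Complex.I) / N)) (qL (N : ℝ) f) := by
  have hN : (0 : ℝ) < N := by exact_mod_cast Nat.pos_of_ne_zero (NeZero.ne N)
  ext k
  rw [scaleFun_coeff]
  rcases lt_or_ge k 0 with hk0 | hk0
  · rw [coeff_qL_neg _ _ hk0, coeff_qL_neg _ _ hk0, mul_zero]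
  · obtain ⟨m, rfl⟩ := Int.eq_ofNat_of_zero_le hk0
    rw [coeff_qL_nat, coeff_qL_nat, zpow_natCast]
    refine qexp_unique hN (isNiceH_comp_T hf) (c := fun m =>
      Complex.exp (-(2 * π * Complex.I) / N) ^ m * (qExpansion (N : ℝ) f).coeff m) (fun τ => ?_) m
    have h1 := hasSum_qExpansion hN hf.1 hf.2.1 hf.2.2 (ModularGroup.T⁻¹ • τ)
    convert h1 using 2 with n
    have e : Function.Periodic.qParam (N : ℝ) ((ModularGroup.T⁻¹ • τ : ℍ) : ℂ) =
        Complex.exp (-(2 * π * Complex.I) / N) * Function.Periodic.qParam (N : ℝ) (τ : ℂ) := by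
      rw [coe_T_inv_smul, Function.Periodic.qParam, Function.Periodic.qParam, ← Complex.exp_add]
      congr 1
      push_cast
      ring
    rw [e, mul_pow, smul_eq_mul, smul_eq_mul]
    ring

theorem relInf_scale_T (N : ℕ) [NeZero N] {φ : ℍ → ℂ} {s : LaurentSeries ℂ}
    (h : RelInf (N : ℝ) φ s) :
    RelInf (N : ℝ) (fun z => φ (ModularGroup.T⁻¹ • z))
      (scaleFun (Complex.exp (-(2 * π * Complex.I) / N)) s) := by
  obtain ⟨a, c, ha, hc, hc0, hφ, hs⟩ := h
  refine ⟨fun z => a (ModularGroup.T⁻¹ • z), fun z => c (ModularGroup.T⁻¹ • z), isNiceH_comp_T ha,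
    isNiceH_comp_T hc, fun z => hc0 _, fun z => hφ _, ?_⟩
  change s * qL (N : ℝ) c = qL (N : ℝ) a at hs
  change _ * qL (N : ℝ) _ = qL (N : ℝ) _
  rw [qL_comp_T N ha, qL_comp_T N hc, ← scaleFun_mul _ (Complex.exp_ne_zero _), hs]

/-! ### `E₄`, `Δ`, `j` -/

theorem isNiceH_of_levelOne {k : ℤ} {F : Type*} [FunLike F ℍ ℂ] [ModularFormClass F 𝒮ℒ k] (f : F) :
    IsNiceH 1 f := by
  have h1 : (1 : ℝ) ∈ (𝒮ℒ).strictPeriods := one_mem_strictPeriods_SL
  have : Fact (IsCusp OnePoint.infty 𝒮ℒ) := ⟨(𝒮ℒ).isCusp_of_mem_strictPeriods one_pos h1⟩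
  exact ⟨SlashInvariantFormClass.periodic_comp_ofComplex f h1, ModularFormClass.holo f,
    ModularFormClass.bdd_at_infty f⟩

theorem isNiceH_E4 : IsNiceH 1 E₄ := isNiceH_of_levelOne E₄

theorem isNiceH_disc : IsNiceH 1 ModularForm.discriminant :=
  isNiceH_of_levelOne CuspForm.discriminant

theorem relInf_jFun_affH' (A : ℕ) (B : ℤ) (D N : ℕ) [NeZero A] [NeZero D] [NeZero N] (hD : D ∣ N)
    (s : LaurentSeries ℂ)
    (hs : s * qL (N : ℝ) (fun z => ModularForm.discriminant (affH A B D z)) =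
      qL (N : ℝ) ((fun z => E₄ (affH A B D z)) ^ 3)) :
    RelInf (N : ℝ) (fun z => jFun (affH A B D z)) s := by
  refine ⟨(fun z => E₄ (affH A B D z)) ^ 3, fun z => ModularForm.discriminant (affH A B D z),
    (isNiceH_comp_affH _ isNiceH_E4 A B D N hD).pow 3, isNiceH_comp_affH _ isNiceH_disc A B D N hD,
    fun z => discriminant_ne_zero _, fun z => ?_, hs⟩
  simp only [jFun, Pi.pow_apply]
  exact div_mul_cancel₀ _ (discriminant_ne_zero _)

theorem relInf_jFun_affH (A : ℕ) (B : ℤ) (D N : ℕ) [NeZero A] [NeZero D] [NeZero N] (hD : D ∣ N) :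
    ∃ s, RelInf (N : ℝ) (fun z => jFun (affH A B D z)) s := by
  have hN : (0 : ℝ) < N := by exact_mod_cast Nat.pos_of_ne_zero (NeZero.ne N)
  refine ⟨_, relInf_jFun_affH' A B D N hD
    (qL (N : ℝ) ((fun z => E₄ (affH A B D z)) ^ 3) /
      qL (N : ℝ) (fun z => ModularForm.discriminant (affH A B D z))) ?_⟩
  exact div_mul_cancel₀ _ (qL_ne_zero hN (isNiceH_comp_affH _ isNiceH_disc A B D N hD)
    fun z => discriminant_ne_zero _)

/-! ### change of period -/

theorem IsNiceH.period {f : ℍ → ℂ} (hf : IsNiceH 1 f) (N : ℕ) : IsNiceH (N : ℝ) f := by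
  refine ⟨?_, hf.2.1, hf.2.2⟩
  have := hf.1.nat_mul N
  simpa using this

theorem qL_period (N : ℕ) [NeZero N] {f : ℍ → ℂ} (hf : IsNiceH 1 f) :
    qL (N : ℝ) f = qExpand ℂ N (qL 1 f) := by
  have hN : 0 < N := Nat.pos_of_ne_zero (NeZero.ne N)
  have key : ∀ n : ℕ, (qExpansion (N : ℝ) f).coeff n =
      if N ∣ n then (qExpansion 1 f).coeff (n / N) else 0 := by
    intro n
    have := UpperHalfPlane.qExpansion_coeff_nat_mul one_pos hf.1 hf.2.1 hf.2.2 hN n
    rwa [mul_one] at this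
  ext k
  by_cases hk : (N : ℤ) ∣ k
  · obtain ⟨m, rfl⟩ := hk
    rw [qExpand_coeff_mul]
    rcases lt_or_ge m 0 with hm | hm
    · rw [coeff_qL_neg _ _ hm, coeff_qL_neg]
      exact mul_neg_of_pos_of_neg (by exact_mod_cast hN) hm
    · obtain ⟨n, rfl⟩ := Int.eq_ofNat_of_zero_le hm
      have e : (N : ℤ) * (n : ℤ) = ((N * n : ℕ) : ℤ) := by push_cast; ring
      rw [e, coeff_qL_nat, coeff_qL_nat, key, if_pos (dvd_mul_right N n),
        Nat.mul_div_cancel_left n hN]
  · rw [qExpand_coeff_of_not_dvd N _ hk]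
    rcases lt_or_ge k 0 with hm | hm
    · exact coeff_qL_neg _ _ hm
    · obtain ⟨n, rfl⟩ := Int.eq_ofNat_of_zero_le hm
      rw [coeff_qL_nat, key, if_neg]
      intro h
      exact hk (by exact_mod_cast h)

theorem relInf_period (N : ℕ) [NeZero N] {φ : ℍ → ℂ} {s : LaurentSeries ℂ} (h : RelInf 1 φ s) :
    RelInf (N : ℝ) φ (qExpand ℂ N s) := by
  obtain ⟨a, c, ha, hc, hc0, hφ, hs⟩ := h
  refine ⟨a, c, ha.period N, hc.period N, hc0, hφ, ?_⟩
  change s * qL 1 c = qL 1 a at hs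
  change _ * qL (N : ℝ) c = qL (N : ℝ) a
  rw [qL_period N ha, qL_period N hc, ← map_mul, hs]

theorem relInf_jFun_one (s : LaurentSeries ℂ)
    (hs : s * qL 1 ModularForm.discriminant = qL 1 ((⇑E₄ : ℍ → ℂ) ^ 3)) : RelInf 1 jFun s := by
  refine ⟨(⇑E₄ : ℍ → ℂ) ^ 3, ModularForm.discriminant, isNiceH_E4.pow 3, isNiceH_disc,
    fun z => discriminant_ne_zero _, fun z => ?_, hs⟩
  simp only [jFun, Pi.pow_apply]
  exact div_mul_cancel₀ _ (discriminant_ne_zero _)

theorem order_qL_disc (N : ℕ) [NeZero N] : (qL (N : ℝ) ModularForm.discriminant).order = N := by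
  have hN : 0 < N := Nat.pos_of_ne_zero (NeZero.ne N)
  have key : ∀ n : ℕ, (qExpansion (N : ℝ) ModularForm.discriminant).coeff n =
      if N ∣ n then (qExpansion 1 ModularForm.discriminant).coeff (n / N) else 0 := by
    intro n
    have := UpperHalfPlane.qExpansion_coeff_nat_mul one_pos isNiceH_disc.1 isNiceH_disc.2.1
      isNiceH_disc.2.2 hN n
    rwa [mul_one] at this
  apply order_qL_eq
  · rw [key, if_pos dvd_rfl, Nat.div_self hN, discriminant_qExpansion_coeff_one]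
    exact one_ne_zero
  · intro m hm
    rw [key]
    split_ifs with h
    · have hm0 : m = 0 := Nat.eq_zero_of_dvd_of_lt h hm
      subst hm0
      rw [Nat.zero_div]
      exact CuspFormClass.qExpansion_coeff_zero CuspForm.discriminant one_pos
        one_mem_strictPeriods_SL
    · rfl

theorem order_qL_E4 (N : ℕ) [NeZero N] : (qL (N : ℝ) E₄).order = 0 := by
  have hN : 0 < N := Nat.pos_of_ne_zero (NeZero.ne N)
  have := UpperHalfPlane.qExpansion_coeff_nat_mul one_pos isNiceH_E4.1 isNiceH_E4.2.1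
      isNiceH_E4.2.2 hN 0
  rw [mul_one, if_pos (dvd_zero N), Nat.zero_div, jf_E4_coeff_zero] at this
  have h := order_qL_eq (N : ℝ) E₄ 0 (by rw [this]; exact one_ne_zero) (fun m hm => by omega)
  simpa using h

theorem relInf_jFun_order (N : ℕ) [NeZero N] {s : LaurentSeries ℂ} (h : RelInf (N : ℝ) jFun s) :
    s.order = -(N : ℤ) := by
  have hN : (0 : ℝ) < N := by exact_mod_cast Nat.pos_of_ne_zero (NeZero.ne N)
  have hd := isNiceH_disc.period N
  have he := isNiceH_E4.period N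
  have hd0 : qL (N : ℝ) ModularForm.discriminant ≠ 0 :=
    qL_ne_zero hN hd fun z => discriminant_ne_zero _
  have he0 : qL (N : ℝ) E₄ ≠ 0 := by
    intro h0
    have := order_qL_eq (N : ℝ) E₄ 0
    have h1 := (qL_eq_zero_iff hN he).1 h0
    have h2 := jf_E4_coeff_zero
    rw [h1, qExpansion_zero] at h2
    simp at h2
  have h2 : RelInf (N : ℝ) jFun (qL (N : ℝ) ((⇑E₄ : ℍ → ℂ) ^ 3) /
      qL (N : ℝ) ModularForm.discriminant) := by
    refine ⟨(⇑E₄ : ℍ → ℂ) ^ 3, ModularForm.discriminant, he.pow 3, hd,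
      fun z => discriminant_ne_zero _, fun z => ?_, div_mul_cancel₀ _ hd0⟩
    simp only [jFun, Pi.pow_apply]
    exact div_mul_cancel₀ _ (discriminant_ne_zero _)
  have h3 := (expRel_relInf (N : ℝ) hN).unique_right h h2
  have h4 : s * qL (N : ℝ) ModularForm.discriminant = qL (N : ℝ) E₄ ^ 3 := by
    rw [h3, div_mul_cancel₀ _ hd0, qL_pow hN he]
  have hs0 : s ≠ 0 := by
    intro h0
    rw [h0, zero_mul] at h4
    exact pow_ne_zero 3 he0 h4.symm
  have h5 := congrArg HahnSeries.order h4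
  rw [HahnSeries.order_mul hs0 hd0, order_qL_disc, pow_succ, pow_succ, pow_one,
    HahnSeries.order_mul (mul_ne_zero he0 he0) he0, HahnSeries.order_mul he0 he0,
    order_qL_E4] at h5
  linarith

end Fermat.Agent.S24
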