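import Mathlib
import Fermat.Agent.S24.AnDefs
import Fermat.Prelude.Thm_ModularCurve_coeffMap_qExpand

/-!
# S24 (H3): the `q`-expansion of `j(d z)` is the prelude's `jq(q^d)`
-/

set_option autoImplicit false

namespace Fermat.Agent.S24

open UpperHalfPlane ModularForm EisensteinSeries ModularCurve HahnSeries
open Fermat.Agent.X0
open scoped MatrixGroups Manifold Real Topology

/-! ### Taylor series -/

lemma jexp_tay_coeff (F : ℂ → ℂ) (n : ℕ) :
    (tay F).coeff n = ((n.factorial : ℂ))⁻¹ * iteratedDeriv n F 0 := by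
  simp [tay]

lemma jexp_tay_congr {F G : ℂ → ℂ} (h : F =ᶠ[𝓝 0] G) : tay F = tay G := by
  ext n
  rw [jexp_tay_coeff, jexp_tay_coeff, h.iteratedDeriv_eq]

lemma jexp_tay_mul {F G : ℂ → ℂ} (hF : AnalyticAt ℂ F 0) (hG : AnalyticAt ℂ G 0) :
    tay (F * G) = tay F * tay G := by
  ext
  simp only [jexp_tay_coeff,
    iteratedDeriv_mul hF.contDiffAt hG.contDiffAt, Finset.mul_sum, PowerSeries.coeff_mul,
    Finset.Nat.sum_antidiagonal_eq_sum_range_succ_mk, Nat.succ_eq_add_one]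
  refine Finset.sum_congr rfl fun i hi ↦ ?_
  rw [Nat.cast_choose _ (by grind)]
  field_simp [Nat.factorial_ne_zero]

lemma jexp_tay_sub {F G : ℂ → ℂ} (hF : AnalyticAt ℂ F 0) (hG : AnalyticAt ℂ G 0) :
    tay (F - G) = tay F - tay G := by
  ext m
  simp [jexp_tay_coeff, iteratedDeriv_sub hF.contDiffAt hG.contDiffAt, mul_sub]

lemma jexp_tay_one : tay (1 : ℂ → ℂ) = 1 := by
  ext m
  have h2 : iteratedDeriv m (1 : ℂ → ℂ) 0 = if m = 0 then 1 else 0 := by
    simpa [ite_apply] using! iteratedDeriv_const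
  simp +contextual [jexp_tay_coeff, h2, PowerSeries.coeff_one]

lemma jexp_tay_id : tay (fun q : ℂ => q) = PowerSeries.X := by
  ext m
  rw [jexp_tay_coeff, PowerSeries.coeff_X]
  rcases m with _ | _ | m
  · simp
  · simp [iteratedDeriv_one]
  · rw [iteratedDeriv_succ', iteratedDeriv_succ']
    simp

lemma jexp_tay_pow {F : ℂ → ℂ} (hF : AnalyticAt ℂ F 0) (n : ℕ) : tay (F ^ n) = tay F ^ n := by
  induction n with
  | zero => simpa using jexp_tay_one
  | succ n ih => rw [pow_succ, pow_succ, jexp_tay_mul (hF.pow n) hF, ih]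

lemma jexp_tay_prod {ι : Type*} (s : Finset ι) (F : ι → ℂ → ℂ) (hF : ∀ i, AnalyticAt ℂ (F i) 0) :
    tay (∏ i ∈ s, F i) = ∏ i ∈ s, tay (F i) := by
  classical
  induction s using Finset.induction_on with
  | empty => simpa using jexp_tay_one
  | insert a s ha ih =>
    rw [Finset.prod_insert ha, Finset.prod_insert ha, jexp_tay_mul (hF a), ih]
    exact Finset.analyticAt_prod _ (fun i _ => hF i)

/-- iterated derivatives of locally uniform limits -/
lemma jexp_tendsto_iteratedDeriv {ι : Type*} {φ : Filter ι} {F : ι → ℂ → ℂ} {f : ℂ → ℂ} {U : Set ℂ}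
    (hU : IsOpen U) (k : ℕ) : TendstoLocallyUniformlyOn F f φ U →
    (∀ᶠ n in φ, DifferentiableOn ℂ (F n) U) →
    TendstoLocallyUniformlyOn (fun n => iteratedDeriv k (F n)) (iteratedDeriv k f) φ U := by
  induction k generalizing F f with
  | zero => intro h _; simpa using h
  | succ k ih =>
    intro h hF
    have h1 := h.deriv hF hU
    have h2 : ∀ᶠ n in φ, DifferentiableOn ℂ ((deriv ∘ F) n) U := by
      filter_upwards [hF] with n hn
      exact hn.deriv hU
    have h3 := ih h1 h2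
    simpa only [iteratedDeriv_succ', Function.comp] using h3

/-! ### The eta product -/

/-- the analytic eta product -/
noncomputable def jexpF (q : ℂ) : ℂ := ∏' n : ℕ, (1 - q ^ (n + 1))

lemma jexp_analyticAt_F : AnalyticAt ℂ jexpF 0 :=
  differentiableOn_tprod_one_sub_pow.analyticAt (Metric.ball_mem_nhds 0 one_pos)

lemma jexp_tay_factor (n : ℕ) :
    tay (fun q : ℂ => 1 - q ^ (n + 1)) = 1 - PowerSeries.X ^ (n + 1) := by
  have h1 : (fun q : ℂ => 1 - q ^ (n + 1)) = (1 : ℂ → ℂ) - (fun q : ℂ => q) ^ (n + 1) := by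
    funext q; simp
  have hid : AnalyticAt ℂ (fun q : ℂ => q) 0 := analyticAt_id
  have hone : AnalyticAt ℂ (1 : ℂ → ℂ) 0 := analyticAt_const
  rw [h1, jexp_tay_sub hone (hid.pow _), jexp_tay_one, jexp_tay_pow hid, jexp_tay_id]

open scoped PowerSeries.WithPiTopology in
lemma jexp_tay_F : tay jexpF = etaProd.map (Int.castRingHom ℂ) := by
  ext k
  -- analytic side
  have hA : TendstoLocallyUniformlyOn (fun (s : Finset ℕ) (q : ℂ) => ∏ i ∈ s, (1 - q ^ (i + 1)))
      jexpF Filter.atTop (Metric.ball (0 : ℂ) 1) :=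
    multipliableLocallyUniformlyOn_one_sub_pow.hasProdLocallyUniformlyOn
  have hd : ∀ᶠ s : Finset ℕ in Filter.atTop,
      DifferentiableOn ℂ (fun q : ℂ => ∏ i ∈ s, (1 - q ^ (i + 1))) (Metric.ball (0 : ℂ) 1) :=
    .of_forall fun s => DifferentiableOn.fun_finsetProd (fun _ _ ↦ by fun_prop)
  have h1 := (jexp_tendsto_iteratedDeriv Metric.isOpen_ball k hA hd).tendsto_at
    (Metric.mem_ball_self one_pos)
  have h2 : Filter.Tendsto (fun s : Finset ℕ =>
      (tay (fun q : ℂ => ∏ i ∈ s, (1 - q ^ (i + 1)))).coeff k) Filter.atTop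
      (𝓝 ((tay jexpF).coeff k)) := by
    simp only [jexp_tay_coeff]
    exact h1.const_mul _
  -- formal side
  have hB := (PowerSeries.WithPiTopology.multipliable_one_sub_X_pow ℤ).hasProd
  have h3 : Filter.Tendsto (fun s : Finset ℕ =>
      (PowerSeries.coeff k (∏ i ∈ s, ((1 : PowerSeries ℤ) - PowerSeries.X ^ (i + 1))))) Filter.atTop
      (𝓝 (PowerSeries.coeff k etaProd)) :=
    ((PowerSeries.WithPiTopology.continuous_coeff ℤ k).tendsto _).comp hB
  have h4 : Filter.Tendsto (fun s : Finset ℕ =>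
      ((PowerSeries.coeff k (∏ i ∈ s, ((1 : PowerSeries ℤ) - PowerSeries.X ^ (i + 1))) : ℤ) : ℂ))
      Filter.atTop (𝓝 ((PowerSeries.coeff k etaProd : ℤ) : ℂ)) :=
    ((continuous_of_discreteTopology (f := fun n : ℤ => (n : ℂ))).tendsto _).comp h3
  have h5 : ∀ s : Finset ℕ, (tay (fun q : ℂ => ∏ i ∈ s, (1 - q ^ (i + 1)))).coeff k =
      ((PowerSeries.coeff k (∏ i ∈ s, ((1 : PowerSeries ℤ) - PowerSeries.X ^ (i + 1))) : ℤ) : ℂ) := by
    intro s
    have e1 : (fun q : ℂ => ∏ i ∈ s, (1 - q ^ (i + 1))) =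
        ∏ i ∈ s, (fun q : ℂ => 1 - q ^ (i + 1)) := by
      funext q; simp [Finset.prod_apply]
    rw [e1, jexp_tay_prod s _ (fun i => by fun_prop)]
    simp only [jexp_tay_factor]
    have e2 : (∏ i ∈ s, ((1 : PowerSeries ℂ) - PowerSeries.X ^ (i + 1))) =
        (∏ i ∈ s, ((1 : PowerSeries ℤ) - PowerSeries.X ^ (i + 1))).map (Int.castRingHom ℂ) := by
      simp [map_prod]
    rw [e2, PowerSeries.coeff_map]
    simp
  simp only [h5] at h2
  rw [tendsto_nhds_unique h2 h4, PowerSeries.coeff_map]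
  simp

theorem jexp_disc : qExpansion 1 ModularForm.discriminant =
    PowerSeries.X * dedekindEtaUnit.map (Int.castRingHom ℂ) := by
  have h0 : qExpansion 1 ModularForm.discriminant = tay (cuspFunction 1 ModularForm.discriminant) :=
    rfl
  have h1 : cuspFunction 1 ModularForm.discriminant =ᶠ[𝓝 0] ((fun q : ℂ => q) * jexpF ^ 24) := by
    filter_upwards [Metric.ball_mem_nhds (0 : ℂ) one_pos] with q hq
    rw [discriminant_cuspFunction_eqOn hq]
    simp only [Pi.mul_apply, Pi.pow_apply, jexpF]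
    rw [(multipliable_one_sub_pow (by simpa using hq)).tprod_pow 24]
  have hid : AnalyticAt ℂ (fun q : ℂ => q) 0 := analyticAt_id
  rw [h0, jexp_tay_congr h1, jexp_tay_mul hid (jexp_analyticAt_F.pow 24), jexp_tay_id,
    jexp_tay_pow jexp_analyticAt_F, jexp_tay_F, dedekindEtaUnit, map_pow]

theorem jexp_E4 : qExpansion 1 E₄ = eisenstein4.map (Int.castRingHom ℂ) := by
  ext n
  rw [E_qExpansion_coeff _ ⟨2, rfl⟩, PowerSeries.coeff_map, eisenstein4, PowerSeries.coeff_mk]
  by_cases h : n = 0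
  · simp [h]
  · rw [if_neg h, if_neg h]
    norm_num [show bernoulli 4 = -1 / 30 by decide +kernel, ArithmeticFunction.sigma_apply]

/-! ### Composition with `z ↦ (A z + B) / D` -/

lemma jexp_affH_eq (f : ℍ → ℂ) (A : ℕ) (B : ℤ) (D : ℕ) [NeZero A] [NeZero D] (z : ℍ) :
    f (affH A B D z) = (f ∘ ofComplex) (((A : ℂ) * z + B) / D) := by
  rw [Function.comp_apply, ← coe_affH, ofComplex_apply]

lemma jexp_im_affH (A : ℕ) (B : ℤ) (D : ℕ) [NeZero A] [NeZero D] (z : ℍ) :
    (affH A B D z).im = A * z.im / D := by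
  have e : (((A : ℂ) * z + B) / D) = (((A : ℝ) * (z : ℂ) + (B : ℝ)) / (D : ℝ) : ℂ) := by
    push_cast; ring
  change (((A : ℂ) * z + B) / D).im = _
  rw [e, Complex.div_ofReal_im]
  simp

theorem jexp_nice_affH (f : ℍ → ℂ) (hf : IsNiceH 1 f) (A : ℕ) (B : ℤ) (D N : ℕ) [NeZero A]
    [NeZero D] (hD : D ∣ N) : IsNiceH (N : ℝ) (fun z => f (affH A B D z)) := by
  obtain ⟨hper, hhol, hbdd⟩ := hf
  have hA : (0 : ℝ) < A := by exact_mod_cast Nat.pos_of_ne_zero (NeZero.ne A)
  have hD0 : (0 : ℝ) < D := by exact_mod_cast Nat.pos_of_ne_zero (NeZero.ne D)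
  have hDC : (D : ℂ) ≠ 0 := by exact_mod_cast NeZero.ne D
  refine ⟨?_, ?_, ?_⟩
  · intro w
    by_cases hw : 0 < w.im
    · have hw' : 0 < (w + ((N : ℝ) : ℂ)).im := by simpa using hw
      simp only [Function.comp_apply, ofComplex_apply_of_im_pos hw, ofComplex_apply_of_im_pos hw']
      rw [jexp_affH_eq f, jexp_affH_eq f]
      obtain ⟨m, rfl⟩ := hD
      have h1 := hper.nat_mul (A * m) (((A : ℂ) * w + B) / D)
      rw [← h1]
      congr 1
      push_cast
      field_simp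
      ring
    · have hw1 : w.im ≤ 0 := not_lt.1 hw
      have hw' : (w + ((N : ℝ) : ℂ)).im ≤ 0 := by simpa using hw1
      simp only [Function.comp_apply]
      rw [ofComplex_apply_of_im_nonpos hw1, ofComplex_apply_of_im_nonpos hw']
  · rw [UpperHalfPlane.mdifferentiable_iff] at hhol ⊢
    have h1 : DifferentiableOn ℂ ((f ∘ ofComplex) ∘ fun w : ℂ => ((A : ℂ) * w + B) / D)
        {z | 0 < z.im} := by
      apply hhol.comp (by fun_prop)
      intro w hw
      exact (affH A B D ⟨w, hw⟩).im_pos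
    refine h1.congr ?_
    intro w hw
    simp only [Function.comp_apply, ofComplex_apply_of_im_pos hw]
    rw [jexp_affH_eq f]
    rfl
  · rw [UpperHalfPlane.isBoundedAtImInfty_iff] at hbdd ⊢
    obtain ⟨M, A₀, h⟩ := hbdd
    refine ⟨M, A₀ * D / A, fun z hz => h _ ?_⟩
    rw [jexp_im_affH, le_div_iff₀ hD0]
    rw [div_le_iff₀ hA] at hz
    linarith

lemma jexp_qParam_affH (d : ℕ) [NeZero d] (z : ℍ) :
    Function.Periodic.qParam 1 (affH d 0 1 z : ℂ) = Function.Periodic.qParam 1 (z : ℂ) ^ d := by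
  simp only [Function.Periodic.qParam, coe_affH]
  rw [← Complex.exp_nat_mul]
  congr 1
  push_cast
  ring

theorem jexp_coeff_unique {h : ℝ} {f : ℍ → ℂ} {c : ℕ → ℂ} (hh : 0 < h)
    (hfanalytic : AnalyticAt ℂ (cuspFunction h f) 0)
    (hf : ∀ τ : ℍ, HasSum (fun m ↦ c m • Function.Periodic.qParam h τ ^ m) (f τ)) (m : ℕ) :
    c m = (qExpansion h f).coeff m := by
  have h1 := (hasFPowerSeriesOnBall_cuspFunction hh hfanalytic hf).hasFPowerSeriesAt
  have h2 : HasFPowerSeriesAt (cuspFunction h f)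
      (FormalMultilinearSeries.ofScalars ℂ fun m ↦ (qExpansion h f).coeff m) 0 := by
    simpa [qExpansion_coeff, div_eq_mul_inv, mul_comm]
      using hfanalytic.hasFPowerSeriesAt
  simpa [FormalMultilinearSeries.coeff_ofScalars] using
    congr_arg (FormalMultilinearSeries.coeff · m) (h1.eq_formalMultilinearSeries h2)

/-- the `q`-expansion of `f (d z)` -/
theorem jexp_qExpansion_comp (f : ℍ → ℂ) (hf : IsNiceH 1 f) (d : ℕ) [NeZero d] (n : ℕ) :
    (qExpansion 1 (fun z => f (affH d 0 1 z))).coeff n =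
      if d ∣ n then (qExpansion 1 f).coeff (n / d) else 0 := by
  have hd : 0 < d := Nat.pos_of_ne_zero (NeZero.ne d)
  have hg : IsNiceH 1 (fun z => f (affH d 0 1 z)) := by
    have := jexp_nice_affH f hf d 0 1 1 dvd_rfl
    simpa using this
  have hper : Function.Periodic (f ∘ ofComplex) ((1 : ℝ) : ℂ) := hf.1
  have hperg : Function.Periodic ((fun z => f (affH d 0 1 z)) ∘ ofComplex) ((1 : ℝ) : ℂ) := hg.1
  symm
  refine jexp_coeff_unique (h := 1) (f := fun z => f (affH d 0 1 z))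
    (c := fun n => if d ∣ n then (qExpansion 1 f).coeff (n / d) else 0) one_pos
    (analyticAt_cuspFunction_zero one_pos hperg hg.2.1 hg.2.2) ?_ n
  intro τ
  have h1 := hasSum_qExpansion one_pos hper hf.2.1 hf.2.2 (affH d 0 1 τ)
  rw [jexp_qParam_affH] at h1
  have hinj : Function.Injective (fun m : ℕ => d * m) := fun a b h =>
    Nat.eq_of_mul_eq_mul_left hd h
  rw [← hinj.hasSum_iff]
  · convert h1 using 2 with m
    simp [Function.comp, Nat.mul_div_cancel_left _ hd, pow_mul]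
  · intro x hx
    rw [if_neg, zero_smul]
    rintro ⟨m, rfl⟩
    exact hx ⟨m, rfl⟩

/-! ### Nice functions -/

lemma jexp_nice_form {k : ℤ} (F : ModularForm 𝒮ℒ k) : IsNiceH 1 (⇑F) :=
  ⟨SlashInvariantFormClass.periodic_comp_ofComplex F one_mem_strictPeriods_SL,
    ModularFormClass.holo F, ModularFormClass.bdd_at_infty F⟩

lemma jexp_nice_disc : IsNiceH 1 ModularForm.discriminant :=
  ⟨SlashInvariantFormClass.periodic_comp_ofComplex CuspForm.discriminant one_mem_strictPeriods_SL,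
    CuspFormClass.holo CuspForm.discriminant,
    (CuspFormClass.zero_at_infty CuspForm.discriminant).isBoundedAtImInfty⟩

lemma jexp_nice_mul {h : ℝ} {f g : ℍ → ℂ} (hf : IsNiceH h f) (hg : IsNiceH h g) :
    IsNiceH h (f * g) :=
  ⟨hf.1.mul hg.1, hf.2.1.mul hg.2.1, hf.2.2.mul hg.2.2⟩

lemma jexp_nice_analytic {h : ℝ} (hh : 0 < h) {f : ℍ → ℂ} (hf : IsNiceH h f) :
    AnalyticAt ℂ (cuspFunction h f) 0 :=
  analyticAt_cuspFunction_zero hh hf.1 hf.2.1 hf.2.2

/-! ### Formal identities -/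

/-- substitution `X ↦ X ^ d` -/
noncomputable def jexpSubst (d : ℕ) (P : PowerSeries ℂ) : PowerSeries ℂ :=
  PowerSeries.mk fun n => if d ∣ n then P.coeff (n / d) else 0

lemma jexp_ofPowerSeries_subst (d : ℕ) [NeZero d] (P : PowerSeries ℂ) :
    HahnSeries.ofPowerSeries ℤ ℂ (jexpSubst d P) = qExpand ℂ d (HahnSeries.ofPowerSeries ℤ ℂ P) := by
  have hd : 0 < d := Nat.pos_of_ne_zero (NeZero.ne d)
  have hdZ : (0 : ℤ) < d := by exact_mod_cast hd
  ext k
  rcases lt_or_ge k 0 with hk | hk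
  · rw [ofPowerSeries_coeff_of_neg _ hk]
    by_cases hdk : (d : ℤ) ∣ k
    · obtain ⟨m, rfl⟩ := hdk
      rw [qExpand_coeff_mul, ofPowerSeries_coeff_of_neg]
      by_contra hm
      push Not at hm
      have := mul_nonneg hdZ.le hm
      omega
    · rw [qExpand_coeff_of_not_dvd _ _ hdk]
  · obtain ⟨n, rfl⟩ := Int.eq_ofNat_of_zero_le hk
    rw [HahnSeries.ofPowerSeries_apply_coeff, jexpSubst, PowerSeries.coeff_mk]
    by_cases hdn : d ∣ n
    · obtain ⟨m, rfl⟩ := hdn
      rw [if_pos (dvd_mul_right _ _), Nat.mul_div_cancel_left _ hd]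
      push_cast
      rw [qExpand_coeff_mul, HahnSeries.ofPowerSeries_apply_coeff]
    · rw [if_neg hdn, qExpand_coeff_of_not_dvd]
      exact_mod_cast hdn

lemma jexp_map_ofPowerSeries (P : PowerSeries ℤ) :
    coeffMap iotaC (coeffEmb Kb (HahnSeries.ofPowerSeries ℤ ℚ (P.map (Int.castRingHom ℚ)))) =
      HahnSeries.ofPowerSeries ℤ ℂ (P.map (Int.castRingHom ℂ)) := by
  ext k
  rw [coeffMap_coeff, coeffEmb_coeff]
  rcases lt_or_ge k 0 with hk | hk
  · rw [ofPowerSeries_coeff_of_neg _ hk, ofPowerSeries_coeff_of_neg _ hk]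
    simp
  · obtain ⟨n, rfl⟩ := Int.eq_ofNat_of_zero_le hk
    rw [HahnSeries.ofPowerSeries_apply_coeff, HahnSeries.ofPowerSeries_apply_coeff,
      PowerSeries.coeff_map, PowerSeries.coeff_map]
    simp

lemma jexp_jq_mul : jq * HahnSeries.ofPowerSeries ℤ ℚ
      ((PowerSeries.X * dedekindEtaUnit).map (Int.castRingHom ℚ)) =
    HahnSeries.ofPowerSeries ℤ ℚ ((eisenstein4 ^ 3).map (Int.castRingHom ℚ)) := by
  have h1 : (eisenstein4 ^ 3 : PowerSeries ℤ) = jNum * dedekindEtaUnit := by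
    rw [jNum, mul_assoc, mul_comm dedekindEtaUnitInv, dedekindEtaUnit_mul_inv, mul_one]
  rw [h1, jq, jNumQ, map_mul, map_mul, map_mul, map_mul, PowerSeries.map_X,
    HahnSeries.ofPowerSeries_X]
  have h2 : (HahnSeries.single (-1 : ℤ) (1 : ℚ)) * HahnSeries.single (1 : ℤ) (1 : ℚ) = 1 := by
    rw [HahnSeries.single_mul_single]
    simp
  linear_combination (HahnSeries.ofPowerSeries ℤ ℚ (jNum.map (Int.castRingHom ℚ)) *
    HahnSeries.ofPowerSeries ℤ ℚ (dedekindEtaUnit.map (Int.castRingHom ℚ))) * h2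

theorem relInf_jdFun (d : ℕ) [NeZero d] :
    RelInf 1 (jdFun d) (coeffMap iotaC (coeffEmb Kb (qExpand ℚ d jq))) := by
  have hE : IsNiceH 1 (⇑E₄) := jexp_nice_form E₄
  have hE3 : IsNiceH 1 (⇑E₄ * ⇑E₄ * ⇑E₄) := jexp_nice_mul (jexp_nice_mul hE hE) hE
  have hqE3 : qExpansion 1 (⇑E₄ * ⇑E₄ * ⇑E₄) = (eisenstein4 ^ 3).map (Int.castRingHom ℂ) := by
    rw [qExpansion_mul (jexp_nice_analytic one_pos (jexp_nice_mul hE hE))
      (jexp_nice_analytic one_pos hE), qExpansion_mul (jexp_nice_analytic one_pos hE)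
      (jexp_nice_analytic one_pos hE), jexp_E4, map_pow]
    ring
  have hna : IsNiceH 1 (fun z => (⇑E₄ * ⇑E₄ * ⇑E₄) (affH d 0 1 z)) := by
    simpa using jexp_nice_affH _ hE3 d 0 1 1 dvd_rfl
  have hnc : IsNiceH 1 (fun z => ModularForm.discriminant (affH d 0 1 z)) := by
    simpa using jexp_nice_affH _ jexp_nice_disc d 0 1 1 dvd_rfl
  refine ⟨fun z => (⇑E₄ * ⇑E₄ * ⇑E₄) (affH d 0 1 z),
    fun z => ModularForm.discriminant (affH d 0 1 z), hna, hnc,
    fun z => discriminant_ne_zero _, fun z => ?_, ?_⟩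
  · simp only [jdFun, jFun, Pi.mul_apply]
    have := discriminant_ne_zero (affH d 0 1 z)
    field_simp
  · have e1 : qExpansion 1 (fun z => (⇑E₄ * ⇑E₄ * ⇑E₄) (affH d 0 1 z)) =
        jexpSubst d ((eisenstein4 ^ 3).map (Int.castRingHom ℂ)) := by
      ext n
      rw [jexp_qExpansion_comp _ hE3, hqE3, jexpSubst, PowerSeries.coeff_mk]
    have e2 : qExpansion 1 (fun z => ModularForm.discriminant (affH d 0 1 z)) =
        jexpSubst d ((PowerSeries.X * dedekindEtaUnit).map (Int.castRingHom ℂ)) := by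
      have e3 : (PowerSeries.X * dedekindEtaUnit).map (Int.castRingHom ℂ) =
          PowerSeries.X * dedekindEtaUnit.map (Int.castRingHom ℂ) := by
        rw [map_mul, PowerSeries.map_X]
      ext n
      rw [jexp_qExpansion_comp _ jexp_nice_disc, jexp_disc, jexpSubst, PowerSeries.coeff_mk, e3]
    rw [e1, e2, jexp_ofPowerSeries_subst, jexp_ofPowerSeries_subst, coeffEmb, coeffMap_qExpand,
      coeffMap_qExpand, ← map_mul, ← jexp_map_ofPowerSeries, ← jexp_map_ofPowerSeries,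
      ← jexp_jq_mul, coeffEmb]
    simp only [map_mul]

end Fermat.Agent.S24
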