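import Mathlib
import Fermat.Agent.S24.Mat
import Fermat.Agent.S23.LevelOne

/-!
# S24 (H5): invariant functions of moderate growth are polynomials in `j`
-/

set_option autoImplicit false

namespace Fermat.Agent.S24

open UpperHalfPlane ModularForm EisensteinSeries ModularCurve HahnSeries CongruenceSubgroup
open Fermat.Agent.X0 Fermat.Agent.S23
open scoped MatrixGroups Manifold Real

local notation "Δ" => ModularForm.discriminant

lemma kl_disc_bdd : IsBoundedAtImInfty Δ := discriminant_isZeroAtImInfty.isBoundedAtImInfty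

lemma kl_disc_pow_bdd (m : ℕ) : IsBoundedAtImInfty (fun z => Δ z ^ m) := by
  induction m with
  | zero =>
    simp only [pow_zero]
    exact Filter.const_boundedAtFilter atImInfty (1 : ℂ)
  | succ m ih =>
    have e : (fun z => Δ z ^ (m + 1)) = (fun z => Δ z ^ m) * Δ := by
      funext z
      simp only [Pi.mul_apply, pow_succ]
    rw [e]
    exact ih.mul kl_disc_bdd

theorem IsMod.add {φ ψ : ℍ → ℂ} (h1 : IsMod φ) (h2 : IsMod ψ) : IsMod (φ + ψ) := by
  obtain ⟨m1, h1⟩ := h1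
  obtain ⟨m2, h2⟩ := h2
  refine ⟨m1 + m2, ?_⟩
  have h3 := (h1.mul (kl_disc_pow_bdd m2)).add (h2.mul (kl_disc_pow_bdd m1))
  have e : (fun z => (φ + ψ) z * Δ z ^ (m1 + m2)) =
      ((fun z => φ z * Δ z ^ m1) * fun z => Δ z ^ m2) + ((fun z => ψ z * Δ z ^ m2) * fun z => Δ z ^ m1) := by
    funext z
    simp only [Pi.add_apply, Pi.mul_apply]
    ring
  rw [e]
  exact h3

theorem IsMod.mul {φ ψ : ℍ → ℂ} (h1 : IsMod φ) (h2 : IsMod ψ) : IsMod (φ * ψ) := by
  obtain ⟨m1, h1⟩ := h1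
  obtain ⟨m2, h2⟩ := h2
  refine ⟨m1 + m2, ?_⟩
  have h3 := h1.mul h2
  have e : (fun z => (φ * ψ) z * Δ z ^ (m1 + m2)) =
      ((fun z => φ z * Δ z ^ m1) * fun z => ψ z * Δ z ^ m2) := by
    funext z
    simp only [Pi.mul_apply]
    ring
  rw [e]
  exact h3

theorem isMod_const (c : ℂ) : IsMod (fun _ => c) :=
  ⟨0, by
    simp only [pow_zero, mul_one]
    exact Filter.const_boundedAtFilter atImInfty c⟩

theorem isMod_jFun_affH (A : ℕ) (B : ℤ) (D : ℕ) [NeZero A] [NeZero D] :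
    IsMod (fun z => jFun (affH A B D z)) := by
  refine ⟨A, ?_⟩
  have f1 := norm_jFun_affH_tendsto A B D
  have f2 := (tendsto_atImInfty_tprod_one_sub_eta_q_pow.norm).pow A
  have f3 := f1.mul f2
  rw [norm_one, one_pow, mul_one] at f3
  have f4 := f3.eventually (gt_mem_nhds (show (1 : ℝ) < 2 by norm_num))
  refine Asymptotics.IsBigO.of_bound 2 ?_
  filter_upwards [f4] with z hz
  rw [norm_mul, norm_pow, discriminant_eq_q_prod, norm_mul, norm_qParam_one]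
  simp only [Pi.one_apply, norm_one, mul_one]
  have hD : (1 : ℝ) ≤ D := by exact_mod_cast Nat.pos_of_ne_zero (NeZero.ne D)
  have hA : (0 : ℝ) ≤ A := Nat.cast_nonneg A
  have hAD : (A : ℝ) / D ≤ A := div_le_self hA hD
  have him := z.im_pos
  have hexp : Real.exp (-2 * π * ((A : ℝ) - (A : ℝ) / D) * z.im) ≤ 1 := by
    rw [Real.exp_le_one_iff]
    have := Real.pi_pos
    have h1 : 0 ≤ ((A : ℝ) - (A : ℝ) / D) * z.im := mul_nonneg (by linarith) him.le
    nlinarith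
  have e : Real.exp (-2 * π * z.im) ^ A =
      Real.exp (-2 * π * ((A : ℝ) / D) * z.im) * Real.exp (-2 * π * ((A : ℝ) - (A : ℝ) / D) * z.im) := by
    rw [← Real.exp_nat_mul, ← Real.exp_add]
    congr 1
    ring
  rw [mul_pow, e]
  set P := ‖∏' (n : ℕ), (1 - eta_q n z) ^ 24‖ ^ A with hP
  have hP0 : 0 ≤ P := by positivity
  set J := ‖jFun (affH A B D z)‖ * Real.exp (-2 * π * ((A : ℝ) / D) * z.im) with hJ
  have hJ0 : 0 ≤ J := by positivity
  calc ‖jFun (affH A B D z)‖ * (Real.exp (-2 * π * ((A : ℝ) / D) * z.im) *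
        Real.exp (-2 * π * ((A : ℝ) - (A : ℝ) / D) * z.im) * P)
      = (J * P) * Real.exp (-2 * π * ((A : ℝ) - (A : ℝ) / D) * z.im) := by rw [hJ]; ring
    _ ≤ (J * P) * 1 := by gcongr
    _ ≤ 2 := by rw [mul_one]; exact hz.le

lemma kl_slash (φ : ℍ → ℂ) (hinv : ∀ (γ : SL(2, ℤ)) (z : ℍ), φ (γ • z) = φ z) (m : ℕ)
    (γ : SL(2, ℤ)) :
    ((fun z => φ z * Δ z ^ m) ∣[(12 * (m : ℤ))] γ) = fun z => φ z * Δ z ^ m := by
  funext z
  rw [SL_slash_apply, hinv]
  have h2 : Δ (γ • z) = (denom γ z) ^ (12 : ℤ) * Δ z := jf_smul_eq CuspForm.discriminant γ z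
  have hd := denom_ne_zero γ z
  rw [h2, mul_pow, ← zpow_natCast, ← zpow_mul, mul_assoc, mul_right_comm, ← zpow_add₀ hd]
  simp

/-- `φ Δ ^ m` as a modular form of level one -/
noncomputable def klForm (φ : ℍ → ℂ) (hφ : MDiff φ)
    (hinv : ∀ (γ : SL(2, ℤ)) (z : ℍ), φ (γ • z) = φ z) (m : ℕ)
    (hb : IsBoundedAtImInfty (fun z => φ z * Δ z ^ m)) : ModularForm 𝒮ℒ (12 * (m : ℤ)) where
  toFun := fun z => φ z * Δ z ^ m
  slash_action_eq' A hA := by
    obtain ⟨A, rfl⟩ := hA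
    exact kl_slash φ hinv m A
  holo' := hφ.mul (jf_disc_mdiff.pow m)
  bdd_at_cusps' hc := by
    rw [Subgroup.IsArithmetic.isCusp_iff_isCusp_SL2Z] at hc
    rw [OnePoint.isBoundedAt_iff_forall_SL2Z hc]
    intro γ _
    rw [kl_slash φ hinv m γ]
    exact hb

theorem kl_poly (φ : ℍ → ℂ) (hφ : MDiff φ) (hinv : ∀ (γ : SL(2, ℤ)) (z : ℍ), φ (γ • z) = φ z)
    (hmod : IsMod φ) : ∃ p : Polynomial ℂ, ∀ z, φ z = p.eval (jFun z) := by
  obtain ⟨m, hb⟩ := hmod
  obtain ⟨s, x, hs, hF⟩ := levelOne_span _ (klForm φ hφ hinv m hb)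
  refine ⟨∑ p ∈ s, Polynomial.C (x p) * (Polynomial.X ^ (p.1 / 3) *
    (Polynomial.X - Polynomial.C 1728) ^ (p.2 / 2)), fun z => ?_⟩
  have hΔ := discriminant_ne_zero z
  have h1 : φ z * Δ z ^ m = ∑ p ∈ s, x p * (E₄ z ^ p.1 * E₆ z ^ p.2) := hF z
  rw [Polynomial.eval_finsetSum, ← mul_left_inj' (pow_ne_zero m hΔ), h1, Finset.sum_mul]
  refine Finset.sum_congr rfl fun p hp => ?_
  have h2 := hs p hp
  obtain ⟨a, ha⟩ : ∃ a, p.1 = 3 * a := ⟨p.1 / 3, by omega⟩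
  obtain ⟨b, hb'⟩ : ∃ b, p.2 = 2 * b := ⟨p.2 / 2, by omega⟩
  have hm : m = a + b := by omega
  rw [ha, hb', Nat.mul_div_cancel_left _ (by norm_num), Nat.mul_div_cancel_left _ (by norm_num)]
  simp only [Polynomial.eval_mul, Polynomial.eval_C, Polynomial.eval_pow, Polynomial.eval_X,
    Polynomial.eval_sub]
  rw [jFun_sub_1728, jFun, hm, pow_mul, pow_mul, div_pow, div_pow, _root_.pow_add]
  field_simp

end Fermat.Agent.S24
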