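import Mathlib
import Fermat.Agent.S24.AnDefs
import Fermat.Agent.S24.RelInf
import Fermat.Agent.S24.Mat
import Fermat.Agent.S24.KL

/-!
# S24 (G3): basic properties of `evN`
-/

set_option autoImplicit false

namespace Fermat.Agent.S24

open UpperHalfPlane ModularForm ModularCurve HahnSeries CongruenceSubgroup
open Fermat.Agent.X0
open scoped MatrixGroups Manifold

variable (N : ℕ) [NeZero N]

@[simp] theorem evN_C (a : Kb) : evN N (MvPolynomial.C a) = fun _ => iotaC a := by
  simp only [evN, MvPolynomial.coe_eval₂Hom, MvPolynomial.eval₂_C]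
  rfl

@[simp] theorem evN_X (d : Dv N) : evN N (MvPolynomial.X d) = jdFun d.1 := by
  simp [evN]

theorem affH_one (z : ℍ) : affH 1 0 1 z = z := by
  ext
  simp

theorem jdFun_one : jdFun 1 = jFun := by
  ext z
  rw [jdFun, affH_one]

theorem jdFun_mdiff (d : ℕ) [NeZero d] : MDiff (jdFun d) :=
  mdiff_affH d 0 1 jFun_mdiff

theorem evN_mdiff (P : MvPolynomial (Dv N) Kb) : MDiff (evN N P) := by
  induction P using MvPolynomial.induction_on with
  | C a => rw [evN_C]; exact mdifferentiable_const
  | add p q hp hq => rw [map_add]; exact hp.add hq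
  | mul_X p d hp => rw [map_mul, evN_X]; exact hp.mul (jdFun_mdiff d.1)

theorem evN_smul (P : MvPolynomial (Dv N) Kb) (γ : SL(2, ℤ)) (hγ : γ ∈ Gamma0 N) (z : ℍ) :
    evN N P (γ • z) = evN N P z := by
  induction P using MvPolynomial.induction_on with
  | C a => simp
  | add p q hp hq => simp only [map_add, Pi.add_apply, hp, hq]
  | mul_X p d hp =>
    simp only [map_mul, Pi.mul_apply, hp, evN_X]
    rw [jdFun_smul_of_mem_Gamma0 N d.1 d.2 γ hγ z]

theorem evN_isMod (P : MvPolynomial (Dv N) Kb) (g : SL(2, ℤ)) :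
    IsMod (fun z => evN N P (g⁻¹ • z)) := by
  induction P using MvPolynomial.induction_on with
  | C a => simpa using isMod_const (iotaC a)
  | add p q hp hq =>
    simp only [map_add, Pi.add_apply]
    exact hp.add hq
  | mul_X p d hp =>
    simp only [map_mul, Pi.mul_apply, evN_X]
    refine hp.mul ?_
    obtain ⟨A, D, B, _, _, -, -, h⟩ := mat_decomp d.1 g⁻¹
    have e : (fun z => jdFun d.1 (g⁻¹ • z)) = fun z => jFun (affH A B D z) := funext h
    rw [e]
    exact isMod_jFun_affH A B D

end Fermat.Agent.S24
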