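import Mathlib
import Fermat.Agent.S24.AnDefs

/-!
# S24 (G3), (H6): the function field is the fraction field of `K[j_d]`
-/

set_option autoImplicit false

namespace Fermat.Agent.S24

open ModularCurve HahnSeries
open Fermat.Agent.X0

variable (N : ℕ) [NeZero N]

/-- `piN` with values in Laurent series, as a ring homomorphism -/
noncomputable def piL : MvPolynomial (Dv N) Kb →+* LaurentSeries Kb :=
  (algebraMap (FN N) (LaurentSeries Kb)).comp (piN N : MvPolynomial (Dv N) Kb →+* FN N)

theorem piL_apply (P : MvPolynomial (Dv N) Kb) : piL N P = ((piN N P : FN N) : LaurentSeries Kb) :=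
  rfl

theorem piL_C (a : Kb) : piL N (MvPolynomial.C a) = algebraMap Kb (LaurentSeries Kb) a := by
  rw [piL_apply]
  simp only [piN, MvPolynomial.aeval_C]
  rfl

theorem piL_X (d : Dv N) : piL N (MvPolynomial.X d) = coeffEmb Kb (qExpand ℚ d.1 jq) := by
  rw [piL_apply]
  simp only [piN, MvPolynomial.aeval_X]
  rfl

/-- fractions of polynomials in the generators -/
def IsFrac (f : LaurentSeries Kb) : Prop :=
  ∃ P Q : MvPolynomial (Dv N) Kb, piL N Q ≠ 0 ∧ f * piL N Q = piL N P

theorem IsFrac.add {f g : LaurentSeries Kb} (hf : IsFrac N f) (hg : IsFrac N g) :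
    IsFrac N (f + g) := by
  obtain ⟨P, Q, hQ, h⟩ := hf
  obtain ⟨P', Q', hQ', h'⟩ := hg
  refine ⟨P * Q' + P' * Q, Q * Q', by rw [map_mul]; exact mul_ne_zero hQ hQ', ?_⟩
  rw [map_mul, map_add, map_mul, map_mul, ← h, ← h']
  ring

theorem IsFrac.mul {f g : LaurentSeries Kb} (hf : IsFrac N f) (hg : IsFrac N g) :
    IsFrac N (f * g) := by
  obtain ⟨P, Q, hQ, h⟩ := hf
  obtain ⟨P', Q', hQ', h'⟩ := hg
  refine ⟨P * P', Q * Q', by rw [map_mul]; exact mul_ne_zero hQ hQ', ?_⟩
  rw [map_mul, map_mul, ← h, ← h']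
  ring

theorem IsFrac.neg {f : LaurentSeries Kb} (hf : IsFrac N f) : IsFrac N (-f) := by
  obtain ⟨P, Q, hQ, h⟩ := hf
  exact ⟨-P, Q, hQ, by rw [map_neg, ← h]; ring⟩

theorem isFrac_piL (P : MvPolynomial (Dv N) Kb) : IsFrac N (piL N P) :=
  ⟨P, 1, by rw [map_one]; exact one_ne_zero, by rw [map_one, mul_one]⟩

theorem IsFrac.inv {f : LaurentSeries Kb} (hf : IsFrac N f) : IsFrac N f⁻¹ := by
  by_cases hf0 : f = 0
  · rw [hf0, inv_zero]
    simpa using isFrac_piL N 0
  · obtain ⟨P, Q, hQ, h⟩ := hf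
    refine ⟨Q, P, by rw [← h]; exact mul_ne_zero hf0 hQ, ?_⟩
    rw [← h, ← mul_assoc, inv_mul_cancel₀ hf0, one_mul]

theorem isFrac_coeffEmb {z : LaurentSeries ℚ} (hz : z ∈ modularFunctionFieldFull N) :
    IsFrac N (coeffEmb Kb z) := by
  have hz' : z ∈ Subfield.closure
      (Set.range (algebraMap ℚ (LaurentSeries ℚ)) ∪ divisorExpansions N) := hz
  clear hz
  induction hz' using Subfield.closure_induction with
  | mem y hy =>
    rcases hy with ⟨r, rfl⟩ | ⟨d, hne, hd, rfl⟩
    · have e : coeffEmb Kb (algebraMap ℚ (LaurentSeries ℚ) r) =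
          piL N (MvPolynomial.C (algebraMap ℚ Kb r)) := by
        rw [piL_C, algebraMap_apply_eq_single, algebraMap_laurentSeries_eq_single, coeffEmb,
          coeffMap_single]
      rw [e]
      exact isFrac_piL N _
    · have e : coeffEmb Kb (qExpand ℚ d jq) = piL N (MvPolynomial.X ⟨d, hd⟩) := by
        rw [piL_X]
      rw [e]
      exact isFrac_piL N _
  | one => simpa using isFrac_piL N 1
  | add x y _ _ hx hy => rw [map_add]; exact hx.add N hy
  | neg x _ hx => rw [map_neg]; exact hx.neg N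
  | inv x _ hx => rw [map_inv₀]; exact hx.inv N
  | mul x y _ _ hx hy => rw [map_mul]; exact hx.mul N hy

theorem isFrac_of_mem {f : LaurentSeries Kb} (hf : f ∈ modularFunctionFieldBar N) :
    IsFrac N f := by
  rw [mem_laurentBaseChange_iff] at hf
  induction hf using Subfield.closure_induction with
  | mem y hy =>
    rcases hy with ⟨a, rfl⟩ | ⟨z, hz, rfl⟩
    · rw [← piL_C N]
      exact isFrac_piL N _
    · exact isFrac_coeffEmb N hz
  | one => simpa using isFrac_piL N 1
  | add x y _ _ hx hy => exact hx.add N hy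
  | neg x _ hx => exact hx.neg N
  | inv x _ hx => exact hx.inv N
  | mul x y _ _ hx hy => exact hx.mul N hy

theorem exists_frac (f : FN N) :
    ∃ P Q : MvPolynomial (Dv N) Kb, piN N Q ≠ 0 ∧ f * piN N Q = piN N P := by
  obtain ⟨P, Q, hQ, h⟩ := isFrac_of_mem N f.2
  refine ⟨P, Q, fun h0 => hQ ?_, Subtype.ext h⟩
  rw [piL_apply, h0]
  rfl

theorem piN_X_one : piN N (MvPolynomial.X ⟨1, one_dvd N⟩) = jBar N := by
  apply Subtype.ext
  have := piL_X N ⟨1, one_dvd N⟩
  rw [piL_apply] at this
  rw [this, qExpand_one_apply]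
  rfl

theorem jBar_transcendental : Transcendental Kb (jBar N) := by
  rw [transcendental_iff]
  intro p hp
  by_contra hp0
  have h1 : Polynomial.aeval (coeffEmb Kb jq) p = 0 := by
    have := congrArg (algebraMap (FN N) (LaurentSeries Kb)) hp
    rw [map_zero, ← Polynomial.aeval_algebraMap_apply] at this
    exact this
  rw [Polynomial.aeval_def, Polynomial.eval₂_eq_sum_range] at h1
  have h2 := congrArg (fun s : LaurentSeries Kb => s.coeff (-(p.natDegree : ℤ))) h1
  simp only [HahnSeries.coeff_sum, HahnSeries.coeff_zero] at h2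
  have hsm : ∀ (a : Kb) (x : LaurentSeries Kb) (k : ℤ),
      (algebraMap Kb (LaurentSeries Kb) a * x).coeff k = a * x.coeff k := by
    intro a x k
    rw [algebraMap_laurentSeries_eq_single, HahnSeries.coeff_single_mul, sub_zero]
  rw [Finset.sum_range_succ, Finset.sum_eq_zero, zero_add] at h2
  · rw [← map_pow, hsm, coeffEmb_coeff, coeff_jq_pow_self, map_one, mul_one] at h2
    exact hp0 (Polynomial.leadingCoeff_eq_zero.1 h2)
  · intro i hi
    rw [← map_pow, hsm, coeffEmb_coeff, coeff_jq_pow_of_lt, map_zero, mul_zero]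
    have := Finset.mem_range.1 hi
    omega

end Fermat.Agent.S24
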