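import Mathlib
import Fermat.Agent.S24.AnDefs
import Fermat.Agent.S24.Ev
import Fermat.Agent.S24.RelInf
import Fermat.Agent.S24.JExp
import Fermat.Agent.S24.Frac

/-!
# S24 (G3): from expansion relations to embeddings of the function field
-/

set_option autoImplicit false

namespace Fermat.Agent.S24

open UpperHalfPlane ModularForm ModularCurve HahnSeries CongruenceSubgroup
open Fermat.Agent.X0
open scoped MatrixGroups Manifold

variable (N : ℕ) [NeZero N]

set_option synthInstance.maxHeartbeats 400000 in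
theorem piN_add (p q : MvPolynomial (Dv N) Kb) : piN N (p + q) = piN N p + piN N q :=
  map_add (piN N) p q

set_option synthInstance.maxHeartbeats 400000 in
theorem piN_mul (p q : MvPolynomial (Dv N) Kb) : piN N (p * q) = piN N p * piN N q :=
  map_mul (piN N) p q

set_option synthInstance.maxHeartbeats 400000 in
theorem piN_sub (p q : MvPolynomial (Dv N) Kb) : piN N (p - q) = piN N p - piN N q :=
  map_sub (piN N) p q

set_option synthInstance.maxHeartbeats 400000 in
theorem piN_one : piN N 1 = 1 := map_one (piN N)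

set_option synthInstance.maxHeartbeats 400000 in
theorem piN_zero : piN N 0 = 0 := map_zero (piN N)

/-- the embedding of the function field into `ℂ((q))` -/
noncomputable def toCq : FN N →+* LaurentSeries ℂ :=
  (coeffMap iotaC).comp (algebraMap (FN N) (LaurentSeries Kb))

theorem relInf_evN (P : MvPolynomial (Dv N) Kb) : RelInf 1 (evN N P) (toCq N (piN N P)) := by
  have hR := expRel_relInf 1 one_pos
  induction P using MvPolynomial.induction_on with
  | C a =>
    rw [evN_C]
    have e : toCq N (piN N (MvPolynomial.C a)) = HahnSeries.C (iotaC a) := by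
      simp only [piN, MvPolynomial.aeval_C, toCq, RingHom.comp_apply]
      rw [← IsScalarTower.algebraMap_apply, algebraMap_laurentSeries_eq_single, coeffMap_single]
      rfl
    rw [e]
    exact hR.const _
  | add p q hp hq =>
    rw [map_add, piN_add, map_add]
    exact hR.add hp hq
  | mul_X p d hp =>
    rw [map_mul, piN_mul, map_mul, evN_X]
    refine hR.mul hp ?_
    have e : toCq N (piN N (MvPolynomial.X d)) =
        coeffMap iotaC (coeffEmb Kb (qExpand ℚ d.1 jq)) := by
      simp only [piN, MvPolynomial.aeval_X, toCq, RingHom.comp_apply]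
      rfl
    rw [e]
    exact relInf_jdFun d.1

theorem piN_eq_zero_iff (P : MvPolynomial (Dv N) Kb) : piN N P = 0 ↔ evN N P = 0 := by
  rw [← (expRel_relInf 1 one_pos).eq_zero_iff (relInf_evN N P)]
  exact (map_eq_zero_iff _ (toCq N).injective).symm

theorem exists_hom_of_expRel (R : (ℍ → ℂ) → LaurentSeries ℂ → Prop) (hR : ExpRel R)
    (hgen : ∀ d : Dv N, ∃ s, R (jdFun d.1) s) :
    ∃ σ : FN N →+* LaurentSeries ℂ, ∀ P, R (evN N P) (σ (piN N P)) := by
  choose s hs using hgen
  let e : MvPolynomial (Dv N) Kb →+* LaurentSeries ℂ :=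
    MvPolynomial.eval₂Hom ((HahnSeries.C : ℂ →+* LaurentSeries ℂ).comp iotaC) s
  have key1 : ∀ P, R (evN N P) (e P) := by
    intro P
    induction P using MvPolynomial.induction_on with
    | C a =>
      rw [evN_C]
      have : e (MvPolynomial.C a) = HahnSeries.C (iotaC a) := by simp [e]
      rw [this]
      exact hR.const _
    | add p q hp hq =>
      rw [map_add, map_add]
      exact hR.add hp hq
    | mul_X p d hp =>
      rw [map_mul, map_mul, evN_X]
      have : e (MvPolynomial.X d) = s d := by simp [e]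
      rw [this]
      exact hR.mul hp (hs d)
  have key3 : ∀ P, piN N P = 0 ↔ e P = 0 := fun P => by
    rw [piN_eq_zero_iff, hR.eq_zero_iff (key1 P)]
  choose Pf Qf hQf hPQf using exists_frac N
  have hwd : ∀ (f : FN N) (P Q : MvPolynomial (Dv N) Kb), piN N Q ≠ 0 → f * piN N Q = piN N P →
      e (Pf f) / e (Qf f) = e P / e Q := by
    intro f P Q hQ hPQ
    have h1 : e (Qf f) ≠ 0 := fun h => hQf f ((key3 _).2 h)
    have h2 : e Q ≠ 0 := fun h => hQ ((key3 _).2 h)
    rw [div_eq_div_iff h1 h2]
    have h3 : piN N (Pf f * Q - P * Qf f) = 0 := by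
      rw [piN_sub, piN_mul, piN_mul, ← hPQf f, ← hPQ]
      ring
    have h4 := (key3 _).1 h3
    rw [map_sub, map_mul, map_mul] at h4
    exact sub_eq_zero.1 h4
  have hne : ∀ Q, piN N Q ≠ 0 → e Q ≠ 0 := fun Q hQ h => hQ ((key3 _).2 h)
  refine ⟨{ toFun := fun f => e (Pf f) / e (Qf f)
            map_one' := ?_, map_mul' := ?_, map_zero' := ?_, map_add' := ?_ }, ?_⟩
  · rw [hwd 1 1 1 (by rw [piN_one]; exact one_ne_zero) (by rw [piN_one, one_mul])]
    simp
  · intro f g
    rw [hwd (f * g) (Pf f * Pf g) (Qf f * Qf g)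
      (by rw [piN_mul]; exact mul_ne_zero (hQf f) (hQf g))
      (by rw [piN_mul, piN_mul, ← hPQf f, ← hPQf g]; ring), map_mul, map_mul, mul_div_mul_comm]
  · rw [hwd 0 0 1 (by rw [piN_one]; exact one_ne_zero) (by rw [piN_zero, zero_mul])]
    simp
  · intro f g
    rw [hwd (f + g) (Pf f * Qf g + Qf f * Pf g) (Qf f * Qf g)
      (by rw [piN_mul]; exact mul_ne_zero (hQf f) (hQf g))
      (by rw [piN_mul, piN_add, piN_mul, piN_mul, ← hPQf f, ← hPQf g]; ring), map_mul, map_add,
      map_mul, map_mul, div_add_div _ _ (hne _ (hQf f)) (hne _ (hQf g))]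
  · intro P
    change R (evN N P) (e (Pf (piN N P)) / e (Qf (piN N P)))
    rw [hwd (piN N P) P 1 (by rw [piN_one]; exact one_ne_zero) (by rw [piN_one, mul_one])]
    simpa using key1 P

/-- the common part of the conclusion of the four existence theorems -/
def IsFamily (ι : Kb →+* ℂ) (σ : Cos N → FN N →+* LaurentSeries ℂ) : Prop :=
  Function.Injective σ ∧ (∀ i c, σ i (algebraMap Kb (FN N) c) = HahnSeries.C (ι c)) ∧
    ∀ i k, σ i (jBar N) = σ k (jBar N)

theorem piN_C (c : Kb) : piN N (MvPolynomial.C c) = algebraMap Kb (FN N) c := by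
  simp only [piN, MvPolynomial.aeval_C]

theorem piN_X (d : Dv N) : piN N (MvPolynomial.X d) = jdS N d := by
  simp only [piN, MvPolynomial.aeval_X]

theorem exists_family (R : (ℍ → ℂ) → LaurentSeries ℂ → Prop) (hR : ExpRel R)
    (hgen : ∀ (g : SL(2, ℤ)) (d : Dv N), ∃ s, R (fun z => jdFun d.1 (g⁻¹ • z)) s) :
    ∃ σ : Cos N → FN N →+* LaurentSeries ℂ, IsFamily N iotaC σ ∧
      (∀ (g : SL(2, ℤ)) P, R (fun z => evN N P (g⁻¹ • z)) (σ (QuotientGroup.mk g) (piN N P))) ∧
      (∀ x y, σ x (jdS N ⟨N, dvd_rfl⟩) = σ y (jdS N ⟨N, dvd_rfl⟩) → x = y) ∧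
      ∀ (h : SL(2, ℤ)) (lam : ℂ), lam ≠ 0 →
        (∀ φ s, R φ s → R (fun z => φ (h⁻¹ • z)) (scaleFun lam s)) →
        ∀ x f, σ (h • x) f = scaleFun lam (σ x f) := by
  have hex : ∀ x : Cos N, ∃ σ : FN N →+* LaurentSeries ℂ,
      ∀ P, R (fun z => evN N P ((Quotient.out x : SL(2, ℤ))⁻¹ • z)) (σ (piN N P)) := fun x =>
    exists_hom_of_expRel N _ (hR.comp (Quotient.out x)) (hgen _)
  choose σ hσ using hex
  have F1 : ∀ (g : SL(2, ℤ)) P,
      R (fun z => evN N P (g⁻¹ • z)) (σ (QuotientGroup.mk g) (piN N P)) := by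
    intro g P
    obtain ⟨γ, hγ⟩ := QuotientGroup.mk_out_eq_mul (Gamma0 N) g
    have h1 := hσ (QuotientGroup.mk g) P
    have e : (fun z => evN N P ((Quotient.out (QuotientGroup.mk g : Cos N) : SL(2, ℤ))⁻¹ • z)) =
        fun z => evN N P (g⁻¹ • z) := by
      ext z
      rw [hγ, mul_inv_rev, mul_smul, evN_smul N P _ (inv_mem γ.2)]
    rwa [e] at h1
  have F4 : ∀ x y, σ x (jdS N ⟨N, dvd_rfl⟩) = σ y (jdS N ⟨N, dvd_rfl⟩) → x = y := by
    intro x y hxy
    induction x using QuotientGroup.induction_on with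
    | H g =>
    induction y using QuotientGroup.induction_on with
    | H g' =>
    have h1 := F1 g (MvPolynomial.X ⟨N, dvd_rfl⟩)
    have h2 := F1 g' (MvPolynomial.X ⟨N, dvd_rfl⟩)
    rw [piN_X] at h1 h2
    rw [hxy] at h1
    have h3 := hR.unique_left h1 h2
    simp only [evN_X] at h3
    refine QuotientGroup.eq.2 ?_
    have h4 : (g⁻¹ * g')⁻¹ ∈ Gamma0 N := by
      apply mem_Gamma0_of_jdFun_smul N
      intro z
      have := congrFun h3 (g • z)
      simp only [inv_smul_smul] at this
      rw [this, mul_inv_rev, inv_inv, mul_smul]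
    simpa using inv_mem h4
  refine ⟨σ, ⟨?_, ?_, ?_⟩, F1, F4, ?_⟩
  · intro x y hxy
    exact F4 x y (by rw [hxy])
  · intro x c
    have h1 := hσ x (MvPolynomial.C c)
    rw [piN_C] at h1
    simp only [evN_C] at h1
    exact hR.unique_right h1 (hR.const _)
  · have key : ∀ x, R jFun (σ x (jBar N)) := by
      intro x
      have h1 := hσ x (MvPolynomial.X ⟨1, one_dvd N⟩)
      rw [piN_X_one] at h1
      simp only [evN_X, jdFun_one, jFun_smul] at h1
      exact h1
    intro x y
    exact hR.unique_right (key x) (key y)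
  · intro h lam hlam hsc x f
    induction x using QuotientGroup.induction_on with
    | H g =>
    have key : ∀ P, σ (h • (QuotientGroup.mk g : Cos N)) (piN N P) =
        scaleFun lam (σ (QuotientGroup.mk g) (piN N P)) := by
      intro P
      have h1 := hsc _ _ (F1 g P)
      have h2 := F1 (h * g) P
      have e : (fun z => evN N P ((h * g)⁻¹ • z)) = fun z => evN N P (g⁻¹ • h⁻¹ • z) := by
        ext z
        rw [mul_inv_rev, mul_smul]
      rw [e] at h2
      exact hR.unique_right h2 h1
    obtain ⟨P, Q, hQ, hPQ⟩ := exists_frac N f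
    have h1 : σ (h • (QuotientGroup.mk g : Cos N)) f * σ (h • (QuotientGroup.mk g : Cos N)) (piN N Q) =
        scaleFun lam (σ (QuotientGroup.mk g) f) *
          σ (h • (QuotientGroup.mk g : Cos N)) (piN N Q) := by
      rw [← map_mul, hPQ, key P, key Q, ← scaleFun_mul lam hlam, ← map_mul, hPQ]
    refine mul_right_cancel₀ ?_ h1
    exact (map_ne_zero _).2 hQ

end Fermat.Agent.S24
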