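import Mathlib
import Fermat.Agent.S24.AnDefs

/-!
# S24 (H1): expansions at a point of `ℍ`
-/

set_option autoImplicit false

namespace Fermat.Agent.S24

open UpperHalfPlane ModularForm EisensteinSeries ModularCurve HahnSeries CongruenceSubgroup
open Fermat.Agent.X0
open scoped MatrixGroups Manifold Real Topology

/-! ### Taylor series -/

theorem relAt_tay_coeff (F : ℂ → ℂ) (n : ℕ) :
    (tay F).coeff n = ((n.factorial : ℂ))⁻¹ * iteratedDeriv n F 0 := by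
  simp [tay]

theorem relAt_tay_add {F G : ℂ → ℂ} (hF : AnalyticAt ℂ F 0) (hG : AnalyticAt ℂ G 0) :
    tay (F + G) = tay F + tay G := by
  ext m
  simp [relAt_tay_coeff, iteratedDeriv_add hF.contDiffAt hG.contDiffAt, mul_add]

theorem relAt_tay_mul {F G : ℂ → ℂ} (hF : AnalyticAt ℂ F 0) (hG : AnalyticAt ℂ G 0) :
    tay (F * G) = tay F * tay G := by
  ext
  simp only [relAt_tay_coeff,
    iteratedDeriv_mul hF.contDiffAt hG.contDiffAt, Finset.mul_sum, PowerSeries.coeff_mul,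
    Finset.Nat.sum_antidiagonal_eq_sum_range_succ_mk, Nat.succ_eq_add_one]
  refine Finset.sum_congr rfl fun i hi ↦ ?_
  rw [Nat.cast_choose _ (by grind)]
  field_simp [Nat.factorial_ne_zero]

theorem relAt_tay_const (c : ℂ) : tay (fun _ => c) = PowerSeries.C c := by
  ext m
  rw [relAt_tay_coeff, PowerSeries.coeff_C]
  rcases m with _ | m
  · simp
  · simp [iteratedDeriv_const]

theorem relAt_tay_congr {F G : ℂ → ℂ} (h : F =ᶠ[𝓝 0] G) : tay F = tay G := by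
  ext m
  rw [relAt_tay_coeff, relAt_tay_coeff, (h.iteratedDeriv_eq m)]

theorem relAt_tay_eq_zero_iff {F : ℂ → ℂ} (hF : AnalyticAt ℂ F 0) :
    tay F = 0 ↔ analyticOrderAt F 0 = ⊤ := by
  rw [ENat.eq_top_iff_forall_ge]
  constructor
  · intro h n
    rw [natCast_le_analyticOrderAt_iff_iteratedDeriv_eq_zero hF]
    intro i _
    have h1 := congrArg (PowerSeries.coeff i) h
    rw [relAt_tay_coeff] at h1
    have hne : ((i.factorial : ℂ))⁻¹ ≠ 0 := inv_ne_zero (by exact_mod_cast i.factorial_ne_zero)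
    simpa [hne] using h1
  · intro h
    ext i
    have := (natCast_le_analyticOrderAt_iff_iteratedDeriv_eq_zero hF).mp (h (i + 1)) i (by omega)
    rw [relAt_tay_coeff, this]
    simp

theorem relAt_iteratedDeriv_scale {F : ℂ → ℂ} (hF : AnalyticAt ℂ F 0) (c : ℂ) (n : ℕ) :
    ∀ᶠ w in 𝓝 (0 : ℂ), iteratedDeriv n (fun x => F (c * x)) w = c ^ n * iteratedDeriv n F (c * w) := by
  induction n with
  | zero => simp
  | succ n ih =>
    have hcont : Filter.Tendsto (fun w : ℂ => c * w) (𝓝 0) (𝓝 0) := by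
      have : Continuous (fun w : ℂ => c * w) := by fun_prop
      simpa using this.tendsto 0
    have han : ∀ᶠ w in 𝓝 (0 : ℂ), AnalyticAt ℂ F (c * w) :=
      hcont.eventually hF.eventually_analyticAt
    filter_upwards [ih.eventually_nhds, han] with w hw haw
    have hw' : (iteratedDeriv n fun x => F (c * x)) =ᶠ[𝓝 w]
        fun x => c ^ n * iteratedDeriv n F (c * x) := hw
    rw [iteratedDeriv_succ, hw'.deriv_eq, iteratedDeriv_succ]
    have hd : DifferentiableAt ℂ (iteratedDeriv n F) (c * w) := by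
      have := (AnalyticAt.iterated_deriv haw n).differentiableAt
      rwa [← iteratedDeriv_eq_iterate] at this
    have h1 : HasDerivAt (fun x : ℂ => iteratedDeriv n F (c * x))
        (deriv (iteratedDeriv n F) (c * w) * c) w := by
      have h2 : HasDerivAt (fun x : ℂ => c * x) c w := by
        simpa using (hasDerivAt_id w).const_mul c
      exact hd.hasDerivAt.comp w h2
    rw [(h1.const_mul (c ^ n)).deriv]
    ring

theorem relAt_tay_scale {F : ℂ → ℂ} (hF : AnalyticAt ℂ F 0) (c : ℂ) (n : ℕ) :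
    (tay (fun x => F (c * x))).coeff n = c ^ n * (tay F).coeff n := by
  rw [relAt_tay_coeff, relAt_tay_coeff, (relAt_iteratedDeriv_scale hF c n).self_of_nhds, mul_zero]
  ring

/-! ### The Cayley chart -/

theorem relAt_cay_zero (z₀ : ℍ) : cay z₀ 0 = z₀ := by simp [cay]

theorem relAt_cay_analyticAt (z₀ : ℍ) : AnalyticAt ℂ (cay z₀) 0 := by
  unfold cay
  apply AnalyticAt.div
  · fun_prop
  · fun_prop
  · simp

theorem relAt_cay_hasDerivAt (z₀ : ℍ) :
    HasDerivAt (cay z₀) ((z₀ : ℂ) - (starRingEnd ℂ) (z₀ : ℂ)) 0 := by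
  have h1 : HasDerivAt (fun w : ℂ => (z₀ : ℂ) - (starRingEnd ℂ) (z₀ : ℂ) * w)
      (-(starRingEnd ℂ) (z₀ : ℂ)) 0 := by
    simpa using ((hasDerivAt_id (0 : ℂ)).const_mul ((starRingEnd ℂ) (z₀ : ℂ))).const_sub (z₀ : ℂ)
  have h2 : HasDerivAt (fun w : ℂ => 1 - w) (-1) 0 := by
    simpa using (hasDerivAt_id (0 : ℂ)).const_sub 1
  have h3 := h1.div h2 (by simp)
  have e : (-(starRingEnd ℂ) (z₀ : ℂ) * (1 - 0) - ((z₀ : ℂ) - (starRingEnd ℂ) (z₀ : ℂ) * 0) * -1) /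
      (1 - 0) ^ 2 = (z₀ : ℂ) - (starRingEnd ℂ) (z₀ : ℂ) := by ring
  rw [e] at h3
  exact h3

theorem relAt_cay_deriv_ne (z₀ : ℍ) : deriv (cay z₀) 0 ≠ 0 := by
  rw [(relAt_cay_hasDerivAt z₀).deriv]
  intro h
  have h1 := congrArg Complex.im h
  simp only [Complex.sub_im, Complex.conj_im, Complex.zero_im, sub_neg_eq_add] at h1
  have h2 := z₀.im_pos
  have h3 : (z₀ : ℂ).im = z₀.im := rfl
  rw [h3] at h1
  linarith

theorem relAt_cay_im_pos (z₀ : ℍ) : ∀ᶠ w in 𝓝 (0 : ℂ), 0 < (cay z₀ w).im := by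
  have hc : ContinuousAt (cay z₀) 0 := (relAt_cay_analyticAt z₀).continuousAt
  have : upperHalfPlaneSet ∈ 𝓝 (cay z₀ 0) := by
    rw [relAt_cay_zero]
    exact isOpen_upperHalfPlaneSet.mem_nhds z₀.im_pos
  exact hc this

theorem relAt_comp_analyticAt (z₀ : ℍ) {φ : ℍ → ℂ} (hφ : MDiff φ) :
    AnalyticAt ℂ (fun w => φ (ofComplex (cay z₀ w))) 0 := by
  have h1 : AnalyticAt ℂ (φ ∘ ofComplex) (cay z₀ 0) := by
    rw [relAt_cay_zero]
    exact jf_analyticAt hφ z₀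
  exact h1.comp (relAt_cay_analyticAt z₀)

theorem relAt_comp_order (z₀ : ℍ) (φ : ℍ → ℂ) :
    analyticOrderAt (fun w => φ (ofComplex (cay z₀ w))) 0 =
      analyticOrderAt (φ ∘ ofComplex) (z₀ : ℂ) := by
  have := analyticOrderAt_comp_of_deriv_ne_zero (f := φ ∘ ofComplex) (relAt_cay_analyticAt z₀)
    (relAt_cay_deriv_ne z₀)
  rw [relAt_cay_zero] at this
  exact this

/-- identity theorem on `ℍ` -/
theorem relAt_eq_zero_of_order_top (z₀ : ℍ) {φ : ℍ → ℂ} (hφ : MDiff φ)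
    (h : analyticOrderAt (φ ∘ ofComplex) (z₀ : ℂ) = ⊤) : φ = 0 := by
  have han : AnalyticOnNhd ℂ (φ ∘ ofComplex) upperHalfPlaneSet := by
    intro z hz
    exact jf_analyticAt hφ ⟨z, hz⟩
  have hpre : IsPreconnected upperHalfPlaneSet :=
    (convex_halfSpace_im_gt 0).isPreconnected
  have h0 := han.eqOn_zero_of_preconnected_of_eventuallyEq_zero hpre z₀.im_pos
    (analyticOrderAt_eq_top.mp h)
  ext z
  have := h0 z.im_pos
  simpa using this

/-! ### Main statements -/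

theorem expRel_relAt (z₀ : ℍ) : ExpRel (RelAt z₀) where
  add := by
    rintro φ ψ f g ⟨hφ, rfl⟩ ⟨hψ, rfl⟩
    refine ⟨hφ.add hψ, ?_⟩
    rw [← map_add, ← relAt_tay_add (relAt_comp_analyticAt z₀ hφ) (relAt_comp_analyticAt z₀ hψ)]
    rfl
  mul := by
    rintro φ ψ f g ⟨hφ, rfl⟩ ⟨hψ, rfl⟩
    refine ⟨hφ.mul hψ, ?_⟩
    rw [← map_mul, ← relAt_tay_mul (relAt_comp_analyticAt z₀ hφ) (relAt_comp_analyticAt z₀ hψ)]
    rfl
  const := by
    intro c
    refine ⟨mdifferentiable_const, ?_⟩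
    rw [relAt_tay_const, HahnSeries.ofPowerSeries_C]
  eq_zero_iff := by
    rintro φ f ⟨hφ, rfl⟩
    rw [map_eq_zero_iff _ HahnSeries.ofPowerSeries_injective,
      relAt_tay_eq_zero_iff (relAt_comp_analyticAt z₀ hφ), relAt_comp_order]
    constructor
    · exact relAt_eq_zero_of_order_top z₀ hφ
    · rintro rfl
      rw [analyticOrderAt_eq_top]
      exact Filter.Eventually.of_forall fun _ => rfl

theorem relAt_order (z₀ : ℍ) {φ : ℍ → ℂ} {s : LaurentSeries ℂ} (h : RelAt z₀ φ s) (n : ℕ)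
    (hn : analyticOrderAt (φ ∘ ofComplex) (z₀ : ℂ) = n) : s.order = n := by
  obtain ⟨hφ, rfl⟩ := h
  rw [← relAt_comp_order] at hn
  obtain ⟨h1, h2⟩ := (analyticOrderAt_eq_nat_iff_iteratedDeriv_eq_zero
    (relAt_comp_analyticAt z₀ hφ)).mp hn
  set F : ℂ → ℂ := fun w => φ (ofComplex (cay z₀ w)) with hF
  have hcn : (HahnSeries.ofPowerSeries ℤ ℂ (tay F)).coeff (n : ℤ) ≠ 0 := by
    rw [HahnSeries.ofPowerSeries_apply_coeff, relAt_tay_coeff]
    exact mul_ne_zero (inv_ne_zero (by exact_mod_cast n.factorial_ne_zero)) h2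
  have hne : HahnSeries.ofPowerSeries ℤ ℂ (tay F) ≠ 0 := by
    intro h0
    rw [h0] at hcn
    simp at hcn
  apply le_antisymm
  · exact HahnSeries.order_le_of_coeff_ne_zero hcn
  · rw [HahnSeries.le_order_iff_forall hne]
    intro j hj
    rcases lt_or_ge j 0 with hj0 | hj0
    · exact ofPowerSeries_coeff_of_neg _ hj0
    · lift j to ℕ using hj0
      rw [HahnSeries.ofPowerSeries_apply_coeff, relAt_tay_coeff, h1 j (by exact_mod_cast hj),
        mul_zero]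

theorem relAt_scaleFun_ofPowerSeries (c : ℂ) (p q : PowerSeries ℂ)
    (h : ∀ n, q.coeff n = c ^ n * p.coeff n) :
    HahnSeries.ofPowerSeries ℤ ℂ q = scaleFun c (HahnSeries.ofPowerSeries ℤ ℂ p) := by
  ext j
  rw [scaleFun_coeff]
  rcases lt_or_ge j 0 with hj0 | hj0
  · rw [ofPowerSeries_coeff_of_neg _ hj0, ofPowerSeries_coeff_of_neg _ hj0, mul_zero]
  · lift j to ℕ using hj0
    rw [HahnSeries.ofPowerSeries_apply_coeff, HahnSeries.ofPowerSeries_apply_coeff, h, zpow_natCast]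

theorem relAt_scale (z₀ : ℍ) (h : SL(2, ℤ)) (lam : ℂ)
    (hl : ∀ᶠ w in nhds (0 : ℂ), ((h⁻¹ • ofComplex (cay z₀ w) : ℍ) : ℂ) = cay z₀ (lam * w))
    {φ : ℍ → ℂ} {s : LaurentSeries ℂ} (hφ : RelAt z₀ φ s) :
    RelAt z₀ (fun z => φ (h⁻¹ • z)) (scaleFun lam s) := by
  obtain ⟨hφ, rfl⟩ := hφ
  have hmd : MDiff (fun z : ℍ => φ (h⁻¹ • z)) := by
    have h1 : MDiff (fun τ : ℍ ↦ ((h⁻¹ : SL(2, ℤ)) : GL (Fin 2) ℝ) • τ) :=
      mdifferentiable_smul (by simp)
    exact hφ.comp h1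
  refine ⟨hmd, ?_⟩
  have heq : (fun w => φ (h⁻¹ • ofComplex (cay z₀ w))) =ᶠ[𝓝 0]
      fun w => (fun x => φ (ofComplex (cay z₀ x))) (lam * w) := by
    filter_upwards [hl] with w hw
    rw [← hw, ofComplex_apply]
  rw [eq_comm]
  apply relAt_scaleFun_ofPowerSeries
  intro n
  rw [relAt_tay_congr heq]
  exact relAt_tay_scale (relAt_comp_analyticAt z₀ hφ) lam n

/-! ### The elliptic points -/

theorem relAt_smul_cay (z₀ : ℍ) (g : SL(2, ℤ)) : ∀ᶠ w in 𝓝 (0 : ℂ),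
    ((g • ofComplex (cay z₀ w) : ℍ) : ℂ) =
      ((g 0 0 : ℂ) * cay z₀ w + (g 0 1 : ℂ)) / ((g 1 0 : ℂ) * cay z₀ w + (g 1 1 : ℂ)) ∧
      0 < (cay z₀ w).im := by
  filter_upwards [relAt_cay_im_pos z₀] with w hw
  refine ⟨?_, hw⟩
  rw [coe_specialLinearGroup_apply, ofComplex_apply_of_im_pos hw]
  simp

theorem relAt_one_sub_ne (c : ℂ) : ∀ᶠ w in 𝓝 (0 : ℂ), 1 - c * w ≠ 0 := by
  have hc : ContinuousAt (fun w : ℂ => 1 - c * w) 0 := by fun_prop
  apply hc.eventually_ne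
  simp

theorem cay_S : ∀ᶠ w in nhds (0 : ℂ),
    ((ModularGroup.S⁻¹ • ofComplex (cay UpperHalfPlane.I w) : ℍ) : ℂ) =
      cay UpperHalfPlane.I (-1 * w) := by
  filter_upwards [relAt_smul_cay UpperHalfPlane.I ModularGroup.S⁻¹, relAt_one_sub_ne 1,
    relAt_one_sub_ne (-1)] with w hw h1 h2
  obtain ⟨hw, him⟩ := hw
  rw [hw]
  have hne : cay UpperHalfPlane.I w ≠ 0 := by
    intro h0; rw [h0] at him; simp at him
  have e00 : (ModularGroup.S⁻¹ : SL(2, ℤ)) 0 0 = 0 := by decide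
  have e01 : (ModularGroup.S⁻¹ : SL(2, ℤ)) 0 1 = 1 := by decide
  have e10 : (ModularGroup.S⁻¹ : SL(2, ℤ)) 1 0 = -1 := by decide
  have e11 : (ModularGroup.S⁻¹ : SL(2, ℤ)) 1 1 = 0 := by decide
  rw [e00, e01, e10, e11]
  have h1' : (1 : ℂ) - w ≠ 0 := by simpa using h1
  have h2' : (1 : ℂ) + w ≠ 0 := by simpa using h2
  have hc : cay UpperHalfPlane.I w = Complex.I * (1 + w) / (1 - w) := by
    unfold cay
    simp only [UpperHalfPlane.coe_I, Complex.conj_I]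
    ring
  have hc' : cay UpperHalfPlane.I (-1 * w) = Complex.I * (1 - w) / (1 + w) := by
    unfold cay
    simp only [UpperHalfPlane.coe_I, Complex.conj_I]
    ring
  rw [hc, hc']
  push_cast
  have hI : Complex.I ≠ 0 := Complex.I_ne_zero
  field_simp
  linear_combination (1 - w ^ 2) * Complex.I_sq

theorem relAt_rhoH_coe : (rhoH : ℂ) = -1 / 2 + (Real.sqrt 3 / 2 : ℝ) * Complex.I := rfl

theorem relAt_rhoH_eq : rhoH = jfRho := by
  ext
  rfl

theorem relAt_rhoH_sq : (rhoH : ℂ) ^ 2 + rhoH + 1 = 0 := by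
  rw [relAt_rhoH_eq]
  exact jfRho_sq

theorem relAt_E4_rhoH : E₄ rhoH = 0 := by
  rw [relAt_rhoH_eq]
  exact jf_E4_rho

theorem relAt_conj_rhoH : (starRingEnd ℂ) (rhoH : ℂ) = -1 - rhoH := by
  rw [relAt_rhoH_coe]
  simp only [map_add, map_mul, Complex.conj_ofReal, Complex.conj_I, map_div₀, map_neg, map_one,
    map_ofNat]
  ring

theorem relAt_isPrimitiveRoot_rhoH : IsPrimitiveRoot (rhoH : ℂ) 3 := by
  have h := relAt_rhoH_sq
  apply IsPrimitiveRoot.mk_of_lt _ (by norm_num)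
  · linear_combination ((rhoH : ℂ) - 1) * h
  · intro l hl0 hl3
    interval_cases l
    · intro h1
      rw [pow_one] at h1
      rw [h1] at h
      norm_num at h
    · intro h2
      have h1 : (rhoH : ℂ) = -2 := by linear_combination h - h2
      rw [h1] at h
      norm_num at h

theorem cay_U : ∃ lam : ℂ, IsPrimitiveRoot lam 3 ∧ ∀ᶠ w in nhds (0 : ℂ),
    ((Umat'⁻¹ • ofComplex (cay rhoH w) : ℍ) : ℂ) = cay rhoH (lam * w) := by
  refine ⟨rhoH, relAt_isPrimitiveRoot_rhoH, ?_⟩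
  filter_upwards [relAt_smul_cay rhoH Umat'⁻¹, relAt_one_sub_ne 1,
    relAt_one_sub_ne rhoH] with w hw h1 h2
  obtain ⟨hw, him⟩ := hw
  rw [hw]
  have hne : cay rhoH w ≠ 0 := by
    intro h0; rw [h0] at him; simp at him
  have e00 : (Umat'⁻¹ : SL(2, ℤ)) 0 0 = 1 := by decide
  have e01 : (Umat'⁻¹ : SL(2, ℤ)) 0 1 = 1 := by decide
  have e10 : (Umat'⁻¹ : SL(2, ℤ)) 1 0 = -1 := by decide
  have e11 : (Umat'⁻¹ : SL(2, ℤ)) 1 1 = 0 := by decide
  rw [e00, e01, e10, e11]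
  have h1' : (1 : ℂ) - w ≠ 0 := by simpa using h1
  have h := relAt_rhoH_sq
  unfold cay at hne ⊢
  rw [relAt_conj_rhoH] at hne ⊢
  set r : ℂ := (rhoH : ℂ) with hr
  have h3 : r - (-1 - r) * w ≠ 0 := by
    intro h0; rw [h0] at hne; simp at hne
  push_cast
  have h4 : (1 * ((r - (-1 - r) * w) / (1 - w)) + 1) / (-1 * ((r - (-1 - r) * w) / (1 - w)) + 0) =
      -((r - (-1 - r) * w) + (1 - w)) / (r - (-1 - r) * w) := by
    generalize r - (-1 - r) * w = a at h3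
    generalize (1 : ℂ) - w = b at h1'
    rw [add_zero, neg_one_mul, one_mul]
    field_simp
  rw [h4, div_eq_div_iff h3 h2]
  linear_combination (-1 - r * (w + w ^ 2)) * h

end Fermat.Agent.S24
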