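import Mathlib
import Fermat.Agent.S24.AnDefs
import Fermat.Agent.S24.Hom
import Fermat.Agent.S24.RelAt
import Fermat.Agent.X0.Cosets

/-!
# S24 (G3), (H11): the four families of embeddings
-/

set_option autoImplicit false

namespace Fermat.Agent.S24

open UpperHalfPlane ModularForm EisensteinSeries ModularCurve HahnSeries CongruenceSubgroup
open Fermat.Agent.X0
open scoped MatrixGroups Manifold Real

variable (N : ℕ) [NeZero N]

/-- the family attached to a point `z₀ ∈ ℍ` -/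
theorem exists_family_at (z₀ : ℍ) :
    ∃ σ : Cos N → FN N →+* LaurentSeries ℂ, IsFamily N iotaC σ ∧
      (∀ (x : Cos N) (a : Kb), RelAt z₀ (fun z => jFun z - iotaC a)
        (σ x (jBar N - algebraMap Kb (FN N) a))) ∧
      (∀ x y, σ x (jdS N ⟨N, dvd_rfl⟩) = σ y (jdS N ⟨N, dvd_rfl⟩) → x = y) ∧
      ∀ (h : SL(2, ℤ)) (lam : ℂ), lam ≠ 0 →
        (∀ᶠ w in nhds (0 : ℂ), ((h⁻¹ • ofComplex (cay z₀ w) : ℍ) : ℂ) = cay z₀ (lam * w)) →
        ∀ x f, σ (h • x) f = scaleFun lam (σ x f) := by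
  obtain ⟨σ, h1, h2, h3, h4⟩ := exists_family N (RelAt z₀) (expRel_relAt z₀)
    (fun g d => ⟨_, mdiff_comp_smul (jdFun_mdiff d.1) _, rfl⟩)
  refine ⟨σ, h1, ?_, h3, fun h lam hlam hl => h4 h lam hlam fun φ s hφ => relAt_scale z₀ h lam hl hφ⟩
  intro x a
  induction x using QuotientGroup.induction_on with
  | H g =>
    have h5 := h2 g (MvPolynomial.X ⟨1, one_dvd N⟩ - MvPolynomial.C a)
    rw [piN_sub, piN_X_one, piN_C] at h5
    have e : (fun z => evN N (MvPolynomial.X ⟨1, one_dvd N⟩ - MvPolynomial.C a) (g⁻¹ • z)) =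
        fun z => jFun z - iotaC a := by
      ext z
      rw [map_sub, evN_X, evN_C, Pi.sub_apply, jdFun_one, jFun_smul]
    rwa [e] at h5

theorem exists_family_generic (a : Kb) (ha0 : a ≠ 0) (ha : a ≠ 1728) :
    ∃ ι σ, IsFamily N ι σ ∧ ∀ i, (σ i (jBar N - algebraMap Kb (FN N) a)).order = 1 := by
  obtain ⟨z₀, hz₀⟩ := jFun_surjective (iotaC a)
  obtain ⟨σ, h1, h2, -, -⟩ := exists_family_at N z₀
  refine ⟨iotaC, σ, h1, fun x => ?_⟩
  have h4 : E₄ z₀ ≠ 0 := by
    rw [Ne, ← jFun_eq_zero_iff, hz₀, map_eq_zero]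
    exact ha0
  have h6 : E₆ z₀ ≠ 0 := by
    rw [Ne, ← jFun_eq_1728_iff, hz₀]
    intro h
    apply ha
    apply iotaC.injective
    rw [h, map_ofNat]
  have h := relAt_order z₀ (h2 x a) 1 (by
    have := jFun_order_generic z₀ h4 h6
    rw [hz₀] at this
    exact this)
  simpa using h

theorem exists_family_1728 :
    ∃ ι σ, IsFamily N ι σ ∧ (∀ i, (σ i (jBar N - algebraMap Kb (FN N) 1728)).order = 2) ∧
      ∀ i f, σ (ModularGroup.S • i) f = scaleFun (-1) (σ i f) := by
  obtain ⟨σ, h1, h2, -, h4⟩ := exists_family_at N UpperHalfPlane.I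
  refine ⟨iotaC, σ, h1, fun x => ?_, h4 ModularGroup.S (-1) (by norm_num) cay_S⟩
  have h := relAt_order UpperHalfPlane.I (h2 x 1728) 2 (by
    have := jFun_order_of_E6 UpperHalfPlane.I jf_E6_I
    have e : iotaC 1728 = 1728 := map_ofNat iotaC 1728
    rw [e]
    exact this)
  simpa using h

theorem exists_family_zero :
    ∃ ι σ lam, IsFamily N ι σ ∧ IsPrimitiveRoot lam 3 ∧
      (∀ i, (σ i (jBar N - algebraMap Kb (FN N) 0)).order = 3) ∧
      ∀ i f, σ (Umat • i) f = scaleFun lam (σ i f) := by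
  obtain ⟨σ, h1, h2, -, h4⟩ := exists_family_at N rhoH
  obtain ⟨lam, hlam, hl⟩ := cay_U
  refine ⟨iotaC, σ, lam, h1, hlam, fun x => ?_, h4 Umat lam (hlam.ne_zero (by norm_num)) hl⟩
  have h := relAt_order rhoH (h2 x 0) 3 (by
    have := jFun_order_of_E4 rhoH relAt_E4_rhoH
    have e : (fun z => jFun z - iotaC 0) ∘ ofComplex = fun w : ℂ => jFun (ofComplex w) := by
      ext w; simp
    rw [e]
    exact this)
  simpa using h

theorem exists_family_infty' :
    ∃ σ : Cos N → FN N →+* LaurentSeries ℂ, IsFamily N iotaC σ ∧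
      (∀ i, (σ i (jBar N)⁻¹).order = N) ∧
      (∀ i f, σ (ModularGroup.T • i) f =
        scaleFun (Complex.exp (-(2 * π * Complex.I) / N)) (σ i f)) ∧
      (∀ f, σ (QuotientGroup.mk 1) f = qExpand ℂ N (toCq N f)) ∧
      (∀ x y, σ x (jdS N ⟨N, dvd_rfl⟩) = σ y (jdS N ⟨N, dvd_rfl⟩) → x = y) ∧
      ∀ (g : SL(2, ℤ)) P, RelInf (N : ℝ) (fun z => evN N P (g⁻¹ • z))
        (σ (QuotientGroup.mk g) (piN N P)) := by
  have hN : (0 : ℝ) < N := by exact_mod_cast Nat.pos_of_ne_zero (NeZero.ne N)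
  have hR := expRel_relInf (N : ℝ) hN
  obtain ⟨σ, h1, h2, h3, h4⟩ := exists_family N (RelInf (N : ℝ)) hR (fun g d => by
    obtain ⟨A, D, B, _, _, hAD, -, h⟩ := mat_decomp d.1 g⁻¹
    have e : (fun z => jdFun d.1 (g⁻¹ • z)) = fun z => jFun (affH A B D z) := funext h
    rw [e]
    exact relInf_jFun_affH A B D N ((Dvd.intro_left A hAD).trans d.2))
  refine ⟨σ, h1, fun x => ?_, h4 ModularGroup.T _ (Complex.exp_ne_zero _)
    (fun φ s h => relInf_scale_T N h), fun f => ?_, h3, h2⟩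
  · have key : RelInf (N : ℝ) jFun (σ x (jBar N)) := by
      induction x using QuotientGroup.induction_on with
      | H g =>
        have h5 := h2 g (MvPolynomial.X ⟨1, one_dvd N⟩)
        rw [piN_X_one] at h5
        simp only [evN_X, jdFun_one, jFun_smul] at h5
        exact h5
    have ho := relInf_jFun_order N key
    have hne : σ x (jBar N) ≠ 0 := by
      intro h0
      rw [h0, HahnSeries.order_zero] at ho
      have : (0 : ℤ) < N := by exact_mod_cast Nat.pos_of_ne_zero (NeZero.ne N)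
      omega
    have h6 : σ x (jBar N) * σ x (jBar N)⁻¹ = 1 := by
      rw [map_inv₀, mul_inv_cancel₀ hne]
    have h7 := congrArg HahnSeries.order h6
    rw [HahnSeries.order_mul hne (by rw [map_inv₀]; exact inv_ne_zero hne), ho,
      HahnSeries.order_one] at h7
    linarith
  · have key : ∀ P, σ (QuotientGroup.mk 1) (piN N P) = qExpand ℂ N (toCq N (piN N P)) := by
      intro P
      have h5 := h2 1 P
      simp only [inv_one, one_smul] at h5
      exact hR.unique_right h5 (relInf_period N (relInf_evN N P))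
    obtain ⟨P, Q, hQ, hPQ⟩ := exists_frac N f
    have h6 : σ (QuotientGroup.mk 1) f * σ (QuotientGroup.mk 1) (piN N Q) =
        qExpand ℂ N (toCq N f) * σ (QuotientGroup.mk 1) (piN N Q) := by
      rw [← map_mul, hPQ, key P, key Q, ← map_mul, ← map_mul, hPQ]
    exact mul_right_cancel₀ ((map_ne_zero _).2 hQ) h6

theorem exists_family_infty :
    ∃ ι σ lam, IsFamily N ι σ ∧ IsPrimitiveRoot lam N ∧
      (∀ i, (σ i (jBar N)⁻¹).order = N) ∧
      ∀ i f, σ (ModularGroup.T • i) f = scaleFun lam (σ i f) := by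
  obtain ⟨σ, h1, h2, h3, -⟩ := exists_family_infty' N
  exact ⟨iotaC, σ, _, h1, isPrimitiveRoot_exp_neg N, h2, h3⟩

end Fermat.Agent.S24
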