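import Mathlib
import Fermat.Agent.S24.Families

/-!
# S24 (G3): lower bound for the degree
-/

set_option autoImplicit false

namespace Fermat.Agent.S24

open IntermediateField
open Fermat.Agent.X0

theorem degLow_agree {K F Ω : Type*} [Field K] [Field F] [Algebra K F] [Field Ω] (x : F)
    (σ τ : F →+* Ω) (hK : ∀ c, σ (algebraMap K F c) = τ (algebraMap K F c)) (hx : σ x = τ x)
    (a : F) (ha : a ∈ K⟮x⟯) : σ a = τ a := by
  induction ha using IntermediateField.adjoin_induction with
  | mem y hy =>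
    rw [Set.mem_singleton_iff] at hy
    rw [hy, hx]
  | algebraMap c => exact hK c
  | add y z _ _ hy hz => rw [map_add, map_add, hy, hz]
  | inv y _ hy => rw [map_inv₀, map_inv₀, hy]
  | mul y z _ _ hy hz => rw [map_mul, map_mul, hy, hz]

theorem degLow_card_le {K F Ω : Type*} [Field K] [Field F] [Algebra K F] [Field Ω] (x : F)
    [FiniteDimensional K⟮x⟯ F] {I : Type*} (σ : I → F →+* Ω)
    (hσ : Function.Injective σ)
    (hK : ∀ i k c, σ i (algebraMap K F c) = σ k (algebraMap K F c))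
    (hx : ∀ i k, σ i x = σ k x) : Nat.card I ≤ Module.finrank K⟮x⟯ F := by
  rcases isEmpty_or_nonempty I with hI | ⟨⟨i₀⟩⟩
  · simp
  letI : Algebra K⟮x⟯ Ω := ((σ i₀).comp (algebraMap K⟮x⟯ F)).toAlgebra
  let τ : I → (F →ₐ[K⟮x⟯] Ω) := fun i =>
    { σ i with
      commutes' := fun a => degLow_agree x (σ i) (σ i₀) (fun c => hK i i₀ c) (hx i i₀) a.1 a.2 }
  have hτ : Function.Injective τ := by
    intro i k hik
    apply hσ
    ext f
    exact DFunLike.congr_fun hik f
  exact (Nat.card_le_card_of_injective τ hτ).trans (card_algHom_le_finrank K⟮x⟯ F Ω)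

theorem card_le_finrank (N : ℕ) [NeZero N] [FiniteDimensional Kb⟮jBar N⟯ (FN N)] :
    Nat.card (Cos N) ≤ Module.finrank Kb⟮jBar N⟯ (FN N) := by
  obtain ⟨σ, ⟨h1, h2, h3⟩, -⟩ := exists_family_at N UpperHalfPlane.I
  exact degLow_card_le (jBar N) σ h1 (fun i k c => by rw [h2, h2]) h3

end Fermat.Agent.S24
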