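import Mathlib

/-!
# S24: the algebraic part of the degree computation
-/

set_option autoImplicit false

namespace Fermat.Agent.S24

open Polynomial IntermediateField Module

section LinDisj

variable {K : Type*} [Field K] {C : Type*} [Field C] (ι : K →+* C)

/-- Linear disjointness: `K`-linearly independent families of `K`-valued functions stay linearly
independent over any extension field. -/
theorem deg_linDisj {α J : Type*} (v : α → J → K) (h : LinearIndependent K v) :
    LinearIndependent C (fun a j => ι (v a j)) := by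
  classical
  let _ : Algebra K C := ι.toAlgebra
  have hsm : ∀ (k : K) (c : C), k • c = ι k * c := fun k c => rfl
  let B := Basis.ofVectorSpace K C
  rw [linearIndependent_iff'] at h ⊢
  intro s g hg a ha
  have key : ∀ b, ∑ a ∈ s, (B.repr (g a) b) • v a = 0 := by
    intro b
    funext j
    have h1 : ∑ a ∈ s, g a * ι (v a j) = 0 := by
      have := congrFun hg j
      simpa [Finset.sum_apply] using this
    have h2 : B.repr (∑ a ∈ s, (v a j) • g a) b = 0 := by
      have : ∑ a ∈ s, (v a j) • g a = 0 := by
        rw [← h1]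
        exact Finset.sum_congr rfl (fun a _ => by rw [hsm, mul_comm])
      rw [this]; simp
    rw [map_sum] at h2
    simp only [map_smul, Finsupp.coe_finsetSum, Finset.sum_apply, Finsupp.coe_smul, Pi.smul_apply,
      smul_eq_mul] at h2
    simp only [Finset.sum_apply, Pi.smul_apply, smul_eq_mul, Pi.zero_apply]
    rw [← h2]
    exact Finset.sum_congr rfl (fun a _ => mul_comm _ _)
  have h0 : B.repr (g a) = 0 := by
    ext b
    exact h s _ (key b) a ha
  simpa using h0

end LinDisj

section Bounded

variable {F E : Type*} [Field F] [Field E] [Algebra F E]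

/-- A separable algebraic extension all of whose elements have degree at most `n` is finite of
degree at most `n`. -/
theorem deg_bounded [Infinite F] [Algebra.IsSeparable F E] (n : ℕ)
    (h : ∀ α : E, (minpoly F α).natDegree ≤ n) :
    FiniteDimensional F E ∧ finrank F E ≤ n := by
  classical
  have hint : ∀ α : E, IsIntegral F α := fun α => Algebra.IsSeparable.isIntegral F α
  -- an element of maximal degree
  obtain ⟨α, hα⟩ : ∃ α : E, ∀ β : E, (minpoly F β).natDegree ≤ (minpoly F α).natDegree := by
    by_contra hcon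
    push Not at hcon
    have : ∀ k : ℕ, ∃ β : E, k ≤ (minpoly F β).natDegree := by
      intro k
      induction k with
      | zero => exact ⟨0, Nat.zero_le _⟩
      | succ k ih =>
        obtain ⟨β, hβ⟩ := ih
        obtain ⟨γ, hγ⟩ := hcon β
        exact ⟨γ, by omega⟩
    obtain ⟨β, hβ⟩ := this (n + 1)
    have := h β
    omega
  have htop : F⟮α⟯ = ⊤ := by
    rw [eq_top_iff]
    intro β _
    obtain ⟨γ, hγ⟩ := Field.primitive_element_inf_aux F α β
    have hle : F⟮α⟯ ≤ F⟮γ⟯ := by
      rw [← hγ]
      exact adjoin.mono F _ _ (by simp)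
    have : FiniteDimensional F F⟮γ⟯ := adjoin.finiteDimensional (hint γ)
    have hfr : finrank F F⟮γ⟯ ≤ finrank F F⟮α⟯ := by
      rw [adjoin.finrank (hint γ), adjoin.finrank (hint α)]
      exact hα γ
    have heq : F⟮α⟯ = F⟮γ⟯ := eq_of_le_of_finrank_le hle hfr
    rw [heq, ← hγ]
    exact subset_adjoin F _ (by simp)
  have : FiniteDimensional F F⟮α⟯ := adjoin.finiteDimensional (hint α)
  have e : (⊤ : IntermediateField F E) ≃ₐ[F] E := topEquiv
  have hfd : FiniteDimensional F (⊤ : IntermediateField F E) := htop ▸ this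
  refine ⟨LinearEquiv.finiteDimensional e.toLinearEquiv, ?_⟩
  rw [← finrank_top', ← htop, adjoin.finrank (hint α)]
  exact h α

end Bounded

section Alg

variable {K F Ω C : Type*} [Field K] [Field F] [Algebra K F] [Field Ω] [Field C] [Algebra C Ω]

/-- If `x` is transcendental and `θ` satisfies no polynomial of degree `< n` over `K(x)`, the
monomials `x ^ a * θ ^ i`, `i < n`, are linearly independent over `K`. -/
theorem deg_indep (x θ : F) (hx : Transcendental K x) (n : ℕ)
    (h : ∀ p : K⟮x⟯[X], p.natDegree < n → aeval θ p = 0 → p = 0) :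
    LinearIndependent K (fun q : Fin n × ℕ => x ^ q.2 * θ ^ (q.1 : ℕ)) := by
  classical
  rw [linearIndependent_iff']
  intro s g hg q hq
  let P : Fin n → K[X] := fun i => ∑ r ∈ s with r.1 = i, monomial r.2 (g r)
  have hPcoeff : ∀ r ∈ s, (P r.1).coeff r.2 = g r := by
    intro r hr
    simp only [P, finsetSum_coeff, coeff_monomial]
    rw [Finset.sum_eq_single r]
    · simp
    · intro b hb hbr
      rw [if_neg]
      intro h2
      apply hbr
      exact Prod.ext (Finset.mem_filter.1 hb).2 h2
    · intro h1
      exact absurd (by simp [hr]) h1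
  let gx : K⟮x⟯ := AdjoinSimple.gen K x
  let p : K⟮x⟯[X] := ∑ i : Fin n, C (aeval gx (P i)) * X ^ (i : ℕ)
  have hpdeg : p.natDegree < n := by
    rcases Nat.eq_zero_or_pos n with rfl | hn
    · exact absurd q.1.2 (Nat.not_lt_zero _)
    · have : p.natDegree ≤ n - 1 := by
        apply natDegree_sum_le_of_forall_le
        intro i _
        refine (natDegree_C_mul_X_pow_le _ _).trans ?_
        have := i.2
        omega
      omega
  have hgx : algebraMap K⟮x⟯ F gx = x := AdjoinSimple.algebraMap_gen K x
  have hev : aeval θ p = 0 := by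
    rw [← hg]
    simp only [p, map_sum, map_mul, aeval_C, map_pow, aeval_X]
    rw [← Finset.sum_fiberwise s (fun r => r.1)]
    apply Finset.sum_congr rfl
    intro i _
    have : algebraMap K⟮x⟯ F (aeval gx (P i)) = aeval x (P i) := by
      rw [← aeval_algebraMap_apply, hgx]
    rw [this]
    simp only [P, map_sum, aeval_monomial, Finset.sum_mul]
    apply Finset.sum_congr rfl
    intro r hr
    rw [(Finset.mem_filter.1 hr).2, Algebra.smul_def]
    ring
  have hp0 := h p hpdeg hev
  have hci : aeval gx (P q.1) = 0 := by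
    have := congrArg (fun f => f.coeff (q.1 : ℕ)) hp0
    simp only [p, finsetSum_coeff, coeff_C_mul, coeff_X_pow, coeff_zero] at this
    rw [Finset.sum_eq_single q.1] at this
    · simpa using this
    · intro b _ hb
      rw [if_neg, mul_zero]
      intro h2
      exact hb (Fin.ext h2.symm)
    · intro h1
      exact absurd (Finset.mem_univ _) h1
  have hP0 : P q.1 = 0 := by
    have h1 : aeval x (P q.1) = 0 := by
      have h2 : algebraMap K⟮x⟯ F (aeval gx (P q.1)) = aeval x (P q.1) := by
        rw [← aeval_algebraMap_apply, hgx]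
      rw [← h2, hci, map_zero]
    by_contra hne
    exact hx ⟨P q.1, hne, h1⟩
  rw [← hPcoeff q hq, hP0, coeff_zero]

/-- The key algebraicity statement. -/
theorem deg_alg (x θ : F) (hx : Transcendental K x) (σ₀ : F →+* Ω)
    (hLD : ∀ (n : ℕ) (v : Fin n × ℕ → F), LinearIndependent K v →
      LinearIndependent C (fun a => σ₀ (v a)))
    (μ : ℕ) (Q : ℕ → C[X]) (hQ : Q μ = 1)
    (hrel : ∑ i ∈ Finset.range (μ + 1), aeval (σ₀ x) (Q i) * σ₀ θ ^ i = 0) :
    ∃ p : K⟮x⟯[X], p ≠ 0 ∧ p.natDegree ≤ μ ∧ aeval θ p = 0 := by
  classical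
  by_contra hcon
  push Not at hcon
  have h1 : ∀ p : K⟮x⟯[X], p.natDegree < μ + 1 → aeval θ p = 0 → p = 0 := by
    intro p hp hev
    by_contra hne
    exact hcon p hne (by omega) hev
  have h2 := hLD _ _ (deg_indep x θ hx (μ + 1) h1)
  rw [linearIndependent_iff'] at h2
  obtain ⟨D, hD⟩ : ∃ D : ℕ, ∀ i : Fin (μ + 1), (Q i).natDegree < D := by
    refine ⟨(Finset.univ.sup fun i : Fin (μ + 1) => (Q i).natDegree) + 1, fun i => ?_⟩
    have := Finset.le_sup (f := fun i : Fin (μ + 1) => (Q i).natDegree) (Finset.mem_univ i)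
    omega
  have hD0 : 0 < D := lt_of_le_of_lt (Nat.zero_le _) (hD 0)
  have h3 := h2 (Finset.univ ×ˢ Finset.range D) (fun q => (Q q.1).coeff q.2) ?_
    (Fin.last μ, 0) (by simp [hD0])
  · simp [hQ] at h3
  · rw [Finset.sum_product, ← hrel, Finset.sum_range]
    apply Finset.sum_congr rfl
    intro i _
    rw [aeval_eq_sum_range' (hD i), Finset.sum_mul]
    apply Finset.sum_congr rfl
    intro a _
    simp only [map_mul, map_pow, Algebra.smul_def]
    ring

end Alg

end Fermat.Agent.S24
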