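import Mathlib
import Fermat.Agent.S24.DegAlg

/-!
# S24: abstract upper and lower bounds for the degree
-/

set_option autoImplicit false

namespace Fermat.Agent.S24

open Polynomial IntermediateField Module

section Upper

variable {K F : Type*} [Field K] [Field F] [Algebra K F]

/-- Elements with a denominator in `K[x]`. -/
def degDen (x : F) (R₀ : Subalgebra K F) (hxR : x ∈ R₀) : Subalgebra K⟮x⟯ F where
  carrier := {f | ∃ c : K[X], aeval x c ≠ 0 ∧ aeval x c * f ∈ R₀}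
  mul_mem' := by
    rintro f g ⟨c, hc, hf⟩ ⟨c', hc', hg⟩
    refine ⟨c * c', by rw [map_mul]; exact mul_ne_zero hc hc', ?_⟩
    have : aeval x (c * c') * (f * g) = (aeval x c * f) * (aeval x c' * g) := by
      rw [map_mul]; ring
    rw [this]
    exact R₀.mul_mem hf hg
  add_mem' := by
    rintro f g ⟨c, hc, hf⟩ ⟨c', hc', hg⟩
    refine ⟨c * c', by rw [map_mul]; exact mul_ne_zero hc hc', ?_⟩
    have hmem : ∀ p : K[X], aeval x p ∈ R₀ := fun p =>
      (Algebra.adjoin_le (by simpa using hxR) : Algebra.adjoin K {x} ≤ R₀)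
        (aeval_mem_adjoin_singleton K x)
    have : aeval x (c * c') * (f + g) = aeval x c' * (aeval x c * f) + aeval x c * (aeval x c' * g) := by
      rw [map_mul]; ring
    rw [this]
    exact R₀.add_mem (R₀.mul_mem (hmem _) hf) (R₀.mul_mem (hmem _) hg)
  algebraMap_mem' := by
    intro e
    have hmem : ∀ p : K[X], aeval x p ∈ R₀ := fun p =>
      (Algebra.adjoin_le (by simpa using hxR) : Algebra.adjoin K {x} ≤ R₀)
        (aeval_mem_adjoin_singleton K x)
    obtain ⟨r, s, hrs⟩ := (mem_adjoin_simple_iff K (e : F)).1 e.2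
    change ∃ c : K[X], aeval x c ≠ 0 ∧ aeval x c * (e : F) ∈ R₀
    by_cases hs : aeval x s = 0
    · refine ⟨1, by simp, ?_⟩
      rw [hrs, hs, div_zero, mul_zero]
      exact R₀.zero_mem
    · refine ⟨s, hs, ?_⟩
      rw [hrs, mul_div_cancel₀ _ hs]
      exact hmem r

theorem deg_upper [CharZero K] (x : F) (R₀ : Subalgebra K F) (hxR : x ∈ R₀)
    (hfrac : ∀ f : F, ∃ a ∈ R₀, ∃ b ∈ R₀, b ≠ 0 ∧ f * b = a) (μ : ℕ)
    (hpoly : ∀ θ ∈ R₀, ∃ p : K⟮x⟯[X], p ≠ 0 ∧ p.natDegree ≤ μ ∧ aeval θ p = 0) :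
    FiniteDimensional K⟮x⟯ F ∧ finrank K⟮x⟯ F ≤ μ := by
  have halgR : ∀ θ ∈ R₀, IsAlgebraic K⟮x⟯ θ := fun θ hθ => by
    obtain ⟨p, hp0, -, hp⟩ := hpoly θ hθ
    exact ⟨p, hp0, hp⟩
  have halg : ∀ f : F, IsAlgebraic K⟮x⟯ f := by
    intro f
    obtain ⟨a, ha, b, hb, hb0, h⟩ := hfrac f
    have : f = a * b⁻¹ := by rw [← h, mul_assoc, mul_inv_cancel₀ hb0, mul_one]
    rw [this]
    exact (halgR a ha).mul (halgR b hb).inv
  have : Algebra.IsAlgebraic K⟮x⟯ F := ⟨halg⟩
  have : CharZero K⟮x⟯ := charZero_of_injective_algebraMap (algebraMap K K⟮x⟯).injective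
  have hR₀D : ∀ θ ∈ R₀, θ ∈ degDen x R₀ hxR := fun θ hθ => ⟨1, by simp, by simpa using hθ⟩
  have hD : ∀ f : F, f ∈ degDen x R₀ hxR := by
    intro f
    obtain ⟨a, ha, b, hb, hb0, h⟩ := hfrac f
    have : f = a * b⁻¹ := by rw [← h, mul_assoc, mul_inv_cancel₀ hb0, mul_one]
    rw [this]
    exact (degDen x R₀ hxR).mul_mem (hR₀D a ha)
      ((degDen x R₀ hxR).inv_mem_of_algebraic (x := ⟨b, hR₀D b hb⟩) (halg b))
  apply deg_bounded
  intro f
  obtain ⟨c, hc, hcf⟩ := hD f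
  obtain ⟨p, hp0, hpdeg, hp⟩ := hpoly _ hcf
  let u : K⟮x⟯ := aeval (AdjoinSimple.gen K x) c
  have hu : algebraMap K⟮x⟯ F u = aeval x c := by
    rw [← aeval_algebraMap_apply, AdjoinSimple.algebraMap_gen]
  have hu0 : u ≠ 0 := by
    intro h0
    apply hc
    rw [← hu, h0, map_zero]
  let p' : K⟮x⟯[X] := p.comp (C u * X)
  have hdeg1 : (C u * X : K⟮x⟯[X]).natDegree = 1 := natDegree_C_mul_X u hu0
  have hp'deg : p'.natDegree ≤ μ := by
    simp only [p', natDegree_comp, hdeg1, mul_one]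
    exact hpdeg
  have hp'0 : p' ≠ 0 := by
    intro h0
    rcases comp_eq_zero_iff.1 h0 with h1 | ⟨-, h2⟩
    · exact hp0 h1
    · have := congrArg natDegree h2
      rw [hdeg1, natDegree_C] at this
      exact one_ne_zero this
  have hp'ev : aeval f p' = 0 := by
    simp only [p', aeval_comp, map_mul, aeval_C, aeval_X, hu]
    exact hp
  exact (natDegree_le_of_dvd (minpoly.dvd _ _ hp'ev) hp'0).trans hp'deg

end Upper

section Lower

variable {K F Ω : Type*} [Field K] [Field F] [Algebra K F] [Field Ω]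

theorem deg_lower (x : F) [FiniteDimensional K⟮x⟯ F] {I : Type*} [Finite I] (σ : I → F →+* Ω)
    (hinj : Function.Injective σ)
    (hK : ∀ i k c, σ i (algebraMap K F c) = σ k (algebraMap K F c))
    (hx : ∀ i k, σ i x = σ k x) : Nat.card I ≤ finrank K⟮x⟯ F := by
  classical
  rcases isEmpty_or_nonempty I with hI | ⟨⟨i0⟩⟩
  · simp
  have hpol : ∀ i (p : K[X]), σ i (aeval x p) = σ i0 (aeval x p) := by
    intro i p
    induction p using Polynomial.induction_on' with
    | add p q hp hq => rw [map_add, map_add, map_add, hp, hq]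
    | monomial n a =>
      rw [aeval_monomial, map_mul, map_mul, map_pow, map_pow, hK i i0, hx i i0]
  have hE : ∀ i (e : K⟮x⟯), σ i (algebraMap K⟮x⟯ F e) = σ i0 (algebraMap K⟮x⟯ F e) := by
    intro i e
    obtain ⟨r, s, hrs⟩ := (mem_adjoin_simple_iff K (e : F)).1 e.2
    change σ i (e : F) = σ i0 (e : F)
    rw [hrs, map_div₀, map_div₀, hpol i r, hpol i s]
  let _ : Algebra K⟮x⟯ Ω := ((σ i0).comp (algebraMap K⟮x⟯ F)).toAlgebra
  let τ : I → (F →ₐ[K⟮x⟯] Ω) := fun i => { σ i with commutes' := fun e => hE i e }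
  have hτ : Function.Injective τ := by
    intro i k h
    apply hinj
    ext f
    exact congrArg (fun t : F →ₐ[K⟮x⟯] Ω => t f) h
  have h1 := cardinalMk_algHom K⟮x⟯ F Ω
  rw [Module.finrank_linearMap_self] at h1
  have h4 : Nat.card (F →ₐ[K⟮x⟯] Ω) ≤ finrank K⟮x⟯ F := by
    have := Cardinal.toNat_le_toNat h1 (Cardinal.natCast_lt_aleph0)
    simpa using this
  exact (Nat.card_le_card_of_injective τ hτ).trans h4

end Lower

end Fermat.Agent.S24
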