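import Mathlib
import Fermat.Agent.S24.AnDefs
import Fermat.Agent.S24.Ev
import Fermat.Agent.S24.KL
import Fermat.Agent.S23.PolyId

/-!
# S24 (G3), (H8): symmetric functions of the conjugates are polynomials in `j`
-/

set_option autoImplicit false

namespace Fermat.Agent.S24

open UpperHalfPlane ModularForm ModularCurve HahnSeries CongruenceSubgroup Finset
open Fermat.Agent.X0 Fermat.Agent.S23
open scoped MatrixGroups Manifold

variable (N : ℕ) [NeZero N]

omit [NeZero N] in
theorem conjF_mk (θ : ℍ → ℂ) (hθ : ∀ γ ∈ Gamma0 N, ∀ z, θ (γ • z) = θ z) (g : SL(2, ℤ)) (z : ℍ) :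
    conjF N θ (QuotientGroup.mk g) z = θ (g⁻¹ • z) := by
  obtain ⟨γ, hγ⟩ := QuotientGroup.mk_out_eq_mul (Gamma0 N) g
  rw [conjF, hγ, mul_inv_rev, mul_smul, hθ _ (inv_mem γ.2)]

omit [NeZero N] in
theorem conjF_smul (θ : ℍ → ℂ) (hθ : ∀ γ ∈ Gamma0 N, ∀ z, θ (γ • z) = θ z) (g : SL(2, ℤ))
    (x : Cos N) (z : ℍ) : conjF N θ x (g⁻¹ • z) = conjF N θ (g • x) z := by
  induction x using QuotientGroup.induction_on with
  | H a =>
    have e : g • (QuotientGroup.mk a : Cos N) = QuotientGroup.mk (g * a) := rfl
    rw [e, conjF_mk N θ hθ, conjF_mk N θ hθ, mul_inv_rev, mul_smul]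

theorem rootPoly_comp_equiv {ι : Type*} [Fintype ι] (r : ι → ℂ) (π : ι ≃ ι) :
    rootPoly (fun x => r (π x)) = rootPoly r := by
  unfold rootPoly
  exact Equiv.prod_comp π fun x => Polynomial.X - Polynomial.C (r x)

theorem sym0_coeff (P : MvPolynomial (Dv N) Kb) (i : ℕ) :
    ∃ p : Polynomial ℂ, ∀ z,
      (rootPoly fun x : Cos N => conjF N (evN N P) x z).coeff i = p.eval (jFun z) := by
  have hθ : ∀ γ ∈ Gamma0 N, ∀ z, evN N P (γ • z) = evN N P z := fun γ hγ z => evN_smul N P γ hγ z
  by_cases hi : i ≤ Fintype.card (Cos N)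
  · apply kl_poly
    · have e : (fun z => (rootPoly fun x : Cos N => conjF N (evN N P) x z).coeff i) =
          (fun _ => (-1 : ℂ) ^ (Fintype.card (Cos N) - i)) *
            ∑ S ∈ powersetCard (Fintype.card (Cos N) - i) univ,
              ∏ x ∈ S, conjF N (evN N P) x := by
        ext z
        rw [rootPoly_coeff _ hi]
        simp [Finset.sum_apply, Finset.prod_apply]
      rw [e]
      refine mdifferentiable_const.mul (MDifferentiable.sum fun S _ =>
        MDifferentiable.prod fun x _ => ?_)
      exact mdiff_comp_smul (evN_mdiff N P) _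
    · intro γ z
      have e : (fun x : Cos N => conjF N (evN N P) x (γ • z)) =
          fun x => conjF N (evN N P) ((MulAction.toPerm γ⁻¹ : Equiv.Perm (Cos N)) x) z := by
        ext x
        have := conjF_smul N (evN N P) hθ γ⁻¹ x z
        rw [inv_inv] at this
        rw [this]
        rfl
      rw [e, rootPoly_comp_equiv (fun x => conjF N (evN N P) x z)]
    · have e : (fun z => (rootPoly fun x : Cos N => conjF N (evN N P) x z).coeff i) =
          (fun _ => (-1 : ℂ) ^ (Fintype.card (Cos N) - i)) *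
            ∑ S ∈ powersetCard (Fintype.card (Cos N) - i) univ,
              ∏ x ∈ S, conjF N (evN N P) x := by
        ext z
        rw [rootPoly_coeff _ hi]
        simp [Finset.sum_apply, Finset.prod_apply]
      rw [e]
      refine (isMod_const _).mul ?_
      refine Finset.sum_induction _ IsMod (fun _ _ h1 h2 => h1.add h2) (isMod_const 0) fun S _ => ?_
      refine Finset.prod_induction _ IsMod (fun _ _ h1 h2 => h1.mul h2) (isMod_const 1) fun x _ => ?_
      exact evN_isMod N P _
  · refine ⟨0, fun z => ?_⟩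
    rw [Polynomial.eval_zero]
    apply Polynomial.coeff_eq_zero_of_natDegree_lt
    rw [rootPoly_natDegree]
    omega

end Fermat.Agent.S24
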