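import Mathlib
import Fermat.Agent.S24.AnDefs
import Fermat.Agent.S24.RelInf
import Fermat.Agent.S24.JExp
import Fermat.Agent.S24.Frac
import Fermat.Agent.S24.Ev
import Fermat.Agent.S24.Sym0
import Fermat.Agent.S24.DegMain
import Fermat.Agent.S24.DegLow

/-!
# S24 (H10): the degree of the function field of `X₀(N)` over `ℚ̄(j)`
-/

set_option autoImplicit false
set_option maxHeartbeats 1000000

namespace Fermat.Agent.S24

open UpperHalfPlane ModularForm ModularCurve HahnSeries CongruenceSubgroup
open Fermat.Agent.X0 Fermat.Agent.S23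
open scoped MatrixGroups Manifold
open IntermediateField

/-! ### closure properties of expansion relations -/

section ExpRel

variable {R : (ℍ → ℂ) → LaurentSeries ℂ → Prop} (hR : ExpRel R)
include hR

theorem deg_expRel_pow {φ : ℍ → ℂ} {s : LaurentSeries ℂ} (h : R φ s) (n : ℕ) :
    R (φ ^ n) (s ^ n) := by
  induction n with
  | zero =>
    have := hR.const 1
    rw [map_one] at this
    exact this
  | succ n ih => rw [pow_succ, pow_succ]; exact hR.mul ih h

theorem deg_expRel_sum {ι : Type*} (t : Finset ι) (φ : ι → ℍ → ℂ) (s : ι → LaurentSeries ℂ)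
    (h : ∀ i ∈ t, R (φ i) (s i)) : R (∑ i ∈ t, φ i) (∑ i ∈ t, s i) := by
  classical
  induction t using Finset.induction_on with
  | empty =>
    have := hR.const 0
    rw [map_zero] at this
    exact this
  | insert a t ha ih =>
    rw [Finset.sum_insert ha, Finset.sum_insert ha]
    exact hR.add (h a (Finset.mem_insert_self _ _))
      (ih fun i hi => h i (Finset.mem_insert_of_mem hi))

theorem deg_expRel_poly {φ : ℍ → ℂ} {s : LaurentSeries ℂ} (h : R φ s) (Q : Polynomial ℂ) :
    R (fun z => Q.eval (φ z)) (Polynomial.aeval s Q) := by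
  have e1 : (fun z => Q.eval (φ z)) =
      ∑ i ∈ Finset.range (Q.natDegree + 1), (fun _ => Q.coeff i) * φ ^ i := by
    funext z
    rw [Polynomial.eval_eq_sum_range]
    simp [Finset.sum_apply]
  have e2 : Polynomial.aeval s Q =
      ∑ i ∈ Finset.range (Q.natDegree + 1), HahnSeries.C (Q.coeff i) * s ^ i := by
    rw [Polynomial.aeval_eq_sum_range]
    refine Finset.sum_congr rfl fun i _ => ?_
    rw [Algebra.smul_def, algebraMap_laurentSeries_eq_single]
    rfl
  rw [e1, e2]
  exact deg_expRel_sum hR _ _ _ fun i _ => hR.mul (hR.const _) (deg_expRel_pow hR h i)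

end ExpRel

variable (N : ℕ) [NeZero N]

/-- the tautological embedding of the function field in `ℂ((q))` -/
noncomputable def degS0 : FN N →+* LaurentSeries ℂ :=
  (coeffMap iotaC).comp (algebraMap (FN N) (LaurentSeries Kb))

theorem deg_relInf_evN (P : MvPolynomial (Dv N) Kb) :
    RelInf 1 (evN N P) (degS0 N (piN N P)) := by
  have hR := expRel_relInf 1 one_pos
  induction P using MvPolynomial.induction_on with
  | C a =>
    rw [evN_C]
    have : degS0 N (piN N (MvPolynomial.C a)) = HahnSeries.C (iotaC a) := by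
      change coeffMap iotaC (piL N (MvPolynomial.C a)) = _
      rw [piL_C, algebraMap_laurentSeries_eq_single, coeffMap_single]
      rfl
    rw [this]
    exact hR.const _
  | add p q hp hq =>
    rw [map_add, map_add, map_add]
    exact hR.add hp hq
  | mul_X p d hp =>
    rw [map_mul, map_mul, map_mul]
    refine hR.mul hp ?_
    rw [evN_X]
    have : degS0 N (piN N (MvPolynomial.X d)) = coeffMap iotaC (coeffEmb Kb (qExpand ℚ d.1 jq)) := by
      change coeffMap iotaC (piL N (MvPolynomial.X d)) = _
      rw [piL_X]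
    rw [this]
    exact relInf_jdFun d.1

theorem deg_relInf_jFun : RelInf 1 jFun (degS0 N (jBar N)) := by
  have := deg_relInf_evN N (MvPolynomial.X ⟨1, one_dvd N⟩)
  rwa [evN_X, piN_X_one, jdFun_one] at this

lemma deg_coeff_smul {A : Type*} [Field A] (c : A) (f : LaurentSeries A) (j : ℤ) :
    (algebraMap A (LaurentSeries A) c * f).coeff j = c * f.coeff j := by
  rw [algebraMap_laurentSeries_eq_single, HahnSeries.coeff_single_mul, sub_zero]

theorem deg_LD {α : Type*} (v : α → FN N) (h : LinearIndependent Kb v) :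
    @LinearIndependent α ℂ (LaurentSeries ℂ) (fun a => degS0 N (v a)) _ _ Algebra.toModule := by
  have h1 : LinearIndependent Kb (fun a (j : ℤ) => ((v a : FN N) : LaurentSeries Kb).coeff j) := by
    rw [linearIndependent_iff'] at h ⊢
    intro s g hg
    apply h s g
    apply (algebraMap (FN N) (LaurentSeries Kb)).injective
    rw [map_sum, map_zero]
    ext j
    have h3 := congrFun hg j
    rw [HahnSeries.coeff_sum, HahnSeries.coeff_zero]
    simp only [Finset.sum_apply, Pi.smul_apply, smul_eq_mul, Pi.zero_apply] at h3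
    rw [← h3]
    refine Finset.sum_congr rfl fun a _ => ?_
    rw [Algebra.smul_def, map_mul, ← IsScalarTower.algebraMap_apply, deg_coeff_smul]
    rfl
  have h2 := deg_linDisj iotaC _ h1
  rw [linearIndependent_iff'] at h2
  let _ : Module ℂ (LaurentSeries ℂ) := Algebra.toModule
  rw [linearIndependent_iff']
  intro s g hg
  apply h2 s g
  funext j
  have h3 := congrArg (fun f : LaurentSeries ℂ => f.coeff j) hg
  simp only [HahnSeries.coeff_sum, HahnSeries.coeff_zero] at h3
  simp only [Finset.sum_apply, Pi.smul_apply, smul_eq_mul, Pi.zero_apply]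
  rw [← h3]
  refine Finset.sum_congr rfl fun a _ => ?_
  rw [Algebra.smul_def, deg_coeff_smul]
  rfl

theorem deg_rel (P : MvPolynomial (Dv N) Kb) : ∃ Q : ℕ → Polynomial ℂ,
    Q (Fintype.card (Cos N)) = 1 ∧
    ∑ i ∈ Finset.range (Fintype.card (Cos N) + 1),
      Polynomial.aeval (degS0 N (jBar N)) (Q i) * degS0 N (piN N P) ^ i = 0 := by
  classical
  have hR := expRel_relInf 1 one_pos
  set μ := Fintype.card (Cos N) with hμ
  choose Q hQ using sym0_coeff N P
  refine ⟨fun i => if i = μ then 1 else Q i, by simp, ?_⟩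
  have hθ : ∀ γ ∈ Gamma0 N, ∀ z, evN N P (γ • z) = evN N P z := fun γ hγ z => evN_smul N P γ hγ z
  have hrel : RelInf 1 (∑ i ∈ Finset.range (μ + 1),
      (fun z => (if i = μ then 1 else Q i).eval (jFun z)) * (evN N P) ^ i)
      (∑ i ∈ Finset.range (μ + 1),
      Polynomial.aeval (degS0 N (jBar N)) (if i = μ then 1 else Q i) * degS0 N (piN N P) ^ i) :=
    deg_expRel_sum hR _ _ _ fun i _ =>
      hR.mul (deg_expRel_poly hR (deg_relInf_jFun N) _) (deg_expRel_pow hR (deg_relInf_evN N P) i)
  rw [hR.eq_zero_iff hrel]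
  funext z
  have h0 := rootPoly_eval_self (fun x : Cos N => conjF N (evN N P) x z) (QuotientGroup.mk 1)
  rw [conjF_mk N _ hθ, inv_one, one_smul, Polynomial.eval_eq_sum_range, rootPoly_natDegree] at h0
  simp only [Finset.sum_apply, Pi.mul_apply, Pi.pow_apply, Pi.zero_apply]
  rw [← h0]
  refine Finset.sum_congr rfl fun i _ => ?_
  congr 1
  split_ifs with hi
  · rw [Polynomial.eval_one, hi, hμ, ← rootPoly_natDegree (fun x : Cos N => conjF N (evN N P) x z)]
    exact ((rootPoly_monic _).coeff_natDegree).symm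
  · exact (hQ i z).symm

theorem deg_upper_FN : FiniteDimensional Kb⟮jBar N⟯ (FN N) ∧
    Module.finrank Kb⟮jBar N⟯ (FN N) ≤ Fintype.card (Cos N) := by
  apply deg_upper (jBar N) (piN N).range ⟨_, piN_X_one N⟩
  · intro f
    obtain ⟨P, Q, hQ, h⟩ := exists_frac N f
    exact ⟨_, ⟨P, rfl⟩, _, ⟨Q, rfl⟩, hQ, h⟩
  · rintro θ ⟨P, rfl⟩
    obtain ⟨Q, hQ1, hQ2⟩ := deg_rel N P
    exact deg_alg (C := ℂ) (jBar N) _ (jBar_transcendental N) (degS0 N)
      (fun n v hv => deg_LD N v hv) _ Q hQ1 hQ2

instance finiteDimensional_FN : FiniteDimensional Kb⟮jBar N⟯ (FN N) := (deg_upper_FN N).1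

theorem finrank_FN : Module.finrank Kb⟮jBar N⟯ (FN N) = Nat.card (Cos N) := by
  apply le_antisymm
  · rw [Nat.card_eq_fintype_card]
    exact (deg_upper_FN N).2
  · exact card_le_finrank N

end Fermat.Agent.S24
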