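import Mathlib

set_option linter.unusedSectionVars false

namespace Fermat.Agent.S24

open PowerSeries

section Taylor
variable {K O : Type*} [Field K] [CommRing O] [IsDomain O] [Algebra K O]

/-- data for a Taylor expansion: a `K`-point and a generator of its ideal. -/
structure TaylorData (K O : Type*) [Field K] [CommRing O] [Algebra K O] where
  res : O →ₐ[K] K
  t : O
  t_ne : t ≠ 0
  res_t : res t = 0
  dvd : ∀ a, res a = 0 → t ∣ a

namespace TaylorData
variable (T : TaylorData K O)

lemma dvd_sub (a : O) : T.t ∣ a - algebraMap K O (T.res a) := T.dvd _ (by simp)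

/-- `(a - a(0)) / t` -/
noncomputable def shift (a : O) : O := (T.dvd_sub a).choose

lemma shift_spec (a : O) : a = algebraMap K O (T.res a) + T.t * T.shift a := by
  have := (T.dvd_sub a).choose_spec
  rw [shift, ← this]; ring

lemma shift_unique {a b : O} {c : K} (h : a = algebraMap K O c + T.t * b) :
    T.res a = c ∧ T.shift a = b := by
  have h1 : T.res a = c := by rw [h]; simp [T.res_t]
  refine ⟨h1, ?_⟩
  have h2 := T.shift_spec a
  rw [h1] at h2
  have h3 : T.t * T.shift a = T.t * b := by
    have := h2.symm.trans h
    exact add_left_cancel this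
  exact mul_left_cancel₀ T.t_ne h3

lemma shift_add (a b : O) : T.shift (a + b) = T.shift a + T.shift b := by
  refine (T.shift_unique (c := T.res a + T.res b) ?_).2
  conv_lhs => rw [T.shift_spec a, T.shift_spec b]
  rw [map_add]; ring

lemma shift_smul (c : K) (a : O) : T.shift (c • a) = c • T.shift a := by
  refine (T.shift_unique (c := c * T.res a) ?_).2
  conv_lhs => rw [T.shift_spec a]
  rw [map_mul, Algebra.smul_def, Algebra.smul_def]; ring

lemma shift_mul (a b : O) : T.shift (a * b) = T.res a • T.shift b + T.shift a * b := by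
  refine (T.shift_unique (c := T.res a * T.res b) ?_).2
  have ha := T.shift_spec a
  have hb := T.shift_spec b
  calc a * b = (algebraMap K O (T.res a) + T.t * T.shift a) * b := by rw [← ha]
    _ = algebraMap K O (T.res a) * b + T.t * (T.shift a * b) := by ring
    _ = algebraMap K O (T.res a) * (algebraMap K O (T.res b) + T.t * T.shift b)
        + T.t * (T.shift a * b) := by rw [← hb]
    _ = _ := by rw [map_mul, Algebra.smul_def]; ring

lemma shift_algebraMap (c : K) : T.shift (algebraMap K O c) = 0 :=
  (T.shift_unique (c := c) (by simp)).2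

lemma shift_t_mul (a : O) : T.shift (T.t * a) = a :=
  (T.shift_unique (c := 0) (by simp)).2

/-- Taylor series -/
noncomputable def taylorFun (a : O) : K⟦X⟧ := PowerSeries.mk fun n => T.res (T.shift^[n] a)

lemma coeff_taylorFun (n : ℕ) (a : O) : coeff n (T.taylorFun a) = T.res (T.shift^[n] a) := by
  simp [taylorFun]

@[simp] lemma constantCoeff_taylorFun (a : O) : constantCoeff (T.taylorFun a) = T.res a := by
  rw [← coeff_zero_eq_constantCoeff_apply, coeff_taylorFun]
  rfl

lemma coeff_succ_taylorFun (n : ℕ) (a : O) :
    coeff (n + 1) (T.taylorFun a) = coeff n (T.taylorFun (T.shift a)) := by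
  simp [coeff_taylorFun]

lemma taylorFun_eq (a : O) :
    T.taylorFun a = C (T.res a) + X * T.taylorFun (T.shift a) := by
  ext n
  cases n with
  | zero => simp [coeff_taylorFun]
  | succ n => 
    rw [coeff_succ_taylorFun, map_add, coeff_succ_X_mul]
    simp

lemma taylorFun_add (a b : O) : T.taylorFun (a + b) = T.taylorFun a + T.taylorFun b := by
  ext n
  induction n generalizing a b with
  | zero => simp [coeff_taylorFun]
  | succ n ih => 
    rw [map_add, coeff_succ_taylorFun, coeff_succ_taylorFun, coeff_succ_taylorFun, shift_add, ih,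
      map_add]

lemma taylorFun_smul (c : K) (a : O) : T.taylorFun (c • a) = c • T.taylorFun a := by
  ext n
  induction n generalizing a with
  | zero => simp [coeff_taylorFun]
  | succ n ih => 
    rw [coeff_succ_taylorFun, shift_smul, ih]
    simp [coeff_succ_taylorFun]

lemma taylorFun_mul (a b : O) : T.taylorFun (a * b) = T.taylorFun a * T.taylorFun b := by
  ext n
  induction n generalizing a b with
  | zero => simp [coeff_taylorFun]
  | succ n ih => 
    rw [coeff_succ_taylorFun, shift_mul, taylorFun_add, taylorFun_smul, map_add, ih]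
    conv_rhs => rw [T.taylorFun_eq a, add_mul, mul_assoc, map_add, coeff_succ_X_mul]
    simp [coeff_succ_taylorFun]

lemma taylorFun_algebraMap (c : K) : T.taylorFun (algebraMap K O c) = C c := by
  rw [taylorFun_eq, shift_algebraMap]
  have : T.taylorFun 0 = 0 := by
    have := T.taylorFun_smul 0 0
    simpa using this
  simp [this]

/-- Taylor series as an algebra homomorphism -/
noncomputable def taylor : O →ₐ[K] K⟦X⟧ where
  toFun := T.taylorFun
  map_one' := by
    have := T.taylorFun_algebraMap 1
    simpa using this
  map_mul' := T.taylorFun_mul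
  map_zero' := by
    have := T.taylorFun_algebraMap 0
    simpa using this
  map_add' := T.taylorFun_add
  commutes' := T.taylorFun_algebraMap

lemma taylor_t : T.taylor T.t = X := by
  change T.taylorFun T.t = X
  rw [taylorFun_eq, T.res_t]
  have : T.shift T.t = 1 := by
    have := T.shift_t_mul 1
    simpa using this
  rw [this]
  have := T.taylorFun_algebraMap 1
  simp only [map_one] at this
  simp [this]

lemma constantCoeff_taylor (a : O) : constantCoeff (T.taylor a) = T.res a :=
  T.constantCoeff_taylorFun a

end TaylorData
end Taylor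

section Taylor2
variable {K O : Type*} [Field K] [CommRing O] [IsDomain O] [Algebra K O]

namespace TaylorData
variable (T : TaylorData K O)

lemma res_eq_zero_iff (a : O) : T.res a = 0 ↔ T.t ∣ a := by
  refine ⟨T.dvd a, ?_⟩
  rintro ⟨b, rfl⟩
  simp [T.res_t]

lemma ker_res_eq [IsLocalRing O] : RingHom.ker T.res = IsLocalRing.maximalIdeal O := by
  have hsurj : Function.Surjective T.res := fun c => ⟨algebraMap K O c, by simp⟩
  have : (RingHom.ker T.res).IsMaximal := RingHom.ker_isMaximal_of_surjective T.res hsurj
  exact IsLocalRing.eq_maximalIdeal this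

lemma maximalIdeal_eq [IsLocalRing O] : IsLocalRing.maximalIdeal O = Ideal.span {T.t} := by
  rw [← T.ker_res_eq]
  ext a
  rw [RingHom.mem_ker, Ideal.mem_span_singleton]
  exact T.res_eq_zero_iff a

lemma res_ne_zero_of_isUnit {a : O} (ha : IsUnit a) : T.res a ≠ 0 := (ha.map T.res).ne_zero

lemma irreducible_t [IsDiscreteValuationRing O] : Irreducible T.t :=
  (IsDiscreteValuationRing.irreducible_iff_uniformizer _).mpr T.maximalIdeal_eq

lemma order_taylor_unit_mul_pow (u : Oˣ) (n : ℕ) :
    (T.taylor ((u : O) * T.t ^ n)).order = n := by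
  rw [map_mul, map_pow, T.taylor_t, order_mul, order_X_pow]
  have : (T.taylor (u : O)).order = 0 := by
    apply order_zero_of_unit
    rw [isUnit_iff_constantCoeff, T.constantCoeff_taylor]
    exact (T.res_ne_zero_of_isUnit u.isUnit).isUnit
  rw [this, zero_add]

lemma taylor_injective [IsDiscreteValuationRing O] : Function.Injective T.taylor := by
  rw [injective_iff_map_eq_zero]
  intro a ha
  by_contra h0
  obtain ⟨n, u, rfl⟩ := IsDiscreteValuationRing.eq_unit_mul_pow_irreducible h0 T.irreducible_t
  have := T.order_taylor_unit_mul_pow u n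
  rw [ha, order_zero] at this
  exact (ENat.natCast_ne_top n) this.symm

end TaylorData

lemma order_derivative [CharZero K] {f : K⟦X⟧} {n : ℕ} (hf : f.order = (n + 1 : ℕ)) :
    (PowerSeries.derivative K f).order = n := by
  rw [order_eq_nat] at hf ⊢
  obtain ⟨h1, h2⟩ := hf
  refine ⟨?_, fun i hi => ?_⟩
  · rw [coeff_derivative]
    refine mul_ne_zero h1 ?_
    exact_mod_cast Nat.succ_ne_zero n
  · rw [coeff_derivative, h2 (i + 1) (by omega), zero_mul]

end Taylor2

end Fermat.Agent.S24
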