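import Mathlib
import Fermat.Prelude.Def_AlgebraicCurve_CanonicalDivisor
import Fermat.Agent.S24.Taylor

/-!
# S24 (G1c): differentials of a function field in one variable

* `Ω[F⁄K]` is one-dimensional over `F`, generated by `dx`;
* for a place `v` of degree one with uniformizer `t`, `ord_v (dy/dt) = ord_v y - 1` if
  `ord_v y ≠ 0` (via the Taylor expansion `O_v → K⟦X⟧`).
-/

set_option linter.unusedSectionVars false

namespace Fermat.Agent.S24

open AlgebraicCurve IntermediateField KaehlerDifferential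
open scoped TensorProduct

section Omega
open Polynomial
variable {K F : Type*} [Field K] [Field F] [Algebra K F] [CharZero K]

/-- `Ω[F⁄K] ≃ F`, sending `dx` to `1`. -/
theorem exists_equiv_D (x : F) (hx : Transcendental K x) [FiniteDimensional K⟮x⟯ F] :
    ∃ E : Ω[F⁄K] ≃ₗ[F] F, E (D K F x) = 1 := by
  let a1 : Algebra K[X] F := (Polynomial.aeval x).toRingHom.toAlgebra
  let a2 : Algebra K[X] K⟮x⟯ := (Polynomial.aeval (AdjoinSimple.gen K x)).toRingHom.toAlgebra
  have t1 : IsScalarTower K K[X] F := IsScalarTower.of_algebraMap_eq fun c => by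
    change _ = Polynomial.aeval x (algebraMap K K[X] c)
    simp
  have t2 : IsScalarTower K K[X] K⟮x⟯ := IsScalarTower.of_algebraMap_eq fun c => by
    change _ = Polynomial.aeval (AdjoinSimple.gen K x) (algebraMap K K[X] c)
    simp
  have t3 : IsScalarTower K[X] K⟮x⟯ F := IsScalarTower.of_algebraMap_eq fun p => by
    change Polynomial.aeval x p = algebraMap K⟮x⟯ F (Polynomial.aeval (AdjoinSimple.gen K x) p)
    rw [← Polynomial.aeval_algebraMap_apply, AdjoinSimple.algebraMap_gen]
  have hinj : Function.Injective (algebraMap K[X] K⟮x⟯) := by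
    intro p q hpq
    have h2 : algebraMap K[X] F p = algebraMap K[X] F q := by
      rw [IsScalarTower.algebraMap_apply K[X] K⟮x⟯ F, hpq, ← IsScalarTower.algebraMap_apply]
    exact (transcendental_iff_injective.mp hx) h2
  have f1 : FaithfulSMul K[X] K⟮x⟯ := (faithfulSMul_iff_algebraMap_injective _ _).mpr hinj
  have fr : IsFractionRing K[X] K⟮x⟯ := by
    apply IsFractionRing.of_field
    intro z
    obtain ⟨r, s, hrs⟩ := (IntermediateField.mem_adjoin_simple_iff K (z : F)).mp z.2
    refine ⟨r, s, ?_⟩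
    apply Subtype.ext
    rw [hrs]
    change _ = algebraMap K⟮x⟯ F (algebraMap K[X] K⟮x⟯ r / algebraMap K[X] K⟮x⟯ s)
    rw [map_div₀, ← IsScalarTower.algebraMap_apply, ← IsScalarTower.algebraMap_apply]
    rfl
  have e1 : Algebra.FormallyEtale K[X] K⟮x⟯ :=
    Algebra.FormallyEtale.of_isLocalization (nonZeroDivisors K[X])
  have e2 : Algebra.FormallyEtale K⟮x⟯ F := Algebra.FormallyEtale.of_isSeparable _ _
  have e3 : Algebra.FormallyEtale K[X] F := Algebra.FormallyEtale.comp K[X] K⟮x⟯ F
  let E1 := KaehlerDifferential.tensorKaehlerEquivOfFormallyEtale K K[X] F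
  let E2 : F ⊗[K[X]] Ω[K[X]⁄K] ≃ₗ[F] F ⊗[K[X]] K[X] :=
    TensorProduct.AlgebraTensorModule.congr (LinearEquiv.refl F F)
      (KaehlerDifferential.polynomialEquiv K)
  let E3 : F ⊗[K[X]] K[X] ≃ₗ[F] F := TensorProduct.AlgebraTensorModule.rid K[X] F F
  refine ⟨E1.symm.trans (E2.trans E3), ?_⟩
  have hx' : x = algebraMap K[X] F X := by
    change x = Polynomial.aeval x X
    simp
  have h1 : E1.symm (D K F x) = 1 ⊗ₜ D K K[X] X := by
    conv_lhs => rw [hx']
    exact KaehlerDifferential.tensorKaehlerEquivOfFormallyEtale_symm_D_algebraMap K K[X] F X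
  simp only [LinearEquiv.trans_apply, h1]
  simp [E2, E3]


theorem D_ne_zero_of_transcendental (x : F) (hx : Transcendental K x)
    [FiniteDimensional K⟮x⟯ F] : D K F x ≠ 0 := by
  obtain ⟨E, hE⟩ := exists_equiv_D x hx
  intro h
  rw [h, map_zero] at hE
  exact zero_ne_one hE

/-- (G1) existence of a nonzero differential -/
theorem exists_differential_ne_zero (x : F) (hx : Transcendental K x) [FiniteDimensional K⟮x⟯ F] :
    ∃ ω : Ω[F⁄K], ω ≠ 0 := ⟨D K F x, D_ne_zero_of_transcendental x hx⟩

theorem nontrivial_differentials (x : F) (hx : Transcendental K x) [FiniteDimensional K⟮x⟯ F] :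
    Nontrivial Ω[F⁄K] := ⟨⟨D K F x, 0, D_ne_zero_of_transcendental x hx⟩⟩

/-- any nonzero differential generates -/
theorem span_singleton_eq_top_of_ne_zero (x : F) (hx : Transcendental K x)
    [FiniteDimensional K⟮x⟯ F] {η : Ω[F⁄K]} (hη : η ≠ 0) : Submodule.span F {η} = ⊤ := by
  obtain ⟨E, -⟩ := exists_equiv_D x hx
  rw [eq_top_iff]
  intro ω _
  rw [Submodule.mem_span_singleton]
  have hE : E η ≠ 0 := fun h => hη (E.injective (by rw [h, map_zero]))
  refine ⟨E ω / E η, E.injective ?_⟩
  rw [map_smul, smul_eq_mul, div_mul_cancel₀ _ hE]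

end Omega

section PlaceTaylor
open PowerSeries
variable {K F : Type*} [Field K] [Field F] [Algebra K F]
variable (v : Place K F)

theorem exists_taylorData (hdeg : v.deg = 1) {π : v.toValuationSubring} (hπ : Irreducible π) :
    ∃ T : TaylorData K v.toValuationSubring, T.t = π ∧
      ∀ a, T.res a = 0 ↔ a ∈ IsLocalRing.maximalIdeal v.toValuationSubring := by
  have hbij : Function.Bijective (algebraMap K v.ResidueField) :=
    Algebra.finrank_eq_one_iff_bijective_algebraMap.mp hdeg
  let e : K ≃ₐ[K] v.ResidueField := AlgEquiv.ofBijective (Algebra.ofId K v.ResidueField) hbij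
  let r : v.toValuationSubring →ₐ[K] v.ResidueField :=
    IsScalarTower.toAlgHom K v.toValuationSubring v.ResidueField
  have hr : ∀ a, (e.symm.toAlgHom.comp r) a = 0 ↔
      a ∈ IsLocalRing.maximalIdeal v.toValuationSubring := by
    intro a
    rw [← IsLocalRing.residue_eq_zero_iff]
    simp only [AlgHom.comp_apply]
    change e.symm (r a) = 0 ↔ _
    rw [map_eq_zero_iff _ e.symm.injective]
    rfl
  refine ⟨⟨e.symm.toAlgHom.comp r, π, hπ.ne_zero, ?_, ?_⟩, rfl, hr⟩
  · rw [hr, hπ.maximalIdeal_eq]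
    exact Ideal.mem_span_singleton_self π
  · intro a ha
    rw [hr, hπ.maximalIdeal_eq, Ideal.mem_span_singleton] at ha
    exact ha

variable {v}

theorem taylor_relation (T : TaylorData K v.toValuationSubring) (a p q : v.toValuationSubring)
    (h : (q : F) • D K F (a : F) = (p : F) • D K F (T.t : F)) :
    T.taylor q * PowerSeries.derivative K (T.taylor a) = T.taylor p := by
  let O := v.toValuationSubring
  let _ : Algebra O K⟦X⟧ := T.taylor.toRingHom.toAlgebra
  have _ : IsScalarTower K O K⟦X⟧ :=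
    IsScalarTower.of_algebraMap_eq fun c => (T.taylor.commutes c).symm
  let δ : Derivation K O K⟦X⟧ := (PowerSeries.derivative K).compAlgebraMap O
  let L : Ω[O⁄K] →ₗ[O] K⟦X⟧ := δ.liftKaehlerDifferential
  let ξ : Ω[O⁄K] := q • D K O a - p • D K O T.t
  have h0 : KaehlerDifferential.map K K O F ξ = 0 := by
    simp only [ξ, map_sub, map_smul, KaehlerDifferential.map_D]
    rw [sub_eq_zero]
    exact h
  obtain ⟨s, hs⟩ := (IsLocalizedModule.eq_zero_iff (nonZeroDivisors O)
    (KaehlerDifferential.map K K O F)).mp h0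
  have h1 := congrArg L hs
  have hs0 : T.taylor (s : O) ≠ 0 := by
    intro h
    have h2 : (s : O) = 0 := T.taylor_injective (by rw [h, map_zero])
    exact (nonZeroDivisors.coe_ne_zero s) h2
  have hLD : ∀ b : O, L (D K O b) = PowerSeries.derivative K (T.taylor b) := by
    intro b
    simp only [L, Derivation.liftKaehlerDifferential_comp_D]
    rfl
  have hsm : ∀ (b : O) (f : K⟦X⟧), b • f = T.taylor b * f := fun b f => by
    rw [Algebra.smul_def]; rfl
  rw [Submonoid.smul_def, map_smul, map_zero] at h1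
  simp only [ξ, map_sub, map_smul, hLD, hsm, T.taylor_t] at h1
  have h2 := (mul_eq_zero.mp h1).resolve_left hs0
  rw [sub_eq_zero] at h2
  rw [h2]
  simp

theorem exists_ord_eq_order (T : TaylorData K v.toValuationSubring) {a : v.toValuationSubring}
    (ha : a ≠ 0) : ∃ n : ℕ, v.ord (a : F) = n ∧ (T.taylor a).order = n := by
  obtain ⟨n, u, rfl⟩ := IsDiscreteValuationRing.eq_unit_mul_pow_irreducible ha T.irreducible_t
  refine ⟨n, ?_, T.order_taylor_unit_mul_pow u n⟩
  have := v.ord_unit_smul_zpow u T.irreducible_t n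
  simpa using this

theorem D_t_ne_zero (T : TaylorData K v.toValuationSubring) : D K F (T.t : F) ≠ 0 := by
  intro h
  have := taylor_relation T T.t 0 1 (by simp [h])
  simp [T.taylor_t] at this

theorem diff_mem_of_ord_nonneg {y : F} (hy : 0 ≤ v.ord y) : y ∈ v.toValuationSubring := by
  rcases eq_or_ne y 0 with rfl | h0
  · exact zero_mem _
  obtain ⟨π, hπ⟩ := IsDiscreteValuationRing.exists_irreducible v.toValuationSubring
  obtain ⟨u, hu⟩ := v.exists_unit_mul_zpow h0 hπ
  rw [hu]
  obtain ⟨n, hn⟩ := Int.eq_ofNat_of_zero_le hy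
  rw [hn, zpow_natCast]
  exact mul_mem (u : v.toValuationSubring).2 (pow_mem π.2 n)

/-- key computation, for elements of the maximal ideal -/
theorem ord_coeff_of_pos [CharZero K] (T : TaylorData K v.toValuationSubring) {y g : F}
    (hy : 0 < v.ord y) (h : D K F y = g • D K F (T.t : F)) :
    g ≠ 0 ∧ v.ord g = v.ord y - 1 := by
  have hy0 : y ≠ 0 := by
    rintro rfl
    simp at hy
  obtain ⟨a, rfl⟩ : ∃ a : v.toValuationSubring, (a : F) = y := ⟨⟨y, diff_mem_of_ord_nonneg hy.le⟩, rfl⟩
  have ha : a ≠ 0 := by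
    rintro rfl
    exact hy0 rfl
  obtain ⟨p, q, hq, rfl⟩ := IsFractionRing.div_surjective (A := v.toValuationSubring) g
  have hq0 : q ≠ 0 := nonZeroDivisors.ne_zero hq
  have hq0' : (q : F) ≠ 0 := by simpa using hq0
  have hrel := taylor_relation T a p q (by
    rw [h, smul_smul]
    congr 1
    change (q : F) * ((p : F) / (q : F)) = p
    field_simp)
  obtain ⟨na, hna, hna'⟩ := exists_ord_eq_order T ha
  obtain ⟨nq, hnq, hnq'⟩ := exists_ord_eq_order T hq0
  obtain ⟨k, rfl⟩ : ∃ k, na = k + 1 := ⟨na - 1, by omega⟩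
  have hd := order_derivative hna'
  have hord : (T.taylor p).order = (nq + k : ℕ) := by
    rw [← hrel, order_mul, hnq', hd]
    norm_cast
  have hp0 : p ≠ 0 := by
    rintro rfl
    rw [map_zero, order_zero] at hord
    exact (ENat.natCast_ne_top _) hord.symm
  have hp0' : (p : F) ≠ 0 := by simpa using hp0
  obtain ⟨np, hnp, hnp'⟩ := exists_ord_eq_order T hp0
  have hnp2 : np = nq + k := by
    rw [hnp'] at hord
    exact_mod_cast hord
  refine ⟨div_ne_zero hp0' hq0', ?_⟩
  change v.ord ((p : F) / (q : F)) = _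
  rw [div_eq_mul_inv, v.ord_mul hp0' (inv_ne_zero hq0'), v.ord_inv, hnp, hnq, hna, hnp2]
  push_cast
  ring

theorem diff_ord_neg (f : F) : v.ord (-f) = v.ord f := by
  simp [Place.ord, Valuation.map_neg]

/-- key computation -/
theorem ord_coeff_of_ne_zero [CharZero K] (T : TaylorData K v.toValuationSubring) {y g : F}
    (hy : v.ord y ≠ 0) (h : D K F y = g • D K F (T.t : F)) :
    g ≠ 0 ∧ v.ord g = v.ord y - 1 := by
  rcases lt_or_gt_of_ne hy with hneg | hpos
  · have hy0 : y ≠ 0 := by
      rintro rfl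
      simp at hy
    have h1 : D K F y⁻¹ = (-(y⁻¹ ^ 2) * g) • D K F (T.t : F) := by
      rw [Derivation.leibniz_inv, mul_smul, ← h]
    obtain ⟨h3, h2⟩ := ord_coeff_of_pos T (y := y⁻¹) (by rw [v.ord_inv]; omega) h1
    have hg : g ≠ 0 := right_ne_zero_of_mul h3
    refine ⟨hg, ?_⟩
    rw [v.ord_mul (neg_ne_zero.mpr (pow_ne_zero 2 (inv_ne_zero hy0))) hg, diff_ord_neg, pow_two,
      v.ord_mul (inv_ne_zero hy0) (inv_ne_zero hy0), v.ord_inv] at h2
    omega
  · exact ord_coeff_of_pos T hpos h

end PlaceTaylor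

section Final
variable {K F : Type*} [Field K] [Field F] [Algebra K F] [CharZero K]

theorem exists_irreducible_dCoord (v : Place K F) :
    ∃ π : v.toValuationSubring, Irreducible π ∧ v.dCoord = D K F (π : F) :=
  ⟨(IsDiscreteValuationRing.exists_irreducible v.toValuationSubring).choose,
    (IsDiscreteValuationRing.exists_irreducible v.toValuationSubring).choose_spec, rfl⟩

theorem exists_taylorData_dCoord (v : Place K F) (hdeg : v.deg = 1) :
    ∃ T : TaylorData K v.toValuationSubring, v.dCoord = D K F (T.t : F) := by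
  obtain ⟨π, hπ, h⟩ := exists_irreducible_dCoord v
  obtain ⟨T, hT, -⟩ := exists_taylorData v hdeg hπ
  exact ⟨T, by rw [h, hT]⟩

theorem dCoordGenerates (x : F) (hx : Transcendental K x) [FiniteDimensional K⟮x⟯ F]
    (v : Place K F) (hdeg : v.deg = 1) : v.DCoordGenerates := by
  obtain ⟨T, hT⟩ := exists_taylorData_dCoord v hdeg
  exact ⟨span_singleton_eq_top_of_ne_zero x hx (by rw [hT]; exact D_t_ne_zero T)⟩

/-- **Key local computation**: `ord_v (dy/dt) = ord_v y - 1` if `ord_v y ≠ 0`. -/
theorem ordDifferential_D (x : F) (hx : Transcendental K x) [FiniteDimensional K⟮x⟯ F]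
    (v : Place K F) (hdeg : v.deg = 1) {y : F} (hy : v.ord y ≠ 0) :
    v.differentialCoeff (D K F y) ≠ 0 ∧ v.ordDifferential (D K F y) = v.ord y - 1 := by
  obtain ⟨T, hT⟩ := exists_taylorData_dCoord v hdeg
  have := dCoordGenerates x hx v hdeg
  have h := (v.differentialCoeff_smul_dCoord (D K F y)).symm
  rw [hT] at h
  exact ord_coeff_of_ne_zero T hy h

end Final

end Fermat.Agent.S24
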