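import Mathlib
import Fermat.Prelude.Def_AlgebraicCurve_DivisorClassGroup

/-!
# S24 (G1a): places of a function field in one variable

`K` algebraically closed of characteristic zero, `F / K(x)` finite, `x` transcendental.
Main results: basic API for `Place.ord`, places from `ℤ`-valued valuations, places versus maximal
ideals of the integral closure of `K[y]`, residue fields, the fundamental identity.
-/

set_option autoImplicit false
set_option linter.style.haveILetI false
set_option linter.unusedSectionVars false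
set_option linter.deprecated false

noncomputable section

namespace Fermat.Agent.S24

open AlgebraicCurve IntermediateField IsDedekindDomain

section Basic

variable {K F : Type*} [Field K] [Field F] [Algebra K F] (v : Place K F)

theorem mem_iff_ord_nonneg {f : F} (hf : f ≠ 0) : f ∈ v.toValuationSubring ↔ 0 ≤ v.ord f := by
  obtain ⟨π, hπ⟩ := IsDiscreteValuationRing.exists_irreducible v.toValuationSubring
  constructor
  · intro h
    have h1 := v.adicValuation_coe ⟨f, h⟩
    have h2 : v.adicValuation f ≤ 1 := by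
      have h3 : v.adicValuation ((⟨f, h⟩ : v.toValuationSubring) : F) ≤ 1 := by
        rw [h1]; exact v.heightOneSpectrum.intValuation_le_one _
      exact h3
    have h4 : WithZero.log (v.adicValuation f) ≤ 0 := by
      rw [← WithZero.log_one]
      exact (WithZero.log_le_log (v.adicValuation_ne_zero hf) one_ne_zero).mpr h2
    unfold Place.ord
    omega
  · intro h
    obtain ⟨u, hu⟩ := v.exists_unit_mul_zpow hf hπ
    rw [hu]
    obtain ⟨n, hn⟩ := Int.eq_ofNat_of_zero_le h
    rw [hn, zpow_natCast]
    exact mul_mem u.1.2 (pow_mem π.2 n)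

theorem ord_eq_zero_of_mem_of_inv_mem {f : F} (h1 : f ∈ v.toValuationSubring)
    (h2 : f⁻¹ ∈ v.toValuationSubring) : v.ord f = 0 := by
  rcases eq_or_ne f 0 with rfl | hf
  · simp
  have h3 := (mem_iff_ord_nonneg v hf).mp h1
  have h4 := (mem_iff_ord_nonneg v (inv_ne_zero hf)).mp h2
  rw [v.ord_inv] at h4
  omega

theorem ord_algebraMap (c : K) : v.ord (algebraMap K F c) = 0 := by
  apply ord_eq_zero_of_mem_of_inv_mem
  · exact v.algebraMap_mem' c
  · rw [← map_inv₀]; exact v.algebraMap_mem' _

theorem ord_neg (f : F) : v.ord (-f) = v.ord f := by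
  simp [Place.ord]

theorem ord_pow (f : F) (n : ℕ) : v.ord (f ^ n) = n * v.ord f := by
  have := v.ord_zpow f n
  rwa [zpow_natCast] at this

theorem ord_div {f g : F} (hf : f ≠ 0) (hg : g ≠ 0) : v.ord (f / g) = v.ord f - v.ord g := by
  rw [div_eq_mul_inv, v.ord_mul hf (inv_ne_zero hg), v.ord_inv]; ring

theorem min_le_ord_add {f g : F} (hf : f ≠ 0) (hg : g ≠ 0) (h : f + g ≠ 0) :
    min (v.ord f) (v.ord g) ≤ v.ord (f + g) := by
  have h1 := v.adicValuation.map_add f g
  have hf' := v.adicValuation_ne_zero hf
  have hg' := v.adicValuation_ne_zero hg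
  have h' := v.adicValuation_ne_zero h
  unfold Place.ord
  rcases le_max_iff.mp h1 with h2 | h2
  · have := (WithZero.log_le_log h' hf').mpr h2
    omega
  · have := (WithZero.log_le_log h' hg').mpr h2
    omega

theorem ord_add_eq_of_lt {f g : F} (hf : f ≠ 0) (hg : g ≠ 0) (h : v.ord f < v.ord g) :
    v.ord (f + g) = v.ord f := by
  have hfg : f + g ≠ 0 := by
    intro h0
    have : f = -g := eq_neg_of_add_eq_zero_left h0
    rw [this, ord_neg] at h
    exact lt_irrefl _ h
  have h1 := min_le_ord_add v hf hg hfg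
  have h2 : min (v.ord (f + g)) (v.ord (-g)) ≤ v.ord (f + g + -g) :=
    min_le_ord_add v hfg (neg_ne_zero.mpr hg) (by simpa using hf)
  rw [ord_neg, add_neg_cancel_right] at h2
  omega

theorem exists_ord_eq_one : ∃ t : F, v.ord t = 1 := by
  obtain ⟨π, hπ⟩ := IsDiscreteValuationRing.exists_irreducible v.toValuationSubring
  exact ⟨π, v.ord_coe_irreducible hπ⟩

/-- a place is determined by its valuation ring up to inclusion (DVRs are maximal subrings) -/
theorem place_eq_of_le {v w : Place K F} (h : v.toValuationSubring ≤ w.toValuationSubring) :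
    v = w := by
  apply Place.ext
  refine le_antisymm h ?_
  intro f hf
  by_contra hfv
  have hf0 : f ≠ 0 := fun h0 => hfv (h0 ▸ v.toValuationSubring.zero_mem)
  have hneg : v.ord f < 0 := by
    by_contra hn
    exact hfv ((mem_iff_ord_nonneg v hf0).mpr (not_lt.mp hn))
  -- every element of `F` lies in `w`
  apply w.ne_top'
  rw [eq_top_iff]
  intro g _
  rcases eq_or_ne g 0 with rfl | hg
  · exact w.toValuationSubring.zero_mem
  -- choose `n` with `ord (g * f⁻¹ ^ n) ≥ 0`
  obtain ⟨n, hn⟩ : ∃ n : ℕ, 0 ≤ v.ord (g * (f⁻¹) ^ n) := by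
    refine ⟨(-(v.ord g)).toNat, ?_⟩
    rw [v.ord_mul hg (pow_ne_zero _ (inv_ne_zero hf0)), ord_pow, v.ord_inv]
    have h1 : (-(v.ord g)) ≤ ((-(v.ord g)).toNat : ℤ) := Int.self_le_toNat _
    have h2 : (0 : ℤ) ≤ ((-(v.ord g)).toNat : ℤ) := Int.natCast_nonneg _
    nlinarith
  have h1 : g * (f⁻¹) ^ n ∈ w.toValuationSubring :=
    h ((mem_iff_ord_nonneg v (mul_ne_zero hg (pow_ne_zero _ (inv_ne_zero hf0)))).mpr hn)
  have h2 : g = g * (f⁻¹) ^ n * f ^ n := by
    rw [mul_assoc, ← mul_pow, inv_mul_cancel₀ hf0, one_pow, mul_one]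
  rw [h2]
  exact mul_mem h1 (pow_mem hf n)

/-- Any `ℤ`-valued "valuation" with the same valuation ring is a positive multiple of `ord`. -/
theorem exists_ord_eq_mul (φ : F → ℤ) (hmul : ∀ f g, f ≠ 0 → g ≠ 0 → φ (f * g) = φ f + φ g)
    (hmem : ∀ f, f ≠ 0 → (f ∈ v.toValuationSubring ↔ 0 ≤ φ f)) :
    ∃ g : ℤ, 0 < g ∧ ∀ f, f ≠ 0 → φ f = g * v.ord f := by
  obtain ⟨π, hπ⟩ := IsDiscreteValuationRing.exists_irreducible v.toValuationSubring
  have hπ0 : (π : F) ≠ 0 := by
    simpa [ne_eq, ZeroMemClass.coe_eq_zero] using hπ.ne_zero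
  have hone : φ 1 = 0 := by
    have := hmul 1 1 one_ne_zero one_ne_zero
    rw [mul_one] at this; omega
  have hinv : ∀ f, f ≠ 0 → φ f⁻¹ = -φ f := fun f hf => by
    have := hmul f f⁻¹ hf (inv_ne_zero hf)
    rw [mul_inv_cancel₀ hf, hone] at this; omega
  have hpow : ∀ (f : F), f ≠ 0 → ∀ n : ℕ, φ (f ^ n) = n * φ f := by
    intro f hf n
    induction n with
    | zero => simp [hone]
    | succ n ih => rw [pow_succ, hmul _ _ (pow_ne_zero _ hf) hf, ih]; push_cast; ring
  have hzpow : ∀ (f : F), f ≠ 0 → ∀ n : ℤ, φ (f ^ n) = n * φ f := by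
    intro f hf n
    obtain ⟨m, rfl | rfl⟩ := n.eq_nat_or_neg
    · rw [zpow_natCast, hpow f hf]
    · rw [zpow_neg, zpow_natCast, hinv _ (pow_ne_zero _ hf), hpow f hf]; ring
  have hunit : ∀ u : v.toValuationSubringˣ, φ ((u : v.toValuationSubring) : F) = 0 := by
    intro u
    have hu0 : ((u : v.toValuationSubring) : F) ≠ 0 := by simp
    have h1 := (hmem _ hu0).mp u.1.2
    have h2 : (((u : v.toValuationSubring) : F))⁻¹ ∈ v.toValuationSubring := by
      have : (((u⁻¹ : v.toValuationSubringˣ) : v.toValuationSubring) : F)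
          = (((u : v.toValuationSubring) : F))⁻¹ := by
        apply eq_inv_of_mul_eq_one_left
        have := congrArg (Subtype.val) (Units.inv_mul u)
        exact this
      rw [← this]; exact (u⁻¹).1.2
    have h3 := (hmem _ (inv_ne_zero hu0)).mp h2
    rw [hinv _ hu0] at h3
    omega
  refine ⟨φ π, ?_, ?_⟩
  · have h1 := (hmem _ hπ0).mp π.2
    rcases h1.lt_or_eq with h | h
    · exact h
    · exfalso
      have h2 : (π : F)⁻¹ ∈ v.toValuationSubring := by
        rw [hmem _ (inv_ne_zero hπ0), hinv _ hπ0, ← h]; simp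
      have := ord_eq_zero_of_mem_of_inv_mem v π.2 h2
      rw [v.ord_coe_irreducible hπ] at this
      exact one_ne_zero this
  · intro f hf
    obtain ⟨u, hu⟩ := v.exists_unit_mul_zpow hf hπ
    have hu0 : ((u : v.toValuationSubring) : F) ≠ 0 := by simp
    conv_lhs => rw [hu]
    rw [hmul _ _ hu0 (zpow_ne_zero _ hπ0), hunit, hzpow _ hπ0]
    ring

/-- The place attached to a nontrivial `ℤ`-valued valuation which is trivial on `K`. -/
theorem exists_place_of_ord (φ : F → ℤ) (hmul : ∀ f g, f ≠ 0 → g ≠ 0 → φ (f * g) = φ f + φ g)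
    (hadd : ∀ f g, f ≠ 0 → g ≠ 0 → f + g ≠ 0 → min (φ f) (φ g) ≤ φ (f + g))
    (hK : ∀ c : K, c ≠ 0 → φ (algebraMap K F c) = 0) (hne : ∃ f, f ≠ 0 ∧ φ f ≠ 0) :
    ∃ (v : Place K F) (g : ℤ), 0 < g ∧ ∀ f, f ≠ 0 → φ f = g * v.ord f := by
  have hone : φ 1 = 0 := by
    have := hmul 1 1 one_ne_zero one_ne_zero
    rw [mul_one] at this; omega
  have hinv : ∀ f, f ≠ 0 → φ f⁻¹ = -φ f := fun f hf => by
    have := hmul f f⁻¹ hf (inv_ne_zero hf)
    rw [mul_inv_cancel₀ hf, hone] at this; omega
  have hnegone : φ (-1) = 0 := by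
    have := hmul (-1) (-1) (by simp) (by simp)
    rw [neg_mul_neg, mul_one, hone] at this; omega
  have hneg : ∀ f, f ≠ 0 → φ (-f) = φ f := fun f hf => by
    rw [← neg_one_mul, hmul _ _ (by simp) hf, hnegone, zero_add]
  let O : ValuationSubring F :=
    { carrier := {f | f = 0 ∨ 0 ≤ φ f}
      mul_mem' := by
        rintro a b (rfl | ha) (rfl | hb)
        · left; simp
        · left; simp
        · left; simp
        · by_cases ha0 : a = 0
          · left; simp [ha0]
          by_cases hb0 : b = 0
          · left; simp [hb0]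
          right; rw [hmul _ _ ha0 hb0]; omega
      one_mem' := Or.inr hone.ge
      add_mem' := by
        rintro a b ha hb
        by_cases ha0 : a = 0
        · simpa [ha0] using hb
        by_cases hb0 : b = 0
        · simpa [hb0] using ha
        by_cases hab : a + b = 0
        · left; exact hab
        right
        have := hadd a b ha0 hb0 hab
        have ha' := ha.resolve_left ha0
        have hb' := hb.resolve_left hb0
        omega
      zero_mem' := Or.inl rfl
      neg_mem' := by
        rintro a ha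
        by_cases ha0 : a = 0
        · left; simp [ha0]
        right; rw [hneg a ha0]; exact ha.resolve_left ha0
      mem_or_inv_mem' := by
        intro a
        by_cases ha0 : a = 0
        · left; left; exact ha0
        rcases le_total 0 (φ a) with h | h
        · left; right; exact h
        · right; right; rw [hinv a ha0]; omega }
  have hO : ∀ f, f ≠ 0 → (f ∈ O ↔ 0 ≤ φ f) := fun f hf =>
    ⟨fun h => h.resolve_left hf, fun h => Or.inr h⟩
  have hpid : IsPrincipalIdealRing O := by
    refine ⟨fun I => ?_⟩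
    by_cases hI : I = ⊥
    · rw [hI]; exact ⟨0, by simp⟩
    obtain ⟨a0, ha0I, ha00⟩ := Submodule.exists_mem_ne_zero_of_ne_bot hI
    have hex : ∃ n : ℕ, ∃ a ∈ I, a ≠ 0 ∧ φ (a : F) = n := by
      have h1 : (a0 : F) ≠ 0 := by simpa using ha00
      have h2 := (hO _ h1).mp a0.2
      exact ⟨(φ a0).toNat, a0, ha0I, ha00, (Int.toNat_of_nonneg h2).symm⟩
    classical
    obtain ⟨a, haI, ha0, han⟩ := Nat.find_spec hex
    have ha0' : (a : F) ≠ 0 := by simpa using ha0
    refine ⟨a, le_antisymm ?_ ?_⟩
    · intro b hb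
      by_cases hb0 : b = 0
      · rw [hb0]; exact Submodule.zero_mem _
      have hb0' : (b : F) ≠ 0 := by simpa using hb0
      have hbn := (hO _ hb0').mp b.2
      have hmin : Nat.find hex ≤ (φ b).toNat :=
        Nat.find_min' hex ⟨b, hb, hb0, (Int.toNat_of_nonneg hbn).symm⟩
      have hle : φ (a : F) ≤ φ (b : F) := by
        rw [han]; omega
      have hq : (b : F) * (a : F)⁻¹ ∈ O := by
        rw [hO _ (mul_ne_zero hb0' (inv_ne_zero ha0')), hmul _ _ hb0' (inv_ne_zero ha0'),
          hinv _ ha0']
        omega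
      rw [Submodule.mem_span_singleton]
      refine ⟨⟨_, hq⟩, ?_⟩
      apply Subtype.ext
      change (b : F) * (a : F)⁻¹ * (a : F) = b
      rw [mul_assoc, inv_mul_cancel₀ ha0', mul_one]
    · rw [Submodule.span_singleton_le_iff_mem]; exact haI
  let v : Place K F :=
    { toValuationSubring := O
      algebraMap_mem' := fun c => by
        by_cases hc : c = 0
        · left; simp [hc]
        · right; rw [hK c hc]
      ne_top' := by
        intro htop
        obtain ⟨f, hf0, hf⟩ := hne
        have h1 : f ∈ O := htop ▸ ValuationSubring.mem_top f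
        have h2 : f⁻¹ ∈ O := htop ▸ ValuationSubring.mem_top _
        rw [hO _ hf0] at h1
        rw [hO _ (inv_ne_zero hf0), hinv _ hf0] at h2
        omega
      isPrincipalIdealRing' := hpid }
  obtain ⟨g, hg, h⟩ := exists_ord_eq_mul v φ hmul hO
  exact ⟨v, g, hg, h⟩

end Basic

section Dedekind

variable {K F : Type*} [Field K] [Field F] [Algebra K F]
variable {R : Type*} [CommRing R] [IsDedekindDomain R] [Algebra R F] [IsFractionRing R F]
  [Algebra K R] [IsScalarTower K R F]

theorem ord_ofHeightOneSpectrum (w : HeightOneSpectrum R) (f : F) :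
    (Place.ofHeightOneSpectrum (K := K) w).ord f = -(WithZero.log (w.valuation F f)) := by
  rcases eq_or_ne f 0 with rfl | hf
  · simp
  have hne : ∀ g : F, g ≠ 0 → w.valuation F g ≠ 0 := fun g hg => (Valuation.ne_zero_iff _).mpr hg
  obtain ⟨g, hg, h⟩ := exists_ord_eq_mul (Place.ofHeightOneSpectrum (K := K) w)
    (fun f => -(WithZero.log (w.valuation F f)))
    (fun a b ha hb => by
      simp only [map_mul]
      rw [WithZero.log_mul (hne a ha) (hne b hb)]; ring)
    (fun a ha => by
      rw [Place.ofHeightOneSpectrum_toValuationSubring, Valuation.mem_valuationSubring_iff,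
        ← WithZero.log_le_log (hne a ha) one_ne_zero, WithZero.log_one]
      omega)
  obtain ⟨π, hπ⟩ := w.valuation_exists_uniformizer F
  have hπ0 : π ≠ 0 := by
    rintro rfl
    rw [map_zero] at hπ
    exact WithZero.exp_ne_zero hπ.symm
  have h1 := h π hπ0
  simp only [hπ, WithZero.log_exp, neg_neg] at h1
  have hg1 : g = 1 := by
    have : g ∣ 1 := ⟨_, h1⟩
    exact Int.eq_one_of_dvd_one hg.le this
  rw [h f hf, hg1, one_mul]

theorem ofHeightOneSpectrum_injective :
    Function.Injective (Place.ofHeightOneSpectrum (K := K) (F := F) (R := R)) := by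
  intro w w' h
  have h1 : (w.valuation F).valuationSubring = (w'.valuation F).valuationSubring :=
    congrArg Place.toValuationSubring h
  exact HeightOneSpectrum.eq_of_valuation_isEquiv_valuation
    ((Valuation.isEquiv_iff_valuationSubring _ _).mpr h1)

/-- a place whose valuation ring contains `R` comes from a height one prime -/
theorem exists_heightOneSpectrum (v : Place K F)
    (h : ∀ r : R, algebraMap R F r ∈ v.toValuationSubring) :
    ∃ w : HeightOneSpectrum R, Place.ofHeightOneSpectrum (K := K) w = v := by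
  let ι : R →+* v.toValuationSubring := (algebraMap R F).codRestrict v.toValuationSubring.toSubring h
  have hι : ∀ r, ((ι r : v.toValuationSubring) : F) = algebraMap R F r := fun r => rfl
  let P : Ideal R := (IsLocalRing.maximalIdeal v.toValuationSubring).comap ι
  have hPprime : P.IsPrime := Ideal.comap_isPrime ι _
  have hinv : ∀ d : R, d ∉ P → (algebraMap R F d)⁻¹ ∈ v.toValuationSubring := by
    intro d hd
    have h1 : IsUnit (ι d) := by
      by_contra hnu
      exact hd ((IsLocalRing.mem_maximalIdeal _).mpr hnu)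
    obtain ⟨u, hu⟩ := h1
    have h2 : (((u⁻¹ : v.toValuationSubringˣ) : v.toValuationSubring) : F)
        = (algebraMap R F d)⁻¹ := by
      apply eq_inv_of_mul_eq_one_left
      have := congrArg (Subtype.val) (Units.inv_mul u)
      rw [← hι, ← hu]
      exact this
    rw [← h2]; exact (u⁻¹).1.2
  have hPbot : P ≠ ⊥ := by
    intro hbot
    apply v.ne_top'
    rw [eq_top_iff]
    intro f _
    obtain ⟨a, b, hb, rfl⟩ := IsFractionRing.div_surjective (A := R) f
    have hb0 : b ≠ 0 := nonZeroDivisors.ne_zero hb
    have hbP : b ∉ P := by rw [hbot]; simpa using hb0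
    rw [div_eq_mul_inv]
    exact mul_mem (h a) (hinv b hbP)
  refine ⟨⟨P, hPprime, hPbot⟩, place_eq_of_le ?_⟩
  intro f hf
  rw [Place.ofHeightOneSpectrum_toValuationSubring, Valuation.mem_valuationSubring_iff] at hf
  obtain ⟨n, d, hnd⟩ := HeightOneSpectrum.exists_primeCompl_mul_eq_of_integer _ f hf
  have hd : (d : R) ∉ P := d.2
  have hd0 : algebraMap R F d ≠ 0 := by
    intro h0
    apply hd
    have : (d : R) = 0 := (IsFractionRing.injective R F) (by rw [h0, map_zero])
    rw [this]; exact P.zero_mem
  have : f = algebraMap R F n * (algebraMap R F d)⁻¹ := by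
    rw [← hnd, mul_assoc, mul_inv_cancel₀ hd0, mul_one]
  rw [this]
  exact mul_mem (h n) (hinv d hd)

theorem ord_pos_iff_mem (w : HeightOneSpectrum R) (r : R) (hr : r ≠ 0) :
    0 < (Place.ofHeightOneSpectrum (K := K) w).ord (algebraMap R F r) ↔ r ∈ w.asIdeal := by
  have h0 : w.valuation F (algebraMap R F r) ≠ 0 :=
    (Valuation.ne_zero_iff _).mpr (by simpa using hr)
  rw [ord_ofHeightOneSpectrum, ← w.valuation_lt_one_iff_mem (K := F),
    ← WithZero.log_lt_log h0 one_ne_zero, WithZero.log_one]
  omega

/-- residue fields of a finite type Dedekind domain over an algebraically closed field -/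
theorem exists_sub_mem [IsAlgClosed K] [Algebra.FiniteType K R] (w : HeightOneSpectrum R) (r : R) :
    ∃ c : K, r - algebraMap K R c ∈ w.asIdeal := by
  haveI := w.isMaximal
  letI := Ideal.Quotient.field w.asIdeal
  haveI : Algebra.FiniteType K (R ⧸ w.asIdeal) :=
    Algebra.FiniteType.of_surjective (Ideal.Quotient.mkₐ K w.asIdeal)
      (Ideal.Quotient.mkₐ_surjective K _)
  haveI : Module.Finite K (R ⧸ w.asIdeal) := finite_of_finite_type_of_isJacobsonRing K _
  obtain ⟨c, hc⟩ := (IsAlgClosed.algebraMap_bijective_of_isIntegral (k := K)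
    (K := R ⧸ w.asIdeal)).2 (Ideal.Quotient.mk _ r)
  refine ⟨c, ?_⟩
  rw [← Ideal.Quotient.eq]
  exact hc.symm

/-- the residue field of a place coming from a finite type Dedekind domain is `K` -/
theorem exists_ord_sub_pos_aux [IsAlgClosed K] [Algebra.FiniteType K R] (w : HeightOneSpectrum R)
    {u : F} (hu : u ∈ (Place.ofHeightOneSpectrum (K := K) w).toValuationSubring) :
    ∃ c : K, u = algebraMap K F c ∨
      0 < (Place.ofHeightOneSpectrum (K := K) w).ord (u - algebraMap K F c) := by
  rw [Place.ofHeightOneSpectrum_toValuationSubring, Valuation.mem_valuationSubring_iff] at hu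
  obtain ⟨n, d, hnd⟩ := HeightOneSpectrum.exists_primeCompl_mul_eq_of_integer _ u hu
  have hd : (d : R) ∉ w.asIdeal := d.2
  have hd0' : (d : R) ≠ 0 := fun h0 => hd (h0 ▸ w.asIdeal.zero_mem)
  have hd0 : algebraMap R F d ≠ 0 := by simpa using hd0'
  obtain ⟨c1, hc1⟩ := exists_sub_mem (K := K) w n
  obtain ⟨c2, hc2⟩ := exists_sub_mem (K := K) w (d : R)
  have hc20 : c2 ≠ 0 := by
    rintro rfl
    rw [map_zero, sub_zero] at hc2
    exact hd hc2
  refine ⟨c1 / c2, ?_⟩
  let r : R := n - algebraMap K R (c1 / c2) * d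
  have hrP : r ∈ w.asIdeal := by
    have : r = (n - algebraMap K R c1) - algebraMap K R (c1 / c2) * (d - algebraMap K R c2) := by
      simp only [r]
      rw [mul_sub, ← map_mul, div_mul_cancel₀ _ hc20]; ring
    rw [this]
    exact Ideal.sub_mem _ hc1 (Ideal.mul_mem_left _ _ hc2)
  have hur : u - algebraMap K F (c1 / c2) = algebraMap R F r / algebraMap R F d := by
    rw [eq_div_iff hd0, sub_mul, hnd]
    simp only [r]
    rw [map_sub, map_mul, ← IsScalarTower.algebraMap_apply K R F]
  by_cases hr0 : r = 0
  · left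
    rw [hr0, map_zero, zero_div, sub_eq_zero] at hur
    exact hur
  · right
    have hr0' : algebraMap R F r ≠ 0 := by simpa using hr0
    rw [hur, ord_div _ hr0' hd0]
    have h1 := (ord_pos_iff_mem (K := K) (F := F) w r hr0).mpr hrP
    have h2 : ¬ 0 < (Place.ofHeightOneSpectrum (K := K) w).ord (algebraMap R F d) := by
      rw [ord_pos_iff_mem (K := K) (F := F) w d hd0']; exact hd
    have h3 : 0 ≤ (Place.ofHeightOneSpectrum (K := K) w).ord (algebraMap R F d) := by
      rw [← mem_iff_ord_nonneg _ hd0, Place.ofHeightOneSpectrum_toValuationSubring,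
        Valuation.mem_valuationSubring_iff]
      exact w.valuation_le_one _
    omega

end Dedekind


section Abstract

variable {K F : Type*} [Field K] [Field F] [Algebra K F] [IsAlgClosed K]
variable {A B : Type*} [CommRing A] [IsDomain A] [IsPrincipalIdealRing A] [CommRing B]
  [IsDedekindDomain B] [Algebra A B]
  [Algebra B F] [IsFractionRing B F] [Algebra A F] [IsScalarTower A B F]
  [Module.Finite A B] [Module.IsTorsionFree A B]
  [Algebra K A] [Algebra K B] [IsScalarTower K A B] [IsScalarTower K B F] [Algebra.FiniteType K B]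

/-- abstract form of the fundamental identity -/
theorem exists_finset_heightOneSpectrum (K0 : Type*) [Field K0] [Algebra A K0] [IsFractionRing A K0]
    [Algebra K0 F] [IsScalarTower A K0 F] (a : A) (ha : Irreducible a) :
    ∃ s : Finset (HeightOneSpectrum B), (∀ w, w ∈ s ↔ algebraMap A B a ∈ w.asIdeal) ∧
      ∑ w ∈ s, (Place.ofHeightOneSpectrum (K := K) (F := F) w).ord (algebraMap B F (algebraMap A B a))
        = Module.finrank K0 F := by
  classical
  have ha0 : a ≠ 0 := ha.ne_zero
  let p : Ideal A := Ideal.span {a}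
  haveI hpmax : p.IsMaximal := PrincipalIdealRing.isMaximal_of_irreducible ha
  have hp0 : p ≠ ⊥ := by
    simpa [p, Ideal.span_singleton_eq_bot] using ha0
  have hsum := Ideal.sum_ramification_inertia (R := A) (S := B) K0 F hp0
  let vp : HeightOneSpectrum A := ⟨p, hpmax.isPrime, hp0⟩
  have hmem : ∀ P : Ideal B, P ∈ IsDedekindDomain.primesOverFinset p B ↔ P.IsPrime ∧ P.LiesOver p :=
    fun P => IsDedekindDomain.mem_primesOverFinset_iff hp0 B
  let toW : {P // P ∈ IsDedekindDomain.primesOverFinset p B} → HeightOneSpectrum B := fun P =>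
    ⟨P.1, ((hmem P.1).mp P.2).1,
      haveI := ((hmem P.1).mp P.2).2
      Ideal.ne_bot_of_liesOver_of_ne_bot hp0 P.1⟩
  have htoW : Function.Injective toW := fun P Q h =>
    Subtype.ext (congrArg HeightOneSpectrum.asIdeal h)
  have hord : ∀ P : {P // P ∈ IsDedekindDomain.primesOverFinset p B},
      (Place.ofHeightOneSpectrum (K := K) (F := F) (toW P)).ord (algebraMap B F (algebraMap A B a))
        = (Ideal.ramificationIdx' p P.1 * Ideal.inertiaDeg' p P.1 : ℕ) := by
    intro P
    haveI hlo : (toW P).asIdeal.LiesOver vp.asIdeal := ((hmem P.1).mp P.2).2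
    haveI hlo' : P.1.LiesOver p := ((hmem P.1).mp P.2).2
    have h1 := HeightOneSpectrum.intValuation_liesOver vp (toW P) a
    rw [vp.intValuation_singleton ha0 rfl] at h1
    have h2 : (Place.ofHeightOneSpectrum (K := K) (F := F) (toW P)).ord
        (algebraMap B F (algebraMap A B a)) = Ideal.ramificationIdx' p P.1 := by
      rw [ord_ofHeightOneSpectrum, HeightOneSpectrum.valuation_of_algebraMap, ← h1,
        ← WithZero.exp_nsmul, WithZero.log_exp]
      simp
      rfl
    have h3 : Ideal.inertiaDeg' p P.1 = 1 := by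
      rw [Ideal.inertiaDeg'_algebraMap]
      letI := Ideal.Quotient.field p
      haveI : Nontrivial (B ⧸ P.1) :=
        Ideal.Quotient.nontrivial_iff.mpr ((hmem P.1).mp P.2).1.ne_top
      rw [← Subalgebra.bot_eq_top_iff_finrank_eq_one, eq_comm, ← Algebra.surjective_algebraMap_iff]
      intro z
      obtain ⟨b, rfl⟩ := Ideal.Quotient.mk_surjective z
      obtain ⟨c, hc⟩ := exists_sub_mem (K := K) (toW P) b
      refine ⟨Ideal.Quotient.mk p (algebraMap K A c), ?_⟩
      have h4 : Ideal.Quotient.mk P.1 b = Ideal.Quotient.mk P.1 (algebraMap K B c) :=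
        Ideal.Quotient.eq.mpr hc
      rw [h4, IsScalarTower.algebraMap_apply K A B]
      rfl
    rw [h2, h3, mul_one]
  refine ⟨Finset.univ.image toW, ?_, ?_⟩
  · intro w
    rw [Finset.mem_image]
    constructor
    · rintro ⟨P, _, rfl⟩
      haveI hlo' : P.1.LiesOver p := ((hmem P.1).mp P.2).2
      have h1 : a ∈ p := Ideal.mem_span_singleton_self a
      rw [Ideal.LiesOver.over (p := p) (P := P.1), Ideal.mem_comap] at h1
      exact h1
    · intro h1
      have h2 : p ≤ w.asIdeal.comap (algebraMap A B) := by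
        rw [Ideal.span_le, Set.singleton_subset_iff]
        exact h1
      have h3 : p = w.asIdeal.comap (algebraMap A B) :=
        hpmax.eq_of_le (Ideal.comap_ne_top _ w.isPrime.ne_top) h2
      have h4 : w.asIdeal ∈ IsDedekindDomain.primesOverFinset p B := (hmem _).mpr ⟨w.isPrime, ⟨h3⟩⟩
      exact ⟨⟨w.asIdeal, h4⟩, Finset.mem_univ _, rfl⟩
  · rw [Finset.sum_image (fun a _ b _ h => htoW h), ← hsum]
    push_cast
    rw [← Finset.sum_attach (IsDedekindDomain.primesOverFinset p B)]
    refine Finset.sum_congr rfl fun P _ => ?_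
    rw [hord P]
    push_cast
    rfl

end Abstract

section FunctionField

open scoped IntermediateField.algebraAdjoinAdjoin

variable {K F : Type*} [Field K] [Field F] [Algebra K F]

theorem isPrincipalIdealRing_adjoin (y : F) (hy : Transcendental K y) :
    IsPrincipalIdealRing (Algebra.adjoin K {y}) :=
  IsPrincipalIdealRing.of_surjective (Polynomial.algEquivOfTranscendental K y hy).toRingEquiv.toRingHom
    (Polynomial.algEquivOfTranscendental K y hy).surjective

theorem integralClosure_le (y : F) (v : Place K F) (hyv : y ∈ v.toValuationSubring)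
    (b : integralClosure (Algebra.adjoin K {y}) F) : (b : F) ∈ v.toValuationSubring := by
  let S : Subalgebra K F :=
    { v.toValuationSubring.toSubring with algebraMap_mem' := v.algebraMap_mem' }
  have hA : Algebra.adjoin K {y} ≤ S := Algebra.adjoin_le (Set.singleton_subset_iff.mpr hyv)
  let φ : Algebra.adjoin K {y} →+* v.toValuationSubring :=
    (algebraMap (Algebra.adjoin K {y}) F).codRestrict v.toValuationSubring.toSubring
      (fun a => hA a.2)
  have h1 : IsIntegral v.toValuationSubring (b : F) :=
    IsIntegral.map_of_comp_eq φ (RingHom.id F) (by ext; rfl) b.2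
  obtain ⟨z, hz⟩ := IsIntegrallyClosed.isIntegral_iff.mp h1
  rw [← hz]; exact z.2

variable [IsAlgClosed K] [CharZero K]
variable (y : F) (hy : Transcendental K y) [FiniteDimensional K⟮y⟯ F]

include hy in
theorem isDedekindDomain_integralClosure :
    IsDedekindDomain (integralClosure (Algebra.adjoin K {y}) F) := by
  haveI := isPrincipalIdealRing_adjoin y hy
  exact integralClosure.isDedekindDomain (Algebra.adjoin K {y}) K⟮y⟯ F

theorem isFractionRing_integralClosure :
    IsFractionRing (integralClosure (Algebra.adjoin K {y}) F) F :=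
  integralClosure.isFractionRing_of_finite_extension K⟮y⟯ F

include hy in
theorem finite_integralClosure :
    Module.Finite (Algebra.adjoin K {y}) (integralClosure (Algebra.adjoin K {y}) F) := by
  haveI := isPrincipalIdealRing_adjoin y hy
  exact IsIntegralClosure.finite (Algebra.adjoin K {y}) K⟮y⟯ F _

include hy in
theorem finiteType_integralClosure :
    Algebra.FiniteType K (integralClosure (Algebra.adjoin K {y}) F) := by
  haveI := finite_integralClosure y hy
  haveI : Algebra.FiniteType K (Algebra.adjoin K {y}) :=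
    Algebra.FiniteType.adjoin_of_finite (Set.finite_singleton y)
  exact Algebra.FiniteType.trans (S := Algebra.adjoin K {y}) inferInstance inferInstance

include hy in
/-- the residue field is `K`, for places at which `y` is regular -/
theorem exists_ord_sub_pos_of_mem (v : Place K F) (hyv : y ∈ v.toValuationSubring) {u : F}
    (hu : u ∈ v.toValuationSubring) :
    ∃ c : K, u = algebraMap K F c ∨ 0 < v.ord (u - algebraMap K F c) := by
  haveI := isDedekindDomain_integralClosure y hy
  haveI := isFractionRing_integralClosure (K := K) y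
  haveI := finiteType_integralClosure y hy
  obtain ⟨w, rfl⟩ := exists_heightOneSpectrum (R := integralClosure (Algebra.adjoin K {y}) F) v
    (integralClosure_le y v hyv)
  exact exists_ord_sub_pos_aux w hu


include hy in
/-- **Fundamental identity** -/
theorem exists_finset_places_pos :
    ∃ s : Finset (Place K F), (∀ v, v ∈ s ↔ 0 < v.ord y) ∧
      ∑ v ∈ s, v.ord y = Module.finrank K⟮y⟯ F := by
  classical
  haveI := isPrincipalIdealRing_adjoin y hy
  haveI := isDedekindDomain_integralClosure y hy
  haveI := isFractionRing_integralClosure (K := K) y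
  haveI := finiteType_integralClosure y hy
  haveI := finite_integralClosure y hy
  have hy0 : y ≠ 0 := fun h => hy (h ▸ isAlgebraic_zero)
  have hirr : Irreducible (⟨y, Algebra.self_mem_adjoin_singleton K y⟩ : Algebra.adjoin K {y}) := by
    have h1 : Polynomial.algEquivOfTranscendental K y hy Polynomial.X
        = ⟨y, Algebra.self_mem_adjoin_singleton K y⟩ := by
      apply Subtype.ext
      simp [Polynomial.algEquivOfTranscendental]
    rw [← h1]
    exact (MulEquiv.irreducible_iff (Polynomial.algEquivOfTranscendental K y hy).toMulEquiv).mpr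
      Polynomial.irreducible_X
  obtain ⟨s, hs, hsum⟩ := exists_finset_heightOneSpectrum (K := K) (F := F)
    (B := integralClosure (Algebra.adjoin K {y}) F) K⟮y⟯ _ hirr
  have hyB0 : algebraMap (Algebra.adjoin K {y}) (integralClosure (Algebra.adjoin K {y}) F)
      ⟨y, Algebra.self_mem_adjoin_singleton K y⟩ ≠ 0 := fun h =>
    hy0 (congrArg (algebraMap (integralClosure (Algebra.adjoin K {y}) F) F) h)
  refine ⟨s.image (Place.ofHeightOneSpectrum (K := K)), ?_, ?_⟩
  · intro v
    rw [Finset.mem_image]
    constructor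
    · rintro ⟨w, hw, rfl⟩
      exact (ord_pos_iff_mem (K := K) (F := F) w _ hyB0).mpr ((hs w).mp hw)
    · intro hv
      have hyv : y ∈ v.toValuationSubring := (mem_iff_ord_nonneg v hy0).mpr hv.le
      obtain ⟨w, rfl⟩ := exists_heightOneSpectrum
        (R := integralClosure (Algebra.adjoin K {y}) F) v (integralClosure_le y v hyv)
      exact ⟨w, (hs w).mpr ((ord_pos_iff_mem (K := K) (F := F) w _ hyB0).mp hv), rfl⟩
  · rw [Finset.sum_image (fun a _ b _ h => ofHeightOneSpectrum_injective h)]
    exact hsum


end FunctionField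

section AlgClosed

variable {K F : Type*} [Field K] [Field F] [Algebra K F]

theorem adjoin_sub_algebraMap (x : F) (a : K) : K⟮x - algebraMap K F a⟯ = K⟮x⟯ := by
  apply le_antisymm
  · rw [adjoin_simple_le_iff]
    exact sub_mem (mem_adjoin_simple_self K x) (IntermediateField.algebraMap_mem _ a)
  · rw [adjoin_simple_le_iff]
    have h := add_mem (mem_adjoin_simple_self K (x - algebraMap K F a))
      (IntermediateField.algebraMap_mem K⟮x - algebraMap K F a⟯ a)
    rwa [sub_add_cancel] at h

theorem adjoin_inv (x : F) : K⟮x⁻¹⟯ = K⟮x⟯ := by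
  apply le_antisymm
  · rw [adjoin_simple_le_iff]
    exact inv_mem (mem_adjoin_simple_self K x)
  · rw [adjoin_simple_le_iff]
    have h := inv_mem (mem_adjoin_simple_self K x⁻¹)
    rwa [inv_inv] at h

theorem transcendental_sub_algebraMap {x : F} (hx : Transcendental K x) (a : K) :
    Transcendental K (x - algebraMap K F a) := by
  intro h
  apply hx
  have : x = (x - algebraMap K F a) + algebraMap K F a := by ring
  rw [this]
  exact h.add (isAlgebraic_algebraMap a)

theorem transcendental_inv {x : F} (hx : Transcendental K x) : Transcendental K x⁻¹ := by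
  intro h
  apply hx
  have := h.inv
  rwa [inv_inv] at this

variable [IsAlgClosed K] [CharZero K]

/-- the residue field of every place is `K` -/
theorem exists_ord_sub_pos (x : F) (hx : Transcendental K x) [FiniteDimensional K⟮x⟯ F]
    (v : Place K F) {u : F} (hu : u ∈ v.toValuationSubring) :
    ∃ c : K, u = algebraMap K F c ∨ 0 < v.ord (u - algebraMap K F c) := by
  rcases v.toValuationSubring.mem_or_inv_mem x with h | h
  · exact exists_ord_sub_pos_of_mem x hx v h hu
  · haveI : FiniteDimensional K⟮x⁻¹⟯ F := by rw [adjoin_inv]; infer_instance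
    exact exists_ord_sub_pos_of_mem x⁻¹ (transcendental_inv hx) v h hu

theorem deg_eq_one (x : F) (hx : Transcendental K x) [FiniteDimensional K⟮x⟯ F]
    (v : Place K F) : v.deg = 1 := by
  unfold Place.deg
  rw [← Subalgebra.bot_eq_top_iff_finrank_eq_one, eq_comm, ← Algebra.surjective_algebraMap_iff]
  intro z
  obtain ⟨u, rfl⟩ := IsLocalRing.residue_surjective z
  obtain ⟨c, hc⟩ := exists_ord_sub_pos x hx v u.2
  refine ⟨c, ?_⟩
  change IsLocalRing.residue _ (algebraMap K v.toValuationSubring c) = _
  rw [eq_comm, ← sub_eq_zero, ← map_sub, IsLocalRing.residue_eq_zero_iff,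
    IsLocalRing.mem_maximalIdeal, mem_nonunits_iff]
  intro hunit
  obtain ⟨w, hw⟩ := hunit
  have h1 := v.ord_coe_unit w
  rw [hw] at h1
  have h2 : ((u - algebraMap K v.toValuationSubring c : v.toValuationSubring) : F)
      = (u : F) - algebraMap K F c := rfl
  rw [h2] at h1
  rcases hc with hc | hc
  · have h3 : (u - algebraMap K v.toValuationSubring c : v.toValuationSubring) = 0 := by
      apply Subtype.ext
      rw [h2, hc, sub_self]; rfl
    rw [h3] at hw
    exact w.ne_zero hw
  · omega

/-- every place lies over a point of the `x`-line -/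
theorem ord_neg_or_exists_ord_sub_pos (x : F) (hx : Transcendental K x) [FiniteDimensional K⟮x⟯ F]
    (v : Place K F) : v.ord x < 0 ∨ ∃ a : K, 0 < v.ord (x - algebraMap K F a) := by
  have hx0 : x ≠ 0 := fun h => hx (h ▸ isAlgebraic_zero)
  by_cases h : v.ord x < 0
  · exact Or.inl h
  · right
    obtain ⟨c, hc⟩ := exists_ord_sub_pos x hx v ((mem_iff_ord_nonneg v hx0).mpr (not_lt.mp h))
    refine ⟨c, hc.resolve_left ?_⟩
    intro h1
    exact hx (h1 ▸ isAlgebraic_algebraMap c)

/-- **Fundamental identity**, finiteness part. -/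
theorem finite_places_pos (y : F) (hy : Transcendental K y) [FiniteDimensional K⟮y⟯ F] :
    Finite {v : Place K F // 0 < v.ord y} := by
  obtain ⟨s, hs, -⟩ := exists_finset_places_pos y hy
  exact Finite.of_injective (fun v => (⟨v.1, (hs v.1).mpr v.2⟩ : s))
    (fun a b h => Subtype.ext (congrArg (fun z : s => z.1) h))

/-- **Fundamental identity**: the zero divisor of `y` has degree `[F : K(y)]`. -/
theorem sum_ord_pos (y : F) (hy : Transcendental K y) [FiniteDimensional K⟮y⟯ F]
    [Fintype {v : Place K F // 0 < v.ord y}] :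
    ∑ v : {v : Place K F // 0 < v.ord y}, v.1.ord y = Module.finrank K⟮y⟯ F := by
  obtain ⟨s, hs, hsum⟩ := exists_finset_places_pos y hy
  rw [← hsum]
  exact Finset.sum_subtype s hs (fun v => v.ord y) |>.symm

/-- (Skel.lean) -/
theorem ord_le_one_of_card_eq (x : F) (hx : Transcendental K x) [FiniteDimensional K⟮x⟯ F] (a : K)
    (h : Nat.card {v : Place K F // 0 < v.ord (x - algebraMap K F a)} = Module.finrank K⟮x⟯ F)
    (v : Place K F) : v.ord (x - algebraMap K F a) ≤ 1 := by
  haveI : FiniteDimensional K⟮x - algebraMap K F a⟯ F := by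
    rw [adjoin_sub_algebraMap]; infer_instance
  have hy := transcendental_sub_algebraMap hx a
  haveI := finite_places_pos _ hy
  letI := Fintype.ofFinite {v : Place K F // 0 < v.ord (x - algebraMap K F a)}
  have hsum := sum_ord_pos _ hy
  rw [adjoin_sub_algebraMap, ← h, Nat.card_eq_fintype_card, Fintype.card_eq_sum_ones] at hsum
  push_cast at hsum
  by_contra hv
  push Not at hv
  have hlt : ∑ w : {v : Place K F // 0 < v.ord (x - algebraMap K F a)}, (1 : ℤ) <
      ∑ w : {v : Place K F // 0 < v.ord (x - algebraMap K F a)},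
        w.1.ord (x - algebraMap K F a) :=
    Finset.sum_lt_sum (fun w _ => w.2) ⟨⟨v, by omega⟩, Finset.mem_univ _, hv⟩
  omega

end AlgClosed

end Fermat.Agent.S24

end
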