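import Mathlib
import Fermat.Agent.S24.Places
import Fermat.Agent.S24.Differentials

/-!
# S24 (G1b), (G1d): principal divisors have degree zero; the Riemann-Hurwitz computation
-/

set_option linter.unusedSectionVars false

namespace Fermat.Agent.S24

open AlgebraicCurve IntermediateField KaehlerDifferential

section FD
open Cardinal
variable {K F : Type*} [Field K] [Field F] [Algebra K F]

open scoped IntermediateField.algebraAdjoinAdjoin in
theorem isAlgebraic_of_transcendental (x : F) [FiniteDimensional K⟮x⟯ F]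
    (h : F) (hh : Transcendental K h) : Algebra.IsAlgebraic K⟮h⟯ F := by
  have a1 : Algebra.IsAlgebraic (Algebra.adjoin K {x}) F :=
    Algebra.IsAlgebraic.trans (Algebra.adjoin K {x}) K⟮x⟯ F
  have h1 : Algebra.trdeg K F ≤ 1 := by
    have := Algebra.IsAlgebraic.trdeg_le_cardinalMk K ({x} : Set F)
    simpa using this
  have h2 : AlgebraicIndependent K (fun _ : Unit => h) :=
    algebraicIndependent_unique_type_iff.mpr hh
  have h3 : IsTranscendenceBasis K (fun _ : Unit => h) :=
    h2.isTranscendenceBasis_of_lift_trdeg_le_of_finite (by simpa using h1)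
  have h4 := h3.isAlgebraic_field
  have h5 : Set.range (fun _ : Unit => h) = {h} := by simp
  rwa [h5] at h4

theorem finiteDimensional_of_transcendental (x : F) [FiniteDimensional K⟮x⟯ F]
    (h : F) (hh : Transcendental K h) : FiniteDimensional K⟮h⟯ F := by
  have e1 : Algebra.EssFiniteType K K⟮x⟯ :=
    IntermediateField.essFiniteType_iff.mpr ⟨{x}, by simp⟩
  have e3 : Algebra.EssFiniteType K F := Algebra.EssFiniteType.comp K K⟮x⟯ F
  have e4 : Algebra.EssFiniteType K⟮h⟯ F := Algebra.EssFiniteType.of_comp K K⟮h⟯ F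
  obtain ⟨s, hs⟩ := IntermediateField.fg_top K⟮h⟯ F
  have a1 := isAlgebraic_of_transcendental x h hh
  have f1 : FiniteDimensional K⟮h⟯ (adjoin K⟮h⟯ (s : Set F)) :=
    IntermediateField.finiteDimensional_adjoin fun y _ =>
      (Algebra.IsAlgebraic.isAlgebraic y).isIntegral
  rw [hs] at f1
  exact (IntermediateField.topEquiv (F := K⟮h⟯) (E := F)).toLinearEquiv.finiteDimensional

end FD

section Principal
variable {K F : Type*} [Field K] [Field F] [Algebra K F] [IsAlgClosed K] [CharZero K]

theorem hz_exists_algebraMap_of_isAlgebraic {h : F} (hh : IsAlgebraic K h) :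
    ∃ c : K, algebraMap K F c = h := by
  have := IntermediateField.isAlgebraic_adjoin_simple hh.isIntegral
  have h1 := IntermediateField.eq_bot_of_isAlgClosed_of_isAlgebraic K⟮h⟯
  have h2 : h ∈ K⟮h⟯ := mem_adjoin_simple_self K h
  rw [h1, IntermediateField.mem_bot] at h2
  exact h2

theorem hz_finite_setOf_ord_pos (y : F) (hy : Transcendental K y) [FiniteDimensional K⟮y⟯ F] :
    {v : Place K F | 0 < v.ord y}.Finite := by
  have h := finite_places_pos y hy
  exact Set.finite_coe_iff.mp h

theorem hz_sum_toFinset_ord_pos (y : F) (hy : Transcendental K y) [FiniteDimensional K⟮y⟯ F]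
    (hfin : {v : Place K F | 0 < v.ord y}.Finite) :
    ∑ v ∈ hfin.toFinset, v.ord y = Module.finrank K⟮y⟯ F := by
  have : Fintype {v : Place K F // 0 < v.ord y} := hfin.fintype
  rw [← sum_ord_pos y hy]
  exact Finset.sum_subtype _ (fun v => by simp) _

theorem hz_card_toFinset_ord_pos (y : F) (hfin : {v : Place K F | 0 < v.ord y}.Finite) :
    hfin.toFinset.card = Nat.card {v : Place K F // 0 < v.ord y} := by
  exact (Nat.card_eq_card_finite_toFinset hfin).symm

theorem finite_support_ord (x : F) [FiniteDimensional K⟮x⟯ F] (h : F) :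
    (Function.support fun v : Place K F => v.ord h).Finite := by
  by_cases hh : IsAlgebraic K h
  · obtain ⟨c, rfl⟩ := hz_exists_algebraMap_of_isAlgebraic hh
    simp [ord_algebraMap, Function.support]
  · have f1 := finiteDimensional_of_transcendental x h hh
    have f2 := finiteDimensional_of_transcendental x h⁻¹ (transcendental_inv hh)
    refine ((hz_finite_setOf_ord_pos h hh).union
      (hz_finite_setOf_ord_pos h⁻¹ (transcendental_inv hh))).subset ?_
    intro v hv
    simp only [Function.mem_support] at hv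
    simp only [Set.mem_union, Set.mem_ofPred_eq, v.ord_inv]
    omega

theorem finsum_ord_eq_zero (x : F) [FiniteDimensional K⟮x⟯ F] (h : F) :
    ∑ᶠ v : Place K F, v.ord h = 0 := by
  by_cases hh : IsAlgebraic K h
  · obtain ⟨c, rfl⟩ := hz_exists_algebraMap_of_isAlgebraic hh
    simp [ord_algebraMap]
  · have f1 := finiteDimensional_of_transcendental x h hh
    have f2 := finiteDimensional_of_transcendental x h⁻¹ (transcendental_inv hh)
    have s1 := hz_finite_setOf_ord_pos h hh
    have s2 := hz_finite_setOf_ord_pos h⁻¹ (transcendental_inv hh)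
    classical
    have hsub : (Function.support fun v : Place K F => v.ord h) ⊆
        ↑(s1.toFinset ∪ s2.toFinset) := by
      intro v hv
      simp only [Function.mem_support] at hv
      simp only [Finset.coe_union, Set.Finite.coe_toFinset, Set.mem_union, Set.mem_ofPred_eq,
        v.ord_inv]
      omega
    have hdisj : Disjoint s1.toFinset s2.toFinset := by
      rw [Finset.disjoint_left]
      intro v h1 h2
      simp only [Set.Finite.mem_toFinset, Set.mem_ofPred_eq, v.ord_inv] at h1 h2
      omega
    rw [finsum_eq_sum_of_support_subset _ hsub, Finset.sum_union hdisj,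
      hz_sum_toFinset_ord_pos h hh s1]
    have h3 : ∑ v ∈ s2.toFinset, v.ord h = - ∑ v ∈ s2.toFinset, v.ord h⁻¹ := by
      rw [← Finset.sum_neg_distrib]
      exact Finset.sum_congr rfl fun v _ => by rw [v.ord_inv, neg_neg]
    rw [h3, hz_sum_toFinset_ord_pos h⁻¹ (transcendental_inv hh) s2]
    have h4 : Module.finrank K⟮h⁻¹⟯ F = Module.finrank K⟮h⟯ F := by rw [adjoin_inv]
    rw [h4]
    ring

end Principal

section Hurwitz
variable {K F : Type*} [Field K] [Field F] [Algebra K F] [IsAlgClosed K] [CharZero K]

theorem hz_degree_eq_finsum (x : F) (hx : Transcendental K x) [FiniteDimensional K⟮x⟯ F]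
    (D : Divisor K F) : Divisor.degree D = ∑ᶠ v, D v := by
  have h1 : Divisor.degree D = D.sum fun v n => n * (v.deg : ℤ) := by
    simp [Divisor.degree, Finsupp.liftAddHom_apply]
  rw [h1, Finsupp.sum, finsum_eq_sum_of_support_subset _ (s := D.support) (by simp)]
  exact Finset.sum_congr rfl fun v _ => by rw [deg_eq_one x hx v]; simp

theorem hz_D_sub_algebraMap (x : F) (a : K) : D K F (x - algebraMap K F a) = D K F x := by
  rw [map_sub, Derivation.map_algebraMap, sub_zero]

theorem hz_ordDifferential_dx_of_pos (x : F) (hx : Transcendental K x) [FiniteDimensional K⟮x⟯ F]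
    (v : Place K F) {a : K} (h : 0 < v.ord (x - algebraMap K F a)) :
    v.differentialCoeff (D K F x) ≠ 0 ∧
      v.ordDifferential (D K F x) = v.ord (x - algebraMap K F a) - 1 := by
  have := ordDifferential_D x hx v (deg_eq_one x hx v) (y := x - algebraMap K F a) h.ne'
  rwa [hz_D_sub_algebraMap] at this

theorem hz_ordDifferential_dx_of_neg (x : F) (hx : Transcendental K x) [FiniteDimensional K⟮x⟯ F]
    (v : Place K F) (h : v.ord x < 0) :
    v.differentialCoeff (D K F x) ≠ 0 ∧ v.ordDifferential (D K F x) = v.ord x - 1 :=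
  ordDifferential_D x hx v (deg_eq_one x hx v) h.ne

theorem hz_ne_zero_of_ord_ne_zero {v : Place K F} {f : F} (h : v.ord f ≠ 0) : f ≠ 0 := by
  rintro rfl
  simp at h

theorem hz_ord_sub_pos_unique (v : Place K F) {x : F} {a b : K}
    (ha : 0 < v.ord (x - algebraMap K F a)) (hb : 0 < v.ord (x - algebraMap K F b)) : a = b := by
  by_contra hab
  have h1 : (x - algebraMap K F b) + -(x - algebraMap K F a) = algebraMap K F (a - b) := by
    rw [map_sub]; ring
  have h2 : algebraMap K F (a - b) ≠ 0 := by
    rw [Ne, map_eq_zero_iff _ (algebraMap K F).injective, sub_eq_zero]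
    exact hab
  have h3 := min_le_ord_add v (hz_ne_zero_of_ord_ne_zero hb.ne')
    (neg_ne_zero.mpr (hz_ne_zero_of_ord_ne_zero ha.ne')) (by rw [h1]; exact h2)
  rw [h1, ord_algebraMap, ord_neg] at h3
  omega

theorem hz_ord_sub_neg_of_neg (v : Place K F) {x : F} (a : K) (h : v.ord x < 0) :
    v.ord (x - algebraMap K F a) < 0 := by
  rcases eq_or_ne a 0 with rfl | ha
  · simpa using h
  have h2 : algebraMap K F a ≠ 0 := by
    rw [Ne, map_eq_zero_iff _ (algebraMap K F).injective]
    exact ha
  have h3 := ord_add_eq_of_lt v (f := x) (g := -algebraMap K F a) (hz_ne_zero_of_ord_ne_zero h.ne)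
    (neg_ne_zero.mpr h2) (by rw [ord_neg, ord_algebraMap]; exact h)
  rw [sub_eq_add_neg, h3]
  exact h

theorem finsum_ordDifferential_dx (x : F) (hx : Transcendental K x) [FiniteDimensional K⟮x⟯ F]
    (R : Finset K)
    (hunr : ∀ a : K, a ∉ R → ∀ v : Place K F, v.ord (x - algebraMap K F a) ≤ 1) :
    (Function.support fun v : Place K F => v.ordDifferential (D K F x)).Finite ∧
    ∑ᶠ v : Place K F, v.ordDifferential (D K F x) =
      ∑ a ∈ R, ((Module.finrank K⟮x⟯ F : ℤ) -
        Nat.card {v : Place K F // 0 < v.ord (x - algebraMap K F a)})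
      - Module.finrank K⟮x⟯ F - Nat.card {v : Place K F // v.ord x < 0} := by
  classical
  have tP : ∀ a : K, Transcendental K (x - algebraMap K F a) :=
    fun a => transcendental_sub_algebraMap hx a
  have fP : ∀ a : K, FiniteDimensional K⟮x - algebraMap K F a⟯ F :=
    fun a => finiteDimensional_of_transcendental x _ (tP a)
  have hfinP : ∀ a : K, {v : Place K F | 0 < v.ord (x - algebraMap K F a)}.Finite :=
    fun a => hz_finite_setOf_ord_pos _ (tP a)
  have tI := transcendental_inv hx
  have fI := finiteDimensional_of_transcendental x _ tI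
  have hfinI := hz_finite_setOf_ord_pos _ tI
  let P : K → Finset (Place K F) := fun a => (hfinP a).toFinset
  have hP : ∀ a v, v ∈ P a ↔ 0 < v.ord (x - algebraMap K F a) := fun a v => by simp [P]
  have hI : ∀ v, v ∈ hfinI.toFinset ↔ v.ord x < 0 := fun v => by
    simp only [Set.Finite.mem_toFinset, Set.mem_ofPred_eq, v.ord_inv]
    omega
  have hsub : (Function.support fun v : Place K F => v.ordDifferential (D K F x)) ⊆
      ↑(hfinI.toFinset ∪ R.biUnion P) := by
    intro v hv
    simp only [Function.mem_support] at hv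
    rw [Finset.mem_coe, Finset.mem_union, Finset.mem_biUnion, hI]
    rcases ord_neg_or_exists_ord_sub_pos x hx v with h | ⟨a, ha⟩
    · exact Or.inl h
    · right
      refine ⟨a, ?_, (hP a v).mpr ha⟩
      by_contra haR
      have h1 := hunr a haR v
      have h2 := (hz_ordDifferential_dx_of_pos x hx v ha).2
      apply hv
      rw [h2]
      omega
  refine ⟨(Finset.finite_toSet _).subset hsub, ?_⟩
  have hdisj : Disjoint hfinI.toFinset (R.biUnion P) := by
    rw [Finset.disjoint_left]
    intro v h1 h2
    rw [hI] at h1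
    rw [Finset.mem_biUnion] at h2
    obtain ⟨a, -, ha⟩ := h2
    rw [hP] at ha
    have := hz_ord_sub_neg_of_neg v a h1
    omega
  have hpw : (R : Set K).PairwiseDisjoint P := by
    intro a _ b _ hab
    change Disjoint (P a) (P b)
    rw [Finset.disjoint_left]
    intro v h1 h2
    rw [hP] at h1 h2
    exact hab (hz_ord_sub_pos_unique v h1 h2)
  rw [finsum_eq_sum_of_support_subset _ hsub, Finset.sum_union hdisj, Finset.sum_biUnion hpw]
  have hsumP : ∀ a ∈ R, ∑ v ∈ P a, v.ordDifferential (D K F x) =
      (Module.finrank K⟮x⟯ F : ℤ) -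
        Nat.card {v : Place K F // 0 < v.ord (x - algebraMap K F a)} := by
    intro a _
    have h1 : ∑ v ∈ P a, v.ordDifferential (D K F x) =
        ∑ v ∈ P a, (v.ord (x - algebraMap K F a) - 1) :=
      Finset.sum_congr rfl fun v hv => (hz_ordDifferential_dx_of_pos x hx v ((hP a v).mp hv)).2
    rw [h1, Finset.sum_sub_distrib, hz_sum_toFinset_ord_pos _ (tP a) (hfinP a)]
    have h2 : Module.finrank K⟮x - algebraMap K F a⟯ F = Module.finrank K⟮x⟯ F := by
      rw [adjoin_sub_algebraMap]
    rw [h2, Finset.sum_const, hz_card_toFinset_ord_pos]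
    simp
  have hsumI : ∑ v ∈ hfinI.toFinset, v.ordDifferential (D K F x) =
      - (Module.finrank K⟮x⟯ F : ℤ) - Nat.card {v : Place K F // v.ord x < 0} := by
    have h1 : ∑ v ∈ hfinI.toFinset, v.ordDifferential (D K F x) =
        ∑ v ∈ hfinI.toFinset, (- v.ord x⁻¹ - 1) :=
      Finset.sum_congr rfl fun v hv => by
        rw [(hz_ordDifferential_dx_of_neg x hx v ((hI v).mp hv)).2, v.ord_inv, neg_neg]
    rw [h1, Finset.sum_sub_distrib, Finset.sum_neg_distrib, hz_sum_toFinset_ord_pos _ tI hfinI]
    have h2 : Module.finrank K⟮x⁻¹⟯ F = Module.finrank K⟮x⟯ F := by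
      rw [adjoin_inv]
    have h3 : Nat.card {v : Place K F // 0 < v.ord x⁻¹} = Nat.card {v : Place K F // v.ord x < 0} :=
      Nat.card_congr (Equiv.subtypeEquivRight fun v => by rw [v.ord_inv]; omega)
    rw [h2, Finset.sum_const, hz_card_toFinset_ord_pos, h3]
    simp
  rw [Finset.sum_congr rfl hsumP, hsumI]
  ring

/-- (G1) Riemann-Hurwitz computation -/
theorem hurwitz (x : F) (hx : Transcendental K x) [FiniteDimensional K⟮x⟯ F]
    (R : Finset K)
    (hunr : ∀ a : K, a ∉ R → ∀ v : Place K F, v.ord (x - algebraMap K F a) ≤ 1)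
    (ω : Ω[F⁄K]) (hω : ω ≠ 0) (D : Divisor K F) (hD : ∀ v, D v = v.ordDifferential ω) :
    Divisor.degree D =
      ∑ a ∈ R, ((Module.finrank K⟮x⟯ F : ℤ) -
        Nat.card {v : Place K F // 0 < v.ord (x - algebraMap K F a)})
      - Module.finrank K⟮x⟯ F - Nat.card {v : Place K F // v.ord x < 0} := by
  obtain ⟨hfin, hsum⟩ := finsum_ordDifferential_dx x hx R hunr
  have hspan := span_singleton_eq_top_of_ne_zero x hx (D_ne_zero_of_transcendental x hx)
  obtain ⟨g, hg⟩ := (Submodule.mem_span_singleton).mp (hspan ▸ Submodule.mem_top : ω ∈ _)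
  have hg0 : g ≠ 0 := by
    rintro rfl
    rw [zero_smul] at hg
    exact hω hg.symm
  have hnt := nontrivial_differentials x hx
  have hDv : ∀ v : Place K F, D v = v.ord g + v.ordDifferential (KaehlerDifferential.D K F x) := by
    intro v
    have := dCoordGenerates x hx v (deg_eq_one x hx v)
    have hc : v.differentialCoeff (KaehlerDifferential.D K F x) ≠ 0 := by
      rcases ord_neg_or_exists_ord_sub_pos x hx v with h | ⟨a, ha⟩
      · exact (hz_ordDifferential_dx_of_neg x hx v h).1
      · exact (hz_ordDifferential_dx_of_pos x hx v ha).1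
    rw [hD, ← hg, v.ordDifferential_smul hg0 hc]
  rw [hz_degree_eq_finsum x hx, finsum_congr hDv, finsum_add_distrib (finite_support_ord x g) hfin,
    finsum_ord_eq_zero x g, zero_add, hsum]

end Hurwitz

end Fermat.Agent.S24
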