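import Fermat.Agent.S24.PlaceLocal
import Fermat.Agent.S24.Defs

/-!
# S24 (G2): counting the places over a point through a family of embeddings into `ℂ((u))`
-/

set_option autoImplicit false
set_option linter.style.haveILetI false
set_option linter.unusedSectionVars false

noncomputable section

namespace Fermat.Agent.S24

open AlgebraicCurve HahnSeries IntermediateField

lemma scaleFun_zero' (c : ℂ) : scaleFun c 0 = 0 := by
  ext n; simp

lemma scaleFun_eq_zero_iff {c : ℂ} (hc : c ≠ 0) {z : LaurentSeries ℂ} :
    scaleFun c z = 0 ↔ z = 0 := by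
  constructor
  · intro h
    ext n
    have := congrArg (fun w => HahnSeries.coeff w n) h
    simp only [scaleFun_coeff, coeff_zero, mul_eq_zero] at this
    exact this.resolve_left (zpow_ne_zero _ hc)
  · rintro rfl; exact scaleFun_zero' c

lemma order_scaleFun {c : ℂ} (hc : c ≠ 0) (z : LaurentSeries ℂ) :
    (scaleFun c z).order = z.order := by
  rcases eq_or_ne z 0 with rfl | hz
  · rw [scaleFun_zero']
  have hz' : scaleFun c z ≠ 0 := fun h => hz ((scaleFun_eq_zero_iff hc).mp h)
  apply le_antisymm
  · apply order_le_of_coeff_ne_zero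
    rw [scaleFun_coeff]
    exact mul_ne_zero (zpow_ne_zero _ hc) (fun h => hz (coeff_order_eq_zero.mp h))
  · rw [le_order_iff_forall hz']
    intro j hj
    rw [scaleFun_coeff, coeff_eq_zero_of_lt_order hj, mul_zero]

lemma scaleFun_scaleFun (c d : ℂ) (z : LaurentSeries ℂ) :
    scaleFun c (scaleFun d z) = scaleFun (c * d) z := by
  ext n
  simp only [scaleFun_coeff, mul_zpow, mul_assoc]

lemma scaleFun_one' (z : LaurentSeries ℂ) : scaleFun 1 z = z := by
  ext n; simp

section

variable {K F : Type*} [Field K] [Field F] [Algebra K F]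

lemma place_eq_of_induces {v v' : Place K F} {ι : K →+* ℂ} {g g' : ℤ}
    {σ σ' : F →+* LaurentSeries ℂ} (h : Induces v ι g σ) (h' : Induces v' ι g' σ') (hg : 0 < g)
    (hg' : 0 < g') (ho : ∀ f, (σ f).order = (σ' f).order) : v = v' := by
  apply place_eq_of_le
  intro f hf
  rcases eq_or_ne f 0 with rfl | hf0
  · exact zero_mem _
  rw [mem_iff_ord_nonneg _ hf0] at hf ⊢
  have h1 := h.hord f hf0
  rw [ho f, h'.hord f hf0] at h1
  by_contra hneg
  push Not at hneg
  nlinarith

lemma exists_induces (ι : K →+* ℂ) (σ : F →+* LaurentSeries ℂ)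
    (hK : ∀ c, σ (algebraMap K F c) = HahnSeries.C (ι c)) (hne : ∃ f, f ≠ 0 ∧ (σ f).order ≠ 0) :
    ∃ (v : Place K F) (g : ℤ), 0 < g ∧ Induces v ι g σ := by
  have hσ0 : ∀ f, f ≠ 0 → σ f ≠ 0 := fun f hf => (map_ne_zero σ).mpr hf
  obtain ⟨v, g, hg, h⟩ := exists_place_of_ord (K := K) (fun f => (σ f).order)
    (fun a b ha hb => by
      simp only [map_mul]
      exact order_mul (hσ0 a ha) (hσ0 b hb))
    (fun a b _ _ hab => by
      simp only [map_add]
      exact min_order_le_order_add (by rw [← map_add]; exact hσ0 _ hab))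
    (fun c _ => by simp only [hK]; exact order_C)
    hne
  exact ⟨v, g, hg, hK, h⟩

end

section Main

variable {K F : Type*} [Field K] [Field F] [Algebra K F] [IsAlgClosed K] [CharZero K]

/-- (G2) counting places over a point through a family of embeddings into `ℂ((u))`;
`y = x - a` or `y = x⁻¹`. -/
theorem card_places_pos (x y : F) (hx : Transcendental K x) [FiniteDimensional K⟮x⟯ F]
    (hy : K⟮y⟯ = K⟮x⟯)
    {I : Type} [Finite I] (hI : Nat.card I = Module.finrank K⟮x⟯ F)
    (σ : I → F →+* LaurentSeries ℂ) (hσ : Function.Injective σ)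
    (ι : K →+* ℂ) (hK : ∀ i c, σ i (algebraMap K F c) = HahnSeries.C (ι c))
    (hy' : ∀ i k, σ i y = σ k y)
    (ε : ℕ) (lam : ℂ) (hlam : IsPrimitiveRoot lam ε) (hε : 0 < ε)
    (hord : ∀ i, (σ i y).order = ε)
    (s : Equiv.Perm I) (hs : ∀ i f, σ (s i) f = scaleFun lam (σ i f)) :
    Nat.card {v : Place K F // 0 < v.ord y} =
      Nat.card (MulAction.orbitRel.Quotient (Subgroup.zpowers s) I) := by
  classical
  letI := Fintype.ofFinite I
  have hlam0 : lam ≠ 0 := hlam.ne_zero hε.ne'
  -- `y` is transcendental
  have hyT : Transcendental K y := by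
    intro halg
    haveI : Algebra.IsAlgebraic K K⟮y⟯ := isAlgebraic_adjoin_simple halg.isIntegral
    have hxmem : x ∈ K⟮y⟯ := hy ▸ mem_adjoin_simple_self K x
    have h1 : IsAlgebraic K (⟨x, hxmem⟩ : K⟮y⟯) := Algebra.IsAlgebraic.isAlgebraic _
    exact hx (h1.algebraMap (A := F))
  have hy0 : y ≠ 0 := fun h => hyT (h ▸ isAlgebraic_zero)
  haveI : FiniteDimensional K⟮y⟯ F := by rw [hy]; infer_instance
  have hres : ∀ v : Place K F, ResK v := fun v u hu => exists_ord_sub_pos x hx v hu
  -- the places
  have hex : ∀ i, ∃ (v : Place K F) (g : ℤ), 0 < g ∧ Induces v ι g (σ i) := fun i =>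
    exists_induces ι (σ i) (hK i) ⟨y, hy0, by rw [hord i]; exact_mod_cast hε.ne'⟩
  choose V G hG hInd using hex
  have hGy : ∀ i, G i * (V i).ord y = ε := fun i => by rw [← (hInd i).hord y hy0, hord i]
  have hVy : ∀ i, 0 < (V i).ord y := fun i => by
    have h1 := hGy i
    have h2 := hG i
    have h3 : (0 : ℤ) < ε := by exact_mod_cast hε
    by_contra hneg
    push Not at hneg
    nlinarith
  have hVs : ∀ i, V (s i) = V i := fun i =>
    place_eq_of_induces (hInd (s i)) (hInd i) (hG _) (hG _) fun f => by
      rw [hs, order_scaleFun hlam0]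
  -- invariance under the group generated by `s`
  let H : Subgroup (Equiv.Perm I) :=
    { carrier := {z | ∀ i, V (z i) = V i}
      mul_mem' := fun {a b} ha hb i => by rw [Equiv.Perm.mul_apply, ha, hb]
      one_mem' := fun i => rfl
      inv_mem' := fun {a} ha i => by
        have := ha (a⁻¹ i)
        have h2 : a (a⁻¹ i) = i := by
          rw [← Equiv.Perm.mul_apply, mul_inv_cancel, Equiv.Perm.one_apply]
        rw [h2] at this
        exact this.symm }
  have hH : Subgroup.zpowers s ≤ H := (Subgroup.zpowers_le).mpr hVs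
  have horb : ∀ i k, i ∈ MulAction.orbit (Subgroup.zpowers s) k → V i = V k := by
    rintro i k ⟨z, rfl⟩
    exact hH z.2 k
  -- the fundamental identity
  haveI := finite_places_pos y hyT
  letI := Fintype.ofFinite {v : Place K F // 0 < v.ord y}
  have hsum := sum_ord_pos y hyT
  rw [hy, ← hI, Nat.card_eq_fintype_card] at hsum
  let vT : I → {v : Place K F // 0 < v.ord y} := fun i => ⟨V i, hVy i⟩
  -- fibre bound
  have hfib : ∀ v : {v : Place K F // 0 < v.ord y},
      ((Finset.univ.filter fun i => vT i = v).card : ℤ) ≤ v.1.ord y := by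
    intro v
    rcases (Finset.univ.filter fun i => vT i = v).eq_empty_or_nonempty with he | ⟨k0, hk0⟩
    · rw [he]; simpa using v.2.le
    have hmem : ∀ k ∈ Finset.univ.filter (fun i => vT i = v), V k = v.1 := fun k hk =>
      congrArg Subtype.val (Finset.mem_filter.mp hk).2
    refine card_le_of_induces (g := G k0) (ι := ι) (hres v.1) v.2 _ σ hσ.injOn (hG k0) ?_
      (fun k _ l _ => hy' k l)
    intro k hk
    have h1 := hGy k
    have h2 := hGy k0
    rw [hmem k hk] at h1
    rw [hmem k0 hk0] at h2
    have h3 : G k = G k0 := mul_right_cancel₀ v.2.ne' (h1.trans h2.symm)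
    rw [← h3, ← hmem k hk]
    exact hInd k
  have hcard : (Fintype.card I : ℤ) =
      ∑ v : {v : Place K F // 0 < v.ord y}, ((Finset.univ.filter fun i => vT i = v).card : ℤ) := by
    have := Finset.card_eq_sum_card_fiberwise (f := vT) (s := Finset.univ) (t := Finset.univ)
      (fun _ _ => Finset.mem_univ _)
    rw [Finset.card_univ] at this
    exact_mod_cast this
  have hfibeq : ∀ v : {v : Place K F // 0 < v.ord y},
      ((Finset.univ.filter fun i => vT i = v).card : ℤ) = v.1.ord y := by
    have := (Finset.sum_eq_sum_iff_of_le (s := Finset.univ) (fun v _ => hfib v)).mp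
      (hcard.symm.trans hsum.symm)
    exact fun v => this v (Finset.mem_univ v)
  -- orbit sizes
  have hiter : ∀ (m : ℕ) (k : I) (f : F), σ (s^[m] k) f = scaleFun (lam ^ m) (σ k f) := by
    intro m k f
    induction m with
    | zero => simp [scaleFun_one']
    | succ m ih =>
      rw [Function.iterate_succ_apply', hs, ih, scaleFun_scaleFun, pow_succ']
  have horbcard : ∀ k, (V k).ord y ≤ (Nat.card (MulAction.orbit (Subgroup.zpowers s) k) : ℤ) := by
    intro k
    letI := Fintype.ofFinite (MulAction.orbit (Subgroup.zpowers s) k)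
    have h1 := MulAction.minimalPeriod_eq_card (a := s) (b := k)
    rw [Nat.card_eq_fintype_card, ← h1]
    have hpos : 0 < Function.minimalPeriod (s • ·) k := by
      rw [h1]
      exact Fintype.card_pos_iff.mpr ⟨⟨k, MulAction.mem_orbit_self k⟩⟩
    obtain ⟨h, hh⟩ : ∃ h, h = Function.minimalPeriod (s • ·) k := ⟨_, rfl⟩
    rw [← hh] at hpos ⊢
    have hper : s^[h] k = k := by
      rw [hh]
      exact Function.isPeriodicPt_minimalPeriod (s • ·) k
    obtain ⟨t, ht⟩ := exists_ord_eq_one (V k)
    have ht0 : t ≠ 0 := by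
      rintro rfl
      simp at ht
    have h2 := hiter h k t
    rw [hper] at h2
    have h3 := congrArg (fun w => HahnSeries.coeff w (σ k t).order) h2
    simp only [scaleFun_coeff] at h3
    have hc0 : (σ k t).coeff (σ k t).order ≠ 0 := fun h0 =>
      (map_ne_zero (σ k)).mpr ht0 (coeff_order_eq_zero.mp h0)
    have h4 : (lam ^ h) ^ (σ k t).order = 1 := by
      have : (1 : ℂ) * (σ k t).coeff (σ k t).order
          = (lam ^ h) ^ (σ k t).order * (σ k t).coeff (σ k t).order := by rw [one_mul]; exact h3
      exact (mul_right_cancel₀ hc0 this).symm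
    rw [(hInd k).hord t ht0, ht, mul_one, ← zpow_natCast, ← zpow_mul,
      hlam.zpow_eq_one_iff_dvd, ← hGy k, mul_comm (h : ℤ)] at h4
    have h5 : (V k).ord y ∣ (h : ℤ) := Int.dvd_of_mul_dvd_mul_left (hG k).ne' h4
    exact Int.le_of_dvd (by exact_mod_cast hpos) h5
  -- the bijection
  symm
  let Φ : MulAction.orbitRel.Quotient (Subgroup.zpowers s) I → {v : Place K F // 0 < v.ord y} :=
    Quotient.lift vT fun a b hab => Subtype.ext (horb a b hab)
  apply Nat.card_eq_of_bijective Φ
  constructor
  · intro a b
    induction a using Quotient.inductionOn with | _ i => ?_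
    induction b using Quotient.inductionOn with | _ k => ?_
    intro hab
    have hik : vT i = vT k := hab
    apply Quotient.sound
    change i ∈ MulAction.orbit (Subgroup.zpowers s) k
    have hsub : MulAction.orbit (Subgroup.zpowers s) k ⊆
        ((Finset.univ.filter fun i => vT i = vT k : Finset I) : Set I) := by
      intro j hj
      simp only [Finset.coe_filter, Finset.mem_univ, true_and, Set.mem_ofPred_eq]
      exact Subtype.ext (horb j k hj)
    have hle : ((Finset.univ.filter fun i => vT i = vT k : Finset I) : Set I).ncard ≤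
        (MulAction.orbit (Subgroup.zpowers s) k).ncard := by
      rw [Set.ncard_coe_finset]
      have h1 := hfibeq (vT k)
      have h2 := horbcard k
      have h3 : (Nat.card (MulAction.orbit (Subgroup.zpowers s) k))
          = (MulAction.orbit (Subgroup.zpowers s) k).ncard := rfl
      rw [h3] at h2
      have h4 : ((vT k).1).ord y = (V k).ord y := rfl
      omega
    have heq := Set.eq_of_subset_of_ncard_le hsub hle (Set.toFinite _)
    rw [heq]
    simp only [Finset.coe_filter, Finset.mem_univ, true_and, Set.mem_ofPred_eq]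
    exact hik
  · intro v
    have h1 := hfibeq v
    have h2 : 0 < (Finset.univ.filter fun i => vT i = v).card := by
      have := v.2
      omega
    obtain ⟨i, hi⟩ := Finset.card_pos.mp h2
    exact ⟨Quotient.mk _ i, (Finset.mem_filter.mp hi).2⟩

end Main

end Fermat.Agent.S24

end
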