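import Fermat.Agent.S24.Differentials
import Fermat.Agent.S24.Hurwitz
import Fermat.Agent.S24.Places
import Fermat.Agent.S24.PlaceCount
import Fermat.Agent.S24.Frac
import Fermat.Agent.S24.Degree
import Fermat.Agent.S24.Families
import Fermat.Agent.X0.Cosets
import Fermat.Agent.X0.Cusps
import Fermat.Agent.X0.GenusNat

namespace Fermat.Agent.S24

open ModularCurve AlgebraicCurve HahnSeries IntermediateField KaehlerDifferential
open Fermat.Agent.X0
open scoped MatrixGroups

/-- orbits of the cyclic group generated by `g` and by the permutation `toPerm g` agree -/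
lemma card_orbits_toPerm {G X : Type*} [Group G] [MulAction G X] (g : G) :
    Nat.card (MulAction.orbitRel.Quotient (Subgroup.zpowers (MulAction.toPerm g : Equiv.Perm X)) X) =
      Nat.card (MulAction.orbitRel.Quotient (Subgroup.zpowers g) X) := by
  have key : ∀ k : ℤ, (MulAction.toPerm g : Equiv.Perm X) ^ k = MulAction.toPerm (g ^ k) :=
    fun k => (map_zpow (MulAction.toPermHom G X) g k).symm
  have : MulAction.orbitRel (Subgroup.zpowers (MulAction.toPerm g : Equiv.Perm X)) X =
      MulAction.orbitRel (Subgroup.zpowers g) X := by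
    ext a b
    simp only [MulAction.orbitRel_apply, MulAction.mem_orbit_iff, Subtype.exists,
      Subgroup.mem_zpowers_iff, Subgroup.mk_smul]
    constructor
    · rintro ⟨_, ⟨k, rfl⟩, h⟩
      refine ⟨g ^ k, ⟨k, rfl⟩, ?_⟩
      rw [← h, key]
      rfl
    · rintro ⟨_, ⟨k, rfl⟩, h⟩
      refine ⟨(MulAction.toPerm g) ^ k, ⟨k, rfl⟩, ?_⟩
      rw [← h, key]
      rfl
  unfold MulAction.orbitRel.Quotient
  rw [this]

lemma card_orbits_one (X : Type*) :
    Nat.card (MulAction.orbitRel.Quotient (Subgroup.zpowers (1 : Equiv.Perm X)) X) = Nat.card X := by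
  apply Nat.card_congr
  refine (Equiv.ofBijective (fun x => (Quotient.mk'' x : MulAction.orbitRel.Quotient _ X)) ⟨?_, ?_⟩).symm
  · intro a b h
    have h' := Quotient.exact' h
    rw [MulAction.orbitRel_apply, MulAction.mem_orbit_iff] at h'
    obtain ⟨⟨g, hg⟩, h'⟩ := h'
    rw [Subgroup.zpowers_one_eq_bot, Subgroup.mem_bot] at hg
    subst hg
    exact h'.symm
  · intro q
    induction q using Quotient.inductionOn' with
    | h a => exact ⟨a, rfl⟩

variable (N : ℕ) [NeZero N]

lemma adjoin_sub (a : Kb) : Kb⟮jBar N - algebraMap Kb (FN N) a⟯ = Kb⟮jBar N⟯ := by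
  apply le_antisymm
  · rw [adjoin_simple_le_iff]
    exact sub_mem (mem_adjoin_simple_self _ _) (IntermediateField.algebraMap_mem _ _)
  · rw [adjoin_simple_le_iff]
    have h : (jBar N - algebraMap Kb (FN N) a) + algebraMap Kb (FN N) a ∈
        Kb⟮jBar N - algebraMap Kb (FN N) a⟯ :=
      add_mem (mem_adjoin_simple_self _ _) (IntermediateField.algebraMap_mem _ _)
    rwa [sub_add_cancel] at h

lemma adjoin_inv' : Kb⟮(jBar N)⁻¹⟯ = Kb⟮jBar N⟯ := by
  apply le_antisymm
  · rw [adjoin_simple_le_iff]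
    exact inv_mem (mem_adjoin_simple_self _ _)
  · rw [adjoin_simple_le_iff]
    have h : ((jBar N)⁻¹)⁻¹ ∈ Kb⟮(jBar N)⁻¹⟯ := inv_mem (mem_adjoin_simple_self _ _)
    rwa [inv_inv] at h

theorem degree_canonical (ω : Ω[FN N⁄Kb]) (hω : ω ≠ 0) (D : Divisor Kb (FN N))
    (hD : ∀ v, D v = v.ordDifferential ω) :
    (Divisor.degree D : ℚ) + 2 = 2 * genusFormula N := by
  classical
  have htr := jBar_transcendental N
  have hfin := finrank_FN N
  -- generic points
  have hgen : ∀ a : Kb, a ∉ ({0, 1728} : Finset Kb) → ∀ v : Place Kb (FN N),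
      v.ord (jBar N - algebraMap Kb (FN N) a) ≤ 1 := by
    intro a ha v
    simp only [Finset.mem_insert, Finset.mem_singleton, not_or] at ha
    obtain ⟨ι, σ, ⟨h1, h2, h3⟩, h4⟩ := exists_family_generic N a ha.1 ha.2
    apply ord_le_one_of_card_eq (jBar N) htr a
    rw [card_places_pos (jBar N) _ htr (adjoin_sub N a) hfin.symm σ h1 ι h2
      (fun i k => by rw [map_sub, map_sub, h3 i k, h2, h2]) 1 1 IsPrimitiveRoot.one one_pos
      (by simpa using h4) 1 (fun i f => by ext n; simp), card_orbits_one, hfin]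
  have h1728 : Nat.card {v : Place Kb (FN N) // 0 < v.ord (jBar N - algebraMap Kb (FN N) 1728)} =
      Nat.card (MulAction.orbitRel.Quotient (Subgroup.zpowers ModularGroup.S) (Cos N)) := by
    obtain ⟨ι, σ, ⟨h1, h2, h3⟩, h4, h5⟩ := exists_family_1728 N
    exact (card_places_pos (jBar N) _ htr (adjoin_sub N 1728) hfin.symm σ h1 ι h2
      (fun i k => by rw [map_sub, map_sub, h3 i k, h2, h2]) 2 (-1)
      (IsPrimitiveRoot.neg_one 0 (by norm_num)) two_pos
      (by simpa using h4) (MulAction.toPerm ModularGroup.S) (fun i f => h5 i f)).trans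
      (card_orbits_toPerm _)
  have h0 : Nat.card {v : Place Kb (FN N) // 0 < v.ord (jBar N - algebraMap Kb (FN N) 0)} =
      Nat.card (MulAction.orbitRel.Quotient (Subgroup.zpowers Umat) (Cos N)) := by
    obtain ⟨ι, σ, lam, ⟨h1, h2, h3⟩, hl, h4, h5⟩ := exists_family_zero N
    exact (card_places_pos (jBar N) _ htr (adjoin_sub N 0) hfin.symm σ h1 ι h2
      (fun i k => by rw [map_sub, map_sub, h3 i k, h2, h2]) 3 lam hl (by norm_num)
      (by simpa using h4) (MulAction.toPerm Umat) (fun i f => h5 i f)).trans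
      (card_orbits_toPerm _)
  have hinf : Nat.card {v : Place Kb (FN N) // v.ord (jBar N) < 0} =
      Nat.card (MulAction.orbitRel.Quotient (Subgroup.zpowers ModularGroup.T) (Cos N)) := by
    obtain ⟨ι, σ, lam, ⟨h1, h2, h3⟩, hl, h4, h5⟩ := exists_family_infty N
    have := card_places_pos (jBar N) _ htr (adjoin_inv' N) hfin.symm σ h1 ι h2
      (fun i k => by rw [map_inv₀, map_inv₀, h3 i k]) N lam hl (Nat.pos_of_ne_zero (NeZero.ne N))
      h4 (MulAction.toPerm ModularGroup.T) (fun i f => h5 i f)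
    refine Eq.trans ?_ (this.trans (card_orbits_toPerm _))
    apply Nat.card_congr
    refine Equiv.subtypeEquivRight fun v => ?_
    rw [Place.ord_inv]
    omega
  have hH := hurwitz (jBar N) htr {0, 1728} hgen ω hω D hD
  rw [Finset.sum_pair (by norm_num), h0, h1728, hinf, hfin, card_cos, card_orbits_T] at hH
  have hS := two_mul_card_orbits_S N
  have hU := three_mul_card_orbits_U N
  rw [hH, genusFormula]
  have hS' : (2 : ℚ) * (Nat.card (MulAction.orbitRel.Quotient (Subgroup.zpowers ModularGroup.S)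
      (Cos N)) : ℚ) = dedekindPsi N + nuTwo N := by exact_mod_cast hS
  have hU' : (3 : ℚ) * (Nat.card (MulAction.orbitRel.Quotient (Subgroup.zpowers Umat)
      (Cos N)) : ℚ) = dedekindPsi N + 2 * nuThree N := by exact_mod_cast hU
  push_cast
  linarith

theorem result' (N : ℕ) [NeZero N]
    [AlgebraicCurve.HasCanonicalDivisor (K := AlgebraicClosure ℚ) (F := ↥(ModularCurve.modularFunctionFieldBar N))] :
    (AlgebraicCurve.genus (AlgebraicClosure ℚ) ↥(ModularCurve.modularFunctionFieldBar N) : ℚ)
      = ModularCurve.genusFormula N := by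
  have hex : ∃ ω : Ω[FN N⁄Kb], ω ≠ 0 := exists_differential_ne_zero (jBar N) (jBar_transcendental N)
  obtain ⟨g, hg, -⟩ := genusNat_of_counts N (card_cos N) (two_mul_card_orbits_S N)
    (three_mul_card_orbits_U N) (card_orbits_T N)
  unfold AlgebraicCurve.genus
  rw [dif_pos hex]
  have h := degree_canonical N hex.choose hex.choose_spec (canonicalDivisorOf hex.choose_spec)
    (fun v => canonicalDivisorOf_apply hex.choose_spec v)
  rw [← hg] at h ⊢
  have h' : Divisor.degree (canonicalDivisorOf hex.choose_spec) + 2 = 2 * (g : ℤ) := by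
    exact_mod_cast h
  rw [h']
  norm_cast
  simp

end Fermat.Agent.S24
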