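import Mathlib

/-!
# S24 (G2), auxiliary lemmas on Laurent series: truncation predicates
-/

set_option autoImplicit false

noncomputable section

namespace Fermat.Agent.S24

open HahnSeries

/-- `z` has no terms of degree `< d` -/
def Ge (d : ℤ) (z : LaurentSeries ℂ) : Prop := ∀ m < d, z.coeff m = 0

lemma ge_iff_orderTop {d : ℤ} {z : LaurentSeries ℂ} : Ge d z ↔ (d : WithTop ℤ) ≤ z.orderTop := by
  rw [le_orderTop_iff_forall]
  simp only [WithTop.coe_lt_coe]
  rfl

lemma ge_iff_order {d : ℤ} {z : LaurentSeries ℂ} (hz : z ≠ 0) : Ge d z ↔ d ≤ z.order :=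
  (le_order_iff_forall hz).symm

lemma ge_zero (d : ℤ) : Ge d 0 := fun _ _ => rfl

lemma Ge.mono {d d' : ℤ} {z : LaurentSeries ℂ} (h : Ge d z) (hd : d' ≤ d) : Ge d' z :=
  fun m hm => h m (lt_of_lt_of_le hm hd)

lemma Ge.add {d : ℤ} {z z' : LaurentSeries ℂ} (h : Ge d z) (h' : Ge d z') : Ge d (z + z') :=
  fun m hm => by rw [coeff_add, h m hm, h' m hm, add_zero]

lemma Ge.neg {d : ℤ} {z : LaurentSeries ℂ} (h : Ge d z) : Ge d (-z) :=
  fun m hm => by rw [coeff_neg, h m hm, neg_zero]

lemma Ge.sub {d : ℤ} {z z' : LaurentSeries ℂ} (h : Ge d z) (h' : Ge d z') : Ge d (z - z') :=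
  fun m hm => by rw [coeff_sub, h m hm, h' m hm, sub_zero]

lemma Ge.mul {d d' : ℤ} {z z' : LaurentSeries ℂ} (h : Ge d z) (h' : Ge d' z') :
    Ge (d + d') (z * z') := by
  rw [ge_iff_orderTop] at h h' ⊢
  rw [orderTop_mul, WithTop.coe_add]
  exact add_le_add h h'

lemma eq_zero_of_forall_ge {z : LaurentSeries ℂ} (h : ∀ d, Ge d z) : z = 0 := by
  ext m
  exact h (m + 1) m (by omega)

lemma ge_order (z : LaurentSeries ℂ) : Ge z.order z := fun _ hm => coeff_eq_zero_of_lt_order hm

lemma ge_C (a : ℂ) : Ge 0 (C a : LaurentSeries ℂ) := by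
  intro m hm
  rw [C_apply, coeff_single_of_ne hm.ne]

/-- `z ≡ a` modulo the maximal ideal of `ℂ⟦u⟧` -/
def Cong (z : LaurentSeries ℂ) (a : ℂ) : Prop := Ge 1 (z - C a)

lemma Cong.ge {z : LaurentSeries ℂ} {a : ℂ} (h : Cong z a) : Ge 0 z := by
  have : z = (z - C a) + C a := by ring
  rw [this]
  exact (Ge.mono h (by omega)).add (ge_C a)

lemma cong_C (a : ℂ) : Cong (C a) a := by
  unfold Cong; rw [sub_self]; exact ge_zero 1

lemma cong_one : Cong 1 1 := by
  have := cong_C 1
  rwa [map_one] at this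

lemma Cong.add {z z' : LaurentSeries ℂ} {a a' : ℂ} (h : Cong z a) (h' : Cong z' a') :
    Cong (z + z') (a + a') := by
  unfold Cong
  have : z + z' - C (a + a') = (z - C a) + (z' - C a') := by rw [map_add]; ring
  rw [this]
  exact Ge.add h h'

lemma Cong.mul {z z' : LaurentSeries ℂ} {a a' : ℂ} (h : Cong z a) (h' : Cong z' a') :
    Cong (z * z') (a * a') := by
  unfold Cong
  have : z * z' - C (a * a') = (z - C a) * z' + C a * (z' - C a') := by rw [map_mul]; ring
  rw [this]
  exact Ge.add (by simpa using Ge.mul h h'.ge) (by simpa using Ge.mul (ge_C a) h')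

lemma Cong.pow {z : LaurentSeries ℂ} {a : ℂ} (h : Cong z a) (n : ℕ) : Cong (z ^ n) (a ^ n) := by
  induction n with
  | zero => simpa using cong_one
  | succ n ih => rw [pow_succ, pow_succ]; exact ih.mul h

lemma cong_sum {α : Type*} (s : Finset α) (z : α → LaurentSeries ℂ) (a : α → ℂ)
    (h : ∀ i ∈ s, Cong (z i) (a i)) : Cong (∑ i ∈ s, z i) (∑ i ∈ s, a i) := by
  classical
  induction s using Finset.induction_on with
  | empty =>
    have := cong_C 0
    simpa using this
  | insert i s hi ih =>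
    rw [Finset.sum_insert hi, Finset.sum_insert hi]
    exact (h i (Finset.mem_insert_self i s)).add (ih fun j hj => h j (Finset.mem_insert_of_mem hj))

lemma Cong.coeff_zero {z : LaurentSeries ℂ} {a : ℂ} (h : Cong z a) : z.coeff 0 = a := by
  have := h 0 (by omega)
  rw [coeff_sub, C_apply, coeff_single_same, sub_eq_zero] at this
  exact this

lemma Cong.ne_zero {z : LaurentSeries ℂ} {a : ℂ} (h : Cong z a) (ha : a ≠ 0) : z ≠ 0 := by
  rintro rfl
  exact ha h.coeff_zero.symm

lemma Cong.order_eq {z : LaurentSeries ℂ} {a : ℂ} (h : Cong z a) (ha : a ≠ 0) : z.order = 0 := by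
  apply le_antisymm
  · exact order_le_of_coeff_ne_zero (by rw [h.coeff_zero]; exact ha)
  · exact (ge_iff_order (h.ne_zero ha)).mp h.ge

lemma Cong.leadingCoeff_eq {z : LaurentSeries ℂ} {a : ℂ} (h : Cong z a) (ha : a ≠ 0) :
    z.leadingCoeff = a := by
  rw [HahnSeries.leadingCoeff_eq, h.order_eq ha, h.coeff_zero]

lemma leadingCoeff_pow' (z : LaurentSeries ℂ) (n : ℕ) :
    (z ^ n).leadingCoeff = z.leadingCoeff ^ n := by
  induction n with
  | zero => simp
  | succ n ih => rw [pow_succ, pow_succ, leadingCoeff_mul, ih]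

lemma order_inv' {z : LaurentSeries ℂ} (hz : z ≠ 0) : (z⁻¹).order = -z.order := by
  have h := order_mul hz (inv_ne_zero hz)
  rw [mul_inv_cancel₀ hz, order_one] at h
  omega

end Fermat.Agent.S24

end
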