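import Fermat.Agent.S24.Places
import Fermat.Agent.S24.LaurentAux

/-!
# S24 (G2), local part: the number of embeddings into `ℂ((u))` inducing a given place `v` and
agreeing on `y` is at most `ord_v y`.
-/

set_option autoImplicit false
set_option linter.style.haveILetI false
set_option linter.unusedSectionVars false

noncomputable section

namespace Fermat.Agent.S24

open AlgebraicCurve HahnSeries

variable {K F : Type*} [Field K] [Field F] [Algebra K F]

/-- the embedding `σ` induces the place `v` (with ramification `g`) -/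
structure Induces (v : Place K F) (ι : K →+* ℂ) (g : ℤ) (σ : F →+* LaurentSeries ℂ) : Prop where
  hK : ∀ c, σ (algebraMap K F c) = HahnSeries.C (ι c)
  hord : ∀ f, f ≠ 0 → (σ f).order = g * v.ord f

variable {v : Place K F} {ι : K →+* ℂ} {g : ℤ} {σ σ₁ σ₂ : F →+* LaurentSeries ℂ}

lemma Induces.ge (h : Induces v ι g σ) (f : F) : Ge (g * v.ord f) (σ f) := by
  rcases eq_or_ne f 0 with rfl | hf
  · rw [map_zero]; exact ge_zero _
  · rw [← h.hord f hf]; exact ge_order _

lemma Induces.ge_of_mem (h : Induces v ι g σ) (hg : 0 < g) {f : F}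
    (hf : f ∈ v.toValuationSubring) : Ge 0 (σ f) := by
  rcases eq_or_ne f 0 with rfl | hf0
  · rw [map_zero]; exact ge_zero _
  · exact (h.ge f).mono (mul_nonneg hg.le ((mem_iff_ord_nonneg v hf0).mp hf))

/-- the residue field of `v` is `K` -/
def ResK (v : Place K F) : Prop :=
  ∀ u ∈ v.toValuationSubring, ∃ c : K, u = algebraMap K F c ∨ 0 < v.ord (u - algebraMap K F c)

lemma ge_delta_aux (hres : ResK v) (h1 : Induces v ι g σ₁) (h2 : Induces v ι g σ₂) (hg : 0 < g)
    {t : F} (ht : v.ord t = 1) (D : ℤ) (hD : Ge D (σ₁ t - σ₂ t)) (n : ℕ) :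
    ∀ f ∈ v.toValuationSubring, Ge (min D (g * n)) (σ₁ f - σ₂ f) := by
  have ht0 : t ≠ 0 := by
    rintro rfl
    simp at ht
  induction n with
  | zero =>
    intro f hf
    exact ((h1.ge_of_mem hg hf).sub (h2.ge_of_mem hg hf)).mono (by simp)
  | succ n ih =>
    intro f hf
    obtain ⟨c, hc | hc⟩ := hres f hf
    · rw [hc, h1.hK, h2.hK, sub_self]; exact ge_zero _
    · have hfc0 : f - algebraMap K F c ≠ 0 := by
        intro h0
        rw [h0] at hc
        simp at hc
      have hf'0 : (f - algebraMap K F c) / t ≠ 0 := div_ne_zero hfc0 ht0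
      have hf' : (f - algebraMap K F c) / t ∈ v.toValuationSubring := by
        rw [mem_iff_ord_nonneg v hf'0, ord_div v hfc0 ht0, ht]; omega
      have hfeq : f = algebraMap K F c + t * ((f - algebraMap K F c) / t) := by
        field_simp
        ring
      have key : σ₁ f - σ₂ f = σ₁ t * (σ₁ ((f - algebraMap K F c) / t)
          - σ₂ ((f - algebraMap K F c) / t)) + (σ₁ t - σ₂ t) * σ₂ ((f - algebraMap K F c) / t) := by
        conv_lhs => rw [hfeq]
        rw [map_add, map_add, map_mul, map_mul, h1.hK, h2.hK]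
        ring
      rw [key]
      have hA : Ge (g + min D (g * n)) (σ₁ t * (σ₁ ((f - algebraMap K F c) / t)
          - σ₂ ((f - algebraMap K F c) / t))) := by
        have h3 := h1.ge t
        rw [ht, mul_one] at h3
        exact h3.mul (ih _ hf')
      have hB : Ge (D + 0) ((σ₁ t - σ₂ t) * σ₂ ((f - algebraMap K F c) / t)) :=
        hD.mul (h2.ge_of_mem hg hf')
      refine (hA.mono ?_).add (hB.mono ?_)
      · push_cast
        rcases le_total D (g * n) with h | h
        · rw [min_eq_left h]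
          exact (min_le_left _ _).trans (by omega)
        · rw [min_eq_right h]
          exact (min_le_right _ _).trans (by linarith)
      · rw [add_zero]; exact min_le_left _ _

lemma ge_delta (hres : ResK v) (h1 : Induces v ι g σ₁) (h2 : Induces v ι g σ₂) (hg : 0 < g)
    {t : F} (ht : v.ord t = 1) (D : ℤ) (hD : Ge D (σ₁ t - σ₂ t)) {f : F}
    (hf : f ∈ v.toValuationSubring) : Ge D (σ₁ f - σ₂ f) := by
  have h := ge_delta_aux hres h1 h2 hg ht D hD D.toNat f hf
  refine h.mono ?_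
  rw [le_min_iff]
  refine ⟨le_rfl, ?_⟩
  have h1 : D ≤ (D.toNat : ℤ) := Int.self_le_toNat D
  have h2 : (0 : ℤ) ≤ (D.toNat : ℤ) := Int.natCast_nonneg _
  nlinarith

/-- if the two embeddings agree on a uniformizer they are equal -/
lemma eq_of_uniformizer_eq (hres : ResK v) (h1 : Induces v ι g σ₁) (h2 : Induces v ι g σ₂)
    (hg : 0 < g) {t : F} (ht : v.ord t = 1) (htt : σ₁ t = σ₂ t) : σ₁ = σ₂ := by
  have hO : ∀ f ∈ v.toValuationSubring, σ₁ f = σ₂ f := by
    intro f hf
    rw [← sub_eq_zero]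
    apply eq_zero_of_forall_ge
    intro D
    exact ge_delta hres h1 h2 hg ht D (by rw [htt, sub_self]; exact ge_zero _) hf
  ext1 f
  rcases v.toValuationSubring.mem_or_inv_mem f with hf | hf
  · exact hO f hf
  · have := hO _ hf
    rw [map_inv₀, map_inv₀] at this
    exact inv_injective this

/-- Claim A: embeddings inducing `v`, agreeing on `y`, and with the same leading coefficient on a
uniformizer are equal -/
theorem eq_of_leadingCoeff_eq (hres : ResK v) (h1 : Induces v ι g σ₁) (h2 : Induces v ι g σ₂)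
    (hg : 0 < g) {t : F} (ht : v.ord t = 1) {y : F} (hy : 0 < v.ord y) (hyy : σ₁ y = σ₂ y)
    (hL : (σ₁ t).leadingCoeff = (σ₂ t).leadingCoeff) : σ₁ = σ₂ := by
  apply eq_of_uniformizer_eq hres h1 h2 hg ht
  by_contra hne
  have ht0 : t ≠ 0 := by
    rintro rfl
    simp at ht
  have hy0 : y ≠ 0 := by
    rintro rfl
    simp at hy
  have hδ0 : σ₁ t - σ₂ t ≠ 0 := sub_ne_zero.mpr hne
  have hs1 : σ₁ t ≠ 0 := (map_ne_zero σ₁).mpr ht0
  have hs2 : σ₂ t ≠ 0 := (map_ne_zero σ₂).mpr ht0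
  have ho1 : (σ₁ t).order = g := by rw [h1.hord t ht0, ht, mul_one]
  have ho2 : (σ₂ t).order = g := by rw [h2.hord t ht0, ht, mul_one]
  -- `D = order (δ t) > g`
  obtain ⟨D, hD⟩ : ∃ D, D = (σ₁ t - σ₂ t).order := ⟨_, rfl⟩
  have hgD : g < D := by
    have h3 := le_orderTop_of_leadingCoeff_eq (x := σ₁ t) (y := σ₂ t) (g := g)
      (by rw [← order_eq_orderTop_of_ne_zero hs1, ho1])
      (by rw [← order_eq_orderTop_of_ne_zero hs2, ho2]) hL
    rw [← order_eq_orderTop_of_ne_zero hδ0, ← hD] at h3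
    exact_mod_cast h3
  obtain ⟨e, he⟩ := Int.eq_ofNat_of_zero_le hy.le
  have he0 : 0 < e := by omega
  -- `w = t ^ e / y` is a unit at `v`
  have hw0 : t ^ e / y ≠ 0 := div_ne_zero (pow_ne_zero _ ht0) hy0
  have hword : v.ord (t ^ e / y) = 0 := by
    rw [ord_div v (pow_ne_zero _ ht0) hy0, ord_pow, ht, he]; ring
  have hw : t ^ e / y ∈ v.toValuationSubring := by
    rw [mem_iff_ord_nonneg v hw0, hword]
  have hδw : Ge D (σ₁ (t ^ e / y) - σ₂ (t ^ e / y)) :=
    ge_delta hres h1 h2 hg ht D (by rw [hD]; exact ge_order _) hw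
  -- `ρ = σ₁ t / σ₂ t`
  obtain ⟨ρ, hρ⟩ : ∃ ρ, ρ = σ₁ t / σ₂ t := ⟨_, rfl⟩
  have hρ1 : ρ - 1 = (σ₁ t - σ₂ t) * (σ₂ t)⁻¹ := by
    rw [hρ]; field_simp
  have hρ10 : ρ - 1 ≠ 0 := by rw [hρ1]; exact mul_ne_zero hδ0 (inv_ne_zero hs2)
  have hρord : (ρ - 1).order = D - g := by
    rw [hρ1, order_mul hδ0 (inv_ne_zero hs2), order_inv' hs2, ho2, ← hD]; ring
  have hρc : Cong ρ 1 := by
    unfold Cong
    rw [map_one, ge_iff_order hρ10, hρord]; omega
  have hS : Cong (∑ j ∈ Finset.range e, ρ ^ j) (∑ j ∈ Finset.range e, (1 : ℂ) ^ j) :=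
    cong_sum _ _ _ fun j _ => hρc.pow j
  have hS' : (∑ j ∈ Finset.range e, (1 : ℂ) ^ j) ≠ 0 := by
    simp only [one_pow, Finset.sum_const, Finset.card_range, nsmul_eq_mul, mul_one]
    exact_mod_cast he0.ne'
  have hgeom : ρ ^ e - 1 = (∑ j ∈ Finset.range e, ρ ^ j) * (ρ - 1) := (geom_sum_mul ρ e).symm
  have hord1 : (ρ ^ e - 1).order = D - g := by
    rw [hgeom, order_mul (hS.ne_zero hS') hρ10, hS.order_eq hS', hρord, zero_add]
  have hne1 : ρ ^ e - 1 ≠ 0 := by rw [hgeom]; exact mul_ne_zero (hS.ne_zero hS') hρ10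
  -- on the other hand `ρ ^ e = σ₁ w / σ₂ w`
  have hσw2 : σ₂ (t ^ e / y) ≠ 0 := (map_ne_zero σ₂).mpr hw0
  have hρe : ρ ^ e - 1 = (σ₁ (t ^ e / y) - σ₂ (t ^ e / y)) * (σ₂ (t ^ e / y))⁻¹ := by
    have hy2 : σ₂ y ≠ 0 := (map_ne_zero σ₂).mpr hy0
    rw [hρ, map_div₀, map_div₀, map_pow, map_pow, hyy, div_pow]
    field_simp
  have hge : Ge (D + 0) (ρ ^ e - 1) := by
    rw [hρe]
    refine hδw.mul ?_
    rw [ge_iff_order (inv_ne_zero hσw2), order_inv' hσw2, h2.hord _ hw0, hword]
    simp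
  rw [ge_iff_order hne1, hord1] at hge
  omega

/-- Claim B: the leading coefficient of the image of a uniformizer is determined up to an
`e`-th root of unity -/
theorem exists_leadingCoeff_pow_eq (hres : ResK v) {t y : F} (ht : v.ord t = 1) (e : ℕ)
    (he : v.ord y = e) (he0 : 0 < e) (ι : K →+* ℂ) :
    ∃ c : K, ∀ (g : ℤ) (σ : F →+* LaurentSeries ℂ), 0 < g → Induces v ι g σ →
      (σ t).leadingCoeff ^ e = (σ y).leadingCoeff * ι c := by
  have ht0 : t ≠ 0 := by
    rintro rfl
    simp at ht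
  have hy0 : y ≠ 0 := by
    rintro rfl
    simp at he
    omega
  have hw0 : t ^ e / y ≠ 0 := div_ne_zero (pow_ne_zero _ ht0) hy0
  have hword : v.ord (t ^ e / y) = 0 := by
    rw [ord_div v (pow_ne_zero _ ht0) hy0, ord_pow, ht, he]; ring
  have hw : t ^ e / y ∈ v.toValuationSubring := by
    rw [mem_iff_ord_nonneg v hw0, hword]
  obtain ⟨c, hc⟩ := hres _ hw
  have hc0 : c ≠ 0 := by
    rintro rfl
    rw [map_zero, sub_zero, hword] at hc
    rcases hc with hc | hc
    · exact hw0 hc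
    · exact lt_irrefl _ hc
  refine ⟨c, fun g σ hg h => ?_⟩
  have hcong : Cong (σ (t ^ e / y)) (ι c) := by
    unfold Cong
    rw [← h.hK, ← map_sub]
    rcases hc with hc | hc
    · rw [hc, sub_self, map_zero]; exact ge_zero _
    · refine (h.ge _).mono ?_
      nlinarith
  have hιc : ι c ≠ 0 := (map_ne_zero ι).mpr hc0
  have h1 : σ t ^ e = σ y * σ (t ^ e / y) := by
    rw [← map_pow, ← map_mul]
    congr 1
    field_simp
  rw [← leadingCoeff_pow', h1, leadingCoeff_mul, hcong.leadingCoeff_eq hιc]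

/-- the number of embeddings inducing `v` and agreeing on `y` is at most `ord_v y` -/
theorem card_le_of_induces (hres : ResK v) {y : F} (hy : 0 < v.ord y) {I : Type*} (J : Finset I)
    (σ : I → F →+* LaurentSeries ℂ) (hσ : Set.InjOn σ J) (hg : 0 < g)
    (hind : ∀ k ∈ J, Induces v ι g (σ k)) (hyy : ∀ k ∈ J, ∀ l ∈ J, σ k y = σ l y) :
    (J.card : ℤ) ≤ v.ord y := by
  classical
  obtain ⟨t, ht⟩ := exists_ord_eq_one v
  obtain ⟨e, he⟩ := Int.eq_ofNat_of_zero_le hy.le
  have he0 : 0 < e := by omega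
  obtain ⟨c, hc⟩ := exists_leadingCoeff_pow_eq hres ht e he he0 ι
  rcases J.eq_empty_or_nonempty with rfl | ⟨k0, hk0⟩
  · simpa using hy.le
  rw [he]
  have h1 : J.card ≤ (Polynomial.nthRoots e ((σ k0 y).leadingCoeff * ι c)).toFinset.card := by
    apply Finset.card_le_card_of_injOn (fun k => (σ k t).leadingCoeff)
    · intro k hk
      simp only [Finset.coe_sort_coe, Finset.mem_coe, Multiset.mem_toFinset]
      rw [Polynomial.mem_nthRoots he0, hc g (σ k) hg (hind k hk), hyy k hk k0 hk0]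
    · intro k hk l hl hkl
      exact hσ hk hl (eq_of_leadingCoeff_eq hres (hind k hk) (hind l hl) hg ht hy
        (hyy k hk l hl) hkl)
  have h2 := (Multiset.toFinset_card_le _).trans
    (Polynomial.card_nthRoots e ((σ k0 y).leadingCoeff * ι c))
  exact_mod_cast h1.trans h2

end Fermat.Agent.S24

end
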